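import Mathlib.Analysis.SpecialFunctions.Complex.Arg
import Mathlib.Tactic

/-!
# The honeycomb lattice

A pair `(a, b)` stands for `a + b ω` with `ω = exp (i π / 3)`; the vertices are the pairs with
`(a - b) % 3 ≠ 2` and the edges join vertices at distance one.
-/

set_option autoImplicit false

noncomputable section

open Complex
open scoped ComplexConjugate

namespace FA.Honeycomb

/-- The square of the distance from the origin. -/
def nrm (v : ℤ × ℤ) : ℤ := v.1 ^ 2 + v.1 * v.2 + v.2 ^ 2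

/-- Twice the scalar product. -/
def ip (u v : ℤ × ℤ) : ℤ := 2 * u.1 * v.1 + u.1 * v.2 + u.2 * v.1 + 2 * u.2 * v.2

/-- The class modulo three: `0` black, `1` white, `2` the centre of a hexagon. -/
def cls (v : ℤ × ℤ) : ℤ := (v.1 - v.2) % 3

/-- The vertices of the lattice. -/
def IsVert (v : ℤ × ℤ) : Prop := (v.1 - v.2) % 3 ≠ 2

/-- Adjacency. -/
def Nbr (u v : ℤ × ℤ) : Prop := IsVert u ∧ IsVert v ∧ nrm (v - u) = 1

instance (v : ℤ × ℤ) : Decidable (IsVert v) := by unfold IsVert; infer_instance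

instance (u v : ℤ × ℤ) : Decidable (Nbr u v) := by unfold Nbr; infer_instance

/-- Rotation by sixty degrees. -/
def rot (v : ℤ × ℤ) : ℤ × ℤ := (-v.2, v.1 + v.2)

/-- Rotation by minus sixty degrees. -/
def rotInv (v : ℤ × ℤ) : ℤ × ℤ := (v.1 + v.2, -v.1)

/-- The six unit vectors. -/
def units : Finset (ℤ × ℤ) := {(1, 0), (0, 1), (-1, 1), (-1, 0), (0, -1), (1, -1)}

theorem mem_units {d : ℤ × ℤ} : d ∈ units ↔ nrm d = 1 := by
  constructor
  · intro h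
    fin_cases h <;> rfl
  · intro h
    obtain ⟨a, b⟩ := d
    simp only [nrm] at h
    have h1 : -1 ≤ a ∧ a ≤ 1 := by constructor <;> nlinarith [sq_nonneg (a + 2 * b)]
    have h2 : -1 ≤ b ∧ b ≤ 1 := by constructor <;> nlinarith [sq_nonneg (2 * a + b)]
    obtain ⟨h1, h1'⟩ := h1
    obtain ⟨h2, h2'⟩ := h2
    interval_cases a <;> interval_cases b <;> first | decide | norm_num at h

theorem isVert_iff {v : ℤ × ℤ} : IsVert v ↔ cls v = 0 ∨ cls v = 1 := by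
  simp only [IsVert, cls]
  omega

/-- The edges at a black vertex are three alternate unit vectors, those at a white one the other
three. -/
theorem Nbr.cases {u v : ℤ × ℤ} (h : Nbr u v) :
    (cls u = 0 ∧ cls v = 1 ∧ (v - u = (1, 0) ∨ v - u = (-1, 1) ∨ v - u = (0, -1))) ∨
      (cls u = 1 ∧ cls v = 0 ∧ (v - u = (0, 1) ∨ v - u = (-1, 0) ∨ v - u = (1, -1))) := by
  obtain ⟨hu, hv, hd⟩ := h
  have hm := mem_units.2 hd
  simp only [units, Finset.mem_insert, Finset.mem_singleton] at hm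
  simp only [IsVert] at hu hv
  simp only [cls, Prod.ext_iff, Prod.fst_sub, Prod.snd_sub] at *
  omega

theorem Nbr.symm {u v : ℤ × ℤ} (h : Nbr u v) : Nbr v u := by
  refine ⟨h.2.1, h.1, ?_⟩
  rw [← h.2.2, nrm, nrm]
  simp only [Prod.fst_sub, Prod.snd_sub]
  ring

theorem Nbr.ne {u v : ℤ × ℤ} (h : Nbr u v) : u ≠ v := by
  rintro rfl
  simpa [nrm] using h.2.2

/-- The two ways on, from an edge. -/
theorem nbr_turns {u v : ℤ × ℤ} (h : Nbr u v) :
    Nbr v (v + rot (v - u)) ∧ Nbr v (v + rotInv (v - u)) ∧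
      v + rot (v - u) ≠ u ∧ v + rotInv (v - u) ≠ u ∧ v + rot (v - u) ≠ v + rotInv (v - u) ∧
      ∀ w, Nbr v w → w ≠ u → w = v + rot (v - u) ∨ w = v + rotInv (v - u) := by
  have hc := h.cases
  have key : ∀ w, Nbr v w → w ≠ u → w = v + rot (v - u) ∨ w = v + rotInv (v - u) := by
    intro w hw hwu
    have hcw := hw.cases
    simp only [cls, rot, rotInv, Prod.ext_iff, Prod.fst_sub, Prod.snd_sub, Prod.fst_add,
      Prod.snd_add, ne_eq] at *
    omega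
  refine ⟨⟨h.2.1, ?_, ?_⟩, ⟨h.2.1, ?_, ?_⟩, ?_, ?_, ?_, key⟩
  all_goals try
    simp only [IsVert, cls, rot, rotInv, Prod.ext_iff, Prod.fst_sub, Prod.snd_sub, Prod.fst_add,
      Prod.snd_add, ne_eq] at hc ⊢
    omega
  · rw [← h.2.2, add_sub_cancel_left]
    simp only [nrm, rot]
    ring
  · rw [← h.2.2, add_sub_cancel_left]
    simp only [nrm, rotInv]
    ring

/-- The point of the plane. -/
def pos (v : ℤ × ℤ) : ℂ := ⟨v.1 + v.2 / 2, v.2 * (Real.sqrt 3 / 2)⟩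

theorem pos_sub (u v : ℤ × ℤ) : pos (u - v) = pos u - pos v := by
  apply Complex.ext <;> simp [pos] <;> ring

theorem two_mul_re_conj_pos_mul (u v : ℤ × ℤ) : 2 * (conj (pos u) * pos v).re = (ip u v : ℝ) := by
  simp only [pos, ip, mul_re, conj_re, conj_im]
  push_cast
  linear_combination ((u.2 : ℝ) * v.2 / 2) * Real.mul_self_sqrt (show (0 : ℝ) ≤ 3 by norm_num)

theorem re_conj_pos_mul_pos_iff {u v : ℤ × ℤ} : 0 < (conj (pos u) * pos v).re ↔ 0 < ip u v := by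
  rw [← Int.cast_pos (R := ℝ), ← two_mul_re_conj_pos_mul]
  constructor <;> intro h <;> linarith

/-- A unit vector against a long one. -/
theorem ip_sq_le (u v : ℤ × ℤ) : ip u v ^ 2 ≤ 4 * nrm u * nrm v := by
  simp only [ip, nrm]
  nlinarith [sq_nonneg (u.1 * v.2 - u.2 * v.1)]

set_option synthInstance.maxSize 2000 in
theorem segments_finite : ∀ d₁ ∈ units, ∀ d₂ ∈ units, ∀ z₁ ∈ Finset.Icc (-2 : ℤ) 2,
    ∀ z₂ ∈ Finset.Icc (-2 : ℤ) 2, ∀ k ∈ Finset.Icc (0 : ℤ) 1,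
      ((k + d₁.1 - d₁.2) % 3 ≠ 2) → ((k + z₁ - z₂) % 3 ≠ 2) →
      ((k + (z₁ + d₂.1) - (z₂ + d₂.2)) % 3 ≠ 2) →
      (z₁, z₂) ≠ (0, 0) → (z₁, z₂) ≠ d₁ → (z₁, z₂) + d₂ ≠ (0, 0) → (z₁, z₂) + d₂ ≠ d₁ →
      4 < nrm (2 * z₁ + d₂.1 - d₁.1, 2 * z₂ + d₂.2 - d₁.2) := by
  decide +kernel

/-- **Disjoint edges are far apart**: seen from one another they fill less than a half plane. -/
theorem ip_pos_of_disjoint {a b c d : ℤ × ℤ} (hab : Nbr a b) (hcd : Nbr c d) (h1 : a ≠ c)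
    (h2 : a ≠ d) (h3 : b ≠ c) (h4 : b ≠ d) :
    0 < ip (c + d - a - b) (c - a) ∧ 0 < ip (c + d - a - b) (d - a) ∧
      0 < ip (c + d - a - b) (c - b) ∧ 0 < ip (c + d - a - b) (d - b) := by
  obtain ⟨d₁, rfl⟩ : ∃ e, b = a + e := ⟨b - a, by abel⟩
  obtain ⟨z, rfl⟩ : ∃ e, c = a + e := ⟨c - a, by abel⟩
  obtain ⟨d₂, rfl⟩ : ∃ e, d = a + z + e := ⟨d - (a + z), by abel⟩
  have hd1 : nrm d₁ = 1 := by simpa using hab.2.2
  have hd2 : nrm d₂ = 1 := by simpa using hcd.2.2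
  set M : ℤ × ℤ := (2 * z.1 + d₂.1 - d₁.1, 2 * z.2 + d₂.2 - d₁.2) with hM
  have hbig : 4 < nrm M := by
    by_contra hle
    have hu1 := mem_units.2 hd1
    have hu2 := mem_units.2 hd2
    have hz : z.1 ∈ Finset.Icc (-2 : ℤ) 2 ∧ z.2 ∈ Finset.Icc (-2 : ℤ) 2 := by
      simp only [nrm, hM] at hle hd1 hd2
      have e1 : -3 ≤ M.1 ∧ M.1 ≤ 3 := by
        constructor <;> simp only [hM] <;>
          nlinarith [sq_nonneg (2 * z.1 + d₂.1 - d₁.1 + 2 * (2 * z.2 + d₂.2 - d₁.2))]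
      have e2 : -3 ≤ M.2 ∧ M.2 ≤ 3 := by
        constructor <;> simp only [hM] <;>
          nlinarith [sq_nonneg (2 * (2 * z.1 + d₂.1 - d₁.1) + (2 * z.2 + d₂.2 - d₁.2))]
      simp only [units, Finset.mem_insert, Finset.mem_singleton, Prod.ext_iff] at hu1 hu2
      simp only [hM] at e1 e2
      simp only [Finset.mem_Icc]
      omega
    have hk : ∀ e : ℤ × ℤ, IsVert (a + e) → (cls a + e.1 - e.2) % 3 ≠ 2 := fun e he => by
      simp only [IsVert, Prod.fst_add, Prod.snd_add] at he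
      simp only [cls]
      omega
    have hka : cls a ∈ Finset.Icc (0 : ℤ) 1 := by
      have := isVert_iff.1 hab.1
      simp only [Finset.mem_Icc]
      omega
    refine hle (segments_finite d₁ hu1 d₂ hu2 z.1 hz.1 z.2 hz.2 (cls a) hka (hk _ hab.2.1)
      (hk _ hcd.1) (hk (z + d₂) (by rw [← add_assoc]; exact hcd.2.1)) (fun h => h1 ?_)
      (fun h => h3 ?_) (fun h => h2 ?_) fun h => h4 ?_)
    · rw [show z = 0 from h, add_zero]
    · rw [show z = d₁ from h]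
    · rw [add_assoc, show z + d₂ = 0 from h, add_zero]
    · rw [add_assoc, show z + d₂ = d₁ from h]
  have key : ∀ e : ℤ × ℤ, nrm e ≤ 4 → 0 < ip M (M.1 + e.1, M.2 + e.2) := fun e he => by
    have h5 : ip M (M.1 + e.1, M.2 + e.2) = 2 * nrm M + ip M e := by simp only [ip, nrm]; ring
    have h6 := ip_sq_le M e
    rw [h5]
    nlinarith
  have hd12 : nrm (d₁.1 + d₂.1, d₁.2 + d₂.2) ≤ 4 ∧ nrm (d₁.1 - d₂.1, d₁.2 - d₂.2) ≤ 4 := by
    have hu1 := mem_units.2 hd1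
    have hu2 := mem_units.2 hd2
    fin_cases hu1 <;> fin_cases hu2 <;> simp [nrm]
  have hneg : ∀ e : ℤ × ℤ, nrm (-e.1, -e.2) = nrm e := fun e => by simp [nrm]
  have e0 : a + z + (a + z + d₂) - a - (a + d₁) = M := by
    ext <;> simp [hM] <;> ring
  have htwo : ∀ v : ℤ × ℤ, ip M (2 * v.1, 2 * v.2) = 2 * ip M v := fun v => by
    simp only [ip]
    ring
  rw [e0]
  refine ⟨?_, ?_, ?_, ?_⟩
  · have h := key _ (show nrm (d₁.1 - d₂.1, d₁.2 - d₂.2) ≤ 4 from hd12.2)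
    rw [show ((M.1 + (d₁.1 - d₂.1), M.2 + (d₁.2 - d₂.2)) : ℤ × ℤ) =
      (2 * (a + z - a).1, 2 * (a + z - a).2) by ext <;> simp [hM] <;> ring, htwo] at h
    linarith
  · have h := key _ (show nrm (d₁.1 + d₂.1, d₁.2 + d₂.2) ≤ 4 from hd12.1)
    rw [show ((M.1 + (d₁.1 + d₂.1), M.2 + (d₁.2 + d₂.2)) : ℤ × ℤ) =
      (2 * (a + z + d₂ - a).1, 2 * (a + z + d₂ - a).2) by ext <;> simp [hM] <;> ring, htwo] at h
    linarith
  · have h := key _ ((hneg (d₁.1 + d₂.1, d₁.2 + d₂.2)).trans_le hd12.1)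
    rw [show ((M.1 + -(d₁.1 + d₂.1), M.2 + -(d₁.2 + d₂.2)) : ℤ × ℤ) =
      (2 * (a + z - (a + d₁)).1, 2 * (a + z - (a + d₁)).2) by ext <;> simp [hM] <;> ring, htwo]
      at h
    linarith
  · have h := key _ ((hneg (d₁.1 - d₂.1, d₁.2 - d₂.2)).trans_le hd12.2)
    rw [show ((M.1 + -(d₁.1 - d₂.1), M.2 + -(d₁.2 - d₂.2)) : ℤ × ℤ) =
      (2 * (a + z + d₂ - (a + d₁)).1, 2 * (a + z + d₂ - (a + d₁)).2) by
        ext <;> simp [hM] <;> ring, htwo] at h
    linarith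

end FA.Honeycomb

end
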