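import Fermat.Agent.Honeycomb.Winding

/-!
# The turning of a loop with an escape route

When the third edge at the base point of a simple loop starts a path leading out of the loop, the
loop turns by five sixths of a full turn against the side to which it sets out.
-/

set_option autoImplicit false

noncomputable section

open Complex Finset
open scoped ComplexConjugate

namespace FA.Honeycomb

/-- The six angles at the base point. -/
theorem base_angles {e : ℂ} (he : e ≠ 0) {s : ℤ} (hs : s = 1 ∨ s = -1) :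
    let A : ℂ := ⟨1 / 2, (s : ℝ) * (Real.sqrt 3 / 2)⟩
    let B : ℂ := ⟨1 / 2, -((s : ℝ) * (Real.sqrt 3 / 2))⟩
    ang e ((A + 1) * e) = s * (Real.pi / 6) ∧ ang ((B + 1) * e) e = s * (Real.pi / 6) ∧
      ang (A * e) ((A + 1) * e) = -(s * (Real.pi / 6)) ∧
      ang (B * e) ((B + 1) * e) = s * (Real.pi / 6) ∧
      ang (B * e) ((B - A) * e) = -(s * (Real.pi / 6)) ∧
      ang ((B - A) * e) (-(A * e)) = -(s * (Real.pi / 6)) := by
  intro A B
  have h3 := Real.mul_self_sqrt (show (0 : ℝ) ≤ 3 by norm_num)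
  have hs2 : (s : ℝ) * s = 1 := by rcases hs with rfl | rfl <;> norm_num
  have hr : (0 : ℝ) < Real.sqrt 3 := Real.sqrt_pos.2 (by norm_num)
  have hr' : (0 : ℝ) < Real.sqrt 3 / 3 := by positivity
  have hns : -s = 1 ∨ -s = -1 := by omega
  have hA : A ≠ 0 := fun h => by simpa [A] using congrArg Complex.re h
  have hB : B ≠ 0 := fun h => by simpa [B] using congrArg Complex.re h
  have hB1 : B + 1 ≠ 0 := fun h => by
    have := congrArg Complex.re h
    simp [B] at this
    norm_num at this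
  have hBA : B - A ≠ 0 := fun h => by
    have h' := congrArg Complex.im h
    rcases hs with rfl | rfl <;> simp [A, B] at h' <;> linarith
  have em : ((-s : ℤ) : ℝ) = -(s : ℝ) := Int.cast_neg s
  have f1 : A + 1 = (Real.sqrt 3 : ℂ) * (⟨Real.sqrt 3 / 2, (s : ℝ) / 2⟩ : ℂ) := by
    rcases hs with rfl | rfl <;> apply Complex.ext <;> simp [A] <;> nlinarith [h3]
  have f2 : (1 : ℂ) =
      ((Real.sqrt 3 / 3 : ℝ) : ℂ) * (⟨Real.sqrt 3 / 2, (s : ℝ) / 2⟩ : ℂ) * (B + 1) := by
    rcases hs with rfl | rfl <;> apply Complex.ext <;> simp [B] <;> nlinarith [h3]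
  have f3 : A + 1 = (Real.sqrt 3 : ℂ) * (⟨Real.sqrt 3 / 2, ((-s : ℤ) : ℝ) / 2⟩ : ℂ) * A := by
    rcases hs with rfl | rfl <;> apply Complex.ext <;> simp [A] <;> nlinarith [h3]
  have f4 : B + 1 = (Real.sqrt 3 : ℂ) * (⟨Real.sqrt 3 / 2, (s : ℝ) / 2⟩ : ℂ) * B := by
    rcases hs with rfl | rfl <;> apply Complex.ext <;> simp [B] <;> nlinarith [h3]
  have f5 : B - A = (Real.sqrt 3 : ℂ) * (⟨Real.sqrt 3 / 2, ((-s : ℤ) : ℝ) / 2⟩ : ℂ) * B := by
    rcases hs with rfl | rfl <;> apply Complex.ext <;> simp [A, B] <;> nlinarith [h3]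
  have f6 : -A =
      ((Real.sqrt 3 / 3 : ℝ) : ℂ) * (⟨Real.sqrt 3 / 2, ((-s : ℤ) : ℝ) / 2⟩ : ℂ) * (B - A) := by
    rcases hs with rfl | rfl <;> apply Complex.ext <;> simp [A, B] <;> nlinarith [h3]
  refine ⟨ang_eq_of_mul he hr hs (by rw [f1]), ang_eq_of_mul (mul_ne_zero hB1 he) hr' hs ?_,
    (ang_eq_of_mul (mul_ne_zero hA he) hr hns ?_).trans (by rw [em, neg_mul]),
    ang_eq_of_mul (mul_ne_zero hB he) hr hs ?_,
    (ang_eq_of_mul (mul_ne_zero hB he) hr hns ?_).trans (by rw [em, neg_mul]),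
    (ang_eq_of_mul (mul_ne_zero hBA he) hr' hns ?_).trans (by rw [em, neg_mul])⟩
  · rw [← mul_assoc, ← f2, one_mul]
  · rw [← mul_assoc, ← f3]
  · rw [← mul_assoc, ← f4]
  · rw [← mul_assoc, ← f5]
  · rw [← mul_assoc, ← f6, neg_mul]

/-- **The turning of a loop with an escape route.** -/
theorem sum_tau_loop {P Q : ℕ → ℤ × ℤ} {n m : ℕ} (hn : 3 ≤ n) (hm : 1 ≤ m) (hP0 : P n = P 0)
    (hPn : ∀ i < n, Nbr (P i) (P (i + 1))) (hPi : ∀ i j, 1 ≤ i → i < j → j ≤ n → P i ≠ P j)
    (hQ0 : Q 0 = P 0) (hQn : ∀ l < m, Nbr (Q l) (Q (l + 1)))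
    (hQP : ∀ l j, 1 ≤ l → l ≤ m → j ≤ n → Q l ≠ P j)
    (hfar : ∀ j ≤ n, 0 < (pos (P j - Q m)).re) :
    ∑ i ∈ Ico 0 (n - 1), tau (P i) (P (i + 1)) (P (i + 2)) =
      -5 * (turn (Q 1) (P 0) (P 1) : ℝ) * (Real.pi / 3) := by
  set w := P 0
  set u := Q 1
  set s : ℤ := turn u w (P 1) with hs
  have hs' : s = 1 ∨ s = -1 := by rw [hs, turn]; split_ifs <;> simp
  have hwu : Nbr u w := (hQ0 ▸ hQn 0 (by omega) : Nbr w u).symm
  have hw1 : Nbr w (P 1) := hPn 0 (by omega)
  have hwn : Nbr w (P (n - 1)) := by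
    have := (hPn (n - 1) (by omega)).symm
    rwa [show n - 1 + 1 = n by omega, hP0] at this
  obtain ⟨-, -, -, -, hdiff, hturn⟩ := nbr_turns hwu
  have hu1 : P 1 ≠ u := fun h => hQP 1 1 le_rfl hm (by omega) h.symm
  have hun : P (n - 1) ≠ u := fun h => hQP 1 (n - 1) le_rfl hm (by omega) h.symm
  have h1n : P 1 ≠ P (n - 1) := hPi 1 (n - 1) le_rfl (by omega) (by omega)
  -- the three edges at the base point
  set e := pos (w - u)
  have he : e ≠ 0 := fun h0 => hwu.ne (sub_eq_zero.1 (pos_eq_zero.1 h0)).symm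
  set A : ℂ := ⟨1 / 2, (s : ℝ) * (Real.sqrt 3 / 2)⟩
  set B : ℂ := ⟨1 / 2, -((s : ℝ) * (Real.sqrt 3 / 2))⟩
  have hAB : pos (P 1 - w) = A * e ∧ pos (P (n - 1) - w) = B * e := by
    rcases hturn _ hw1 hu1 with h1 | h1 <;> rcases hturn _ hwn hun with h2 | h2
    · exact absurd (h1.trans h2.symm) h1n
    · have : s = 1 := if_pos h1
      rw [h1, h2, add_sub_cancel_left, add_sub_cancel_left, (pos_rot _).1, (pos_rot _).2]
      simp [A, B, e, this]
    · have : s = -1 := if_neg fun h => hdiff (h.symm.trans h1)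
      rw [h1, h2, add_sub_cancel_left, add_sub_cancel_left, (pos_rot _).1, (pos_rot _).2]
      simp [A, B, e, this]
    · exact absurd (h1.trans h2.symm) h1n
  have e1 : pos (P 1 - u) = (A + 1) * e := by
    rw [show P 1 - u = (P 1 - w) - (u - w) by abel, pos_sub, hAB.1, pos_sub u w]
    simp only [e, pos_sub]
    ring
  have e2 : pos (P (n - 1) - u) = (B + 1) * e := by
    rw [show P (n - 1) - u = (P (n - 1) - w) - (u - w) by abel, pos_sub, hAB.2, pos_sub u w]
    simp only [e, pos_sub]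
    ring
  have e3 : pos (P (n - 1) - P 1) = (B - A) * e := by
    rw [show P (n - 1) - P 1 = (P (n - 1) - w) - (P 1 - w) by abel, pos_sub, hAB.1, hAB.2, sub_mul]
  have e4 : pos (w - P 1) = -(A * e) := by
    rw [← hAB.1, pos_sub, pos_sub]
    ring
  obtain ⟨a1, a2, a3, a4, a5, a6⟩ := base_angles he hs'
  -- the sweep seen from the escape route vanishes
  set S : ℕ → ℝ := fun l => ∑ j ∈ Ico 0 n, ang (pos (P j - Q l)) (pos (P (j + 1) - Q l))
  have hstep : ∀ l, 1 ≤ l → l < m → S l = S (l + 1) := fun l h1 h2 => by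
    have key : ∀ k ≤ n, ∑ j ∈ Ico 0 k, ang (pos (P j - Q l)) (pos (P (j + 1) - Q l)) +
        ang (pos (P k - Q l)) (pos (P k - Q (l + 1))) =
        ang (pos (P 0 - Q l)) (pos (P 0 - Q (l + 1))) +
          ∑ j ∈ Ico 0 k, ang (pos (P j - Q (l + 1))) (pos (P (j + 1) - Q (l + 1))) := by
      intro k hk
      induction k with
      | zero => simp
      | succ k ih =>
        have hsq := square_closes (hQn l h2) (hPn k (by omega)) (hQP l k h1 h2.le (by omega))
          (hQP l (k + 1) h1 h2.le hk) (hQP (l + 1) k (by omega) h2 (by omega))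
          (hQP (l + 1) (k + 1) (by omega) h2 hk)
        simp only [Finset.sum_Ico_succ_top (Nat.zero_le k)] at ih ⊢
        linarith [ih (by omega)]
    have := key n le_rfl
    rw [hP0] at this
    linarith
  have hSu : S 1 = 0 := by
    have hm0 : S m = 0 := by
      simp only [S]
      rw [sum_ang_eq (c := 1) (fun j => pos (P j - Q m)) (Nat.zero_le n)
        (fun j _ h2 h0 => by
          have := hfar j h2
          rw [one_mul] at h0
          simp [h0] at this)
        (fun j _ h2 => by rw [one_mul]; exact (hfar j h2).le)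
        (fun j _ h2 => Or.inl (by rw [one_mul]; exact hfar j h2.le))]
      simp only [hP0, one_mul]
      exact sub_self _
    have : ∀ k, 1 ≤ k → k ≤ m → S 1 = S k := fun k h1 h2 => by
      induction k with
      | zero => omega
      | succ k ih =>
        rcases Nat.eq_zero_or_pos k with rfl | hk
        · rfl
        · exact (ih hk (by omega)).trans (hstep k hk (by omega))
    exact (this m hm le_rfl).trans hm0
  -- the sweep seen from the base point
  set Mw := ∑ j ∈ Ico 1 (n - 1), ang (pos (P j - w)) (pos (P (j + 1) - w))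
  set Mu := ∑ j ∈ Ico 1 (n - 1), ang (pos (P j - u)) (pos (P (j + 1) - u))
  have hMwu : ∀ k, 1 ≤ k → k ≤ n - 1 →
      ∑ j ∈ Ico 1 k, ang (pos (P j - w)) (pos (P (j + 1) - w)) +
        ang (pos (P k - w)) (pos (P k - u)) =
      ang (pos (P 1 - w)) (pos (P 1 - u)) +
        ∑ j ∈ Ico 1 k, ang (pos (P j - u)) (pos (P (j + 1) - u)) := by
    intro k hk1 hk
    induction k with
    | zero => omega
    | succ k ih =>
      rcases Nat.eq_zero_or_pos k with rfl | hk0
      · simp
      have hsq := square_closes (a := w) (b := u) hwu.symm (hPn k (by omega))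
        (fun h => hPi k n hk0 (by omega) le_rfl (h.symm.trans hP0.symm))
        (fun h => hPi (k + 1) n (by omega) (by omega) le_rfl (h.symm.trans hP0.symm))
        (hQP 1 k le_rfl hm (by omega)) (hQP 1 (k + 1) le_rfl hm (by omega))
      simp only [Finset.sum_Ico_succ_top hk0] at ih ⊢
      linarith [ih hk0 (by omega)]
  have hMw : Mw = -2 * s * (Real.pi / 3) := by
    have h1 := hMwu (n - 1) (by omega) le_rfl
    have h2 : S 1 = ang e (pos (P 1 - u)) + Mu + ang (pos (P (n - 1) - u)) e := by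
      simp only [S]
      rw [Finset.sum_eq_sum_Ico_succ_bot (show 0 < n by omega)]
      conv_lhs => rw [show n = (n - 1) + 1 by omega]
      rw [Finset.sum_Ico_succ_top (show 0 + 1 ≤ n - 1 by omega), show n - 1 + 1 = n by omega, hP0]
      simp only [zero_add, Mu, e]
      ring
    rw [hAB.1, hAB.2, e1, e2, a3, a4] at h1
    rw [hSu, e1, e2, a1, a2] at h2
    simp only [Mw, Mu] at h1 h2 ⊢
    linarith
  -- the turning
  have hpath : IsPathUpTo (fun i => P (i + 1)) (n - 1) :=
    ⟨fun i hi => hPn (i + 1) (by omega),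
      fun i j hij hj => hPi (i + 1) (j + 1) (by omega) (by omega) (by omega)⟩
  have hdiag := sum_tau_eq hpath (n - 1) (by omega) le_rfl
  have hcol : ∑ i ∈ Ico 0 (n - 1 - 1), ang (sec (fun i => P (i + 1)) i (n - 1))
      (sec (fun i => P (i + 1)) (i + 1) (n - 1)) = Mw := by
    simp only [Mw, Finset.sum_Ico_eq_sum_range, Nat.sub_zero, sec]
    refine Finset.sum_congr rfl fun i _ => ?_
    rw [show n - 1 + 1 = n by omega, hP0, ← ang_neg]
    simp only [pos_sub, neg_sub, w, zero_add, Nat.add_comm 1 i, add_assoc]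
  have hrow : ∑ l ∈ Ico 1 (n - 1), ang (sec (fun i => P (i + 1)) 0 l)
      (sec (fun i => P (i + 1)) 0 (l + 1)) =
      ∑ j ∈ Ico 2 n, ang (pos (P j - P 1)) (pos (P (j + 1) - P 1)) := by
    simp only [Finset.sum_Ico_eq_sum_range, sec]
    refine Finset.sum_congr (by congr 1) fun i _ => ?_
    simp only [zero_add, add_assoc, show 2 + i = 1 + (i + 1) by omega]
  have hrect : ∀ k, 2 ≤ k → k ≤ n - 1 →
      ∑ j ∈ Ico 2 k, ang (pos (P j - w)) (pos (P (j + 1) - w)) +
        ang (pos (P k - w)) (pos (P k - P 1)) =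
      ang (pos (P 2 - w)) (pos (P 2 - P 1)) +
        ∑ j ∈ Ico 2 k, ang (pos (P j - P 1)) (pos (P (j + 1) - P 1)) := by
    intro k hk2 hk
    induction k with
    | zero => omega
    | succ k ih =>
      rcases Nat.lt_or_ge k 2 with hk0 | hk0
      · obtain rfl : k = 1 := by omega
        simp
      have hsq := square_closes (a := w) (b := P 1) hw1 (hPn k (by omega))
        (fun h => hPi k n (by omega) (by omega) le_rfl (h.symm.trans hP0.symm))
        (fun h => hPi (k + 1) n (by omega) (by omega) le_rfl (h.symm.trans hP0.symm))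
        (hPi 1 k le_rfl (by omega) (by omega)) (hPi 1 (k + 1) le_rfl (by omega) (by omega))
      simp only [Finset.sum_Ico_succ_top hk0] at ih ⊢
      linarith [ih hk0 (by omega)]
  have htri := triangle_closes hw1 (hPn 1 (by omega))
    (fun h => hPi 2 n (by omega) (by omega) le_rfl (h.trans hP0.symm))
  rw [hcol, hrow] at hdiag
  have hsplit : ∑ i ∈ Ico 0 (n - 1), tau (P i) (P (i + 1)) (P (i + 2)) =
      tau w (P 1) (P 2) + ∑ i ∈ Ico 0 (n - 1 - 1), tau (P (i + 1)) (P (i + 2)) (P (i + 3)) := by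
    rw [Finset.sum_eq_sum_Ico_succ_bot (show 0 < n - 1 by omega)]
    simp only [Finset.sum_Ico_eq_sum_range]
    congr 1
    refine Finset.sum_congr (by congr 1) fun i _ => ?_
    simp only [zero_add, show 1 + i = i + 1 by omega, add_assoc]
  have hlast : ∑ j ∈ Ico 2 n, ang (pos (P j - P 1)) (pos (P (j + 1) - P 1)) =
      ∑ j ∈ Ico 2 (n - 1), ang (pos (P j - P 1)) (pos (P (j + 1) - P 1)) +
        ang (pos (P (n - 1) - P 1)) (pos (w - P 1)) := by
    conv_lhs => rw [show n = (n - 1) + 1 by omega]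
    rw [Finset.sum_Ico_succ_top (show 2 ≤ n - 1 by omega), show n - 1 + 1 = n by omega, hP0]
  have hfirst : Mw = ang (pos (P 1 - w)) (pos (P 2 - w)) +
      ∑ j ∈ Ico 2 (n - 1), ang (pos (P j - w)) (pos (P (j + 1) - w)) :=
    Finset.sum_eq_sum_Ico_succ_bot (show 1 < n - 1 by omega) _
  have h5 := hrect (n - 1) (by omega) le_rfl
  rw [hAB.2, e3, a5] at h5
  rw [e3, e4, a6] at hlast
  rw [hsplit, htri]
  simp only [add_assoc, show (1 : ℕ) + 1 = 2 from rfl] at hdiag h5 htri ⊢
  linarith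

end FA.Honeycomb

end
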