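import Fermat.Agent.Honeycomb.Strips
import Mathlib.Analysis.PSeries

/-!
# Divergence at the critical fugacity

If the cuts of some strip keep a share of the identity the walks to them already diverge;
otherwise the bridges across `T` columns weigh at least a multiple of `1 / T`.
-/

set_option autoImplicit false

noncomputable section

open Finset
open scoped Classical

namespace FA.Honeycomb

/-- A self-avoiding walk from `o`, as the list of its vertices. -/
structure IsSaw (o : ℤ × ℤ) (p : List (ℤ × ℤ)) : Prop where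
  one_le : 1 ≤ p.length
  start : vtx p 0 = o
  nbr : ∀ i, i + 1 < p.length → Nbr (vtx p i) (vtx p (i + 1))
  inj : ∀ i j, i < j → j < p.length → vtx p i ≠ vtx p j

/-- The series of self-avoiding walks converges at `x`. -/
def SawBounded (x : ℝ) : Prop :=
  ∃ C : ℝ, ∀ S : Finset (List (ℤ × ℤ)), (∀ p ∈ S, IsSaw (1, 0) p) → ∑ p ∈ S, x ^ p.length ≤ C

/-- The list of `f 0, …, f m` followed by the step to the right. -/
def bridgeList (f : ℕ → ℤ × ℤ) (m : ℕ) : List (ℤ × ℤ) :=
  List.ofFn fun j : Fin (m + 2) => (fun j : ℕ => if j ≤ m then f j else f m + (1, 0)) j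

theorem bridgeList_mem {T L m : ℕ} {f : ℕ → ℤ × ℤ} (hm : 1 ≤ m) (hT : 1 ≤ T) (h0 : f 0 = (0, 0))
    (h1 : f 1 = (1, 0)) (hnbr : ∀ j < m, Nbr (f j) (f (j + 1)))
    (hinj : ∀ i j, 1 ≤ i → i < j → j ≤ m → f i ≠ f j)
    (hmem : ∀ j, 1 ≤ j → j ≤ m → f j ∈ strip T L) (hcls : cls (f m) = 0)
    (hcol : col (f m) = (T : ℤ) - 1) :
    bridgeList f m ∈ betaW T L ∧ (bridgeList f m).length = m + 2 ∧
      ∀ j ≤ m, vtx (bridgeList f m) j = f j := by
  set l := bridgeList f m
  have hlen : l.length = m + 2 := List.length_ofFn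
  have hv : ∀ j ≤ m, vtx l j = f j := fun j hj =>
    (vtx_ofFn (fun j : ℕ => if j ≤ m then f j else f m + (1, 0)) (show j < m + 2 by omega)).trans
      (if_pos hj)
  have hlast : vtx l (m + 1) = f m + (1, 0) :=
    (vtx_ofFn (fun j : ℕ => if j ≤ m then f j else f m + (1, 0))
      (show m + 1 < m + 2 by omega)).trans (if_neg (by omega))
  have hfm := mem_strip.1 (hmem m hm le_rfl)
  have hout : f m + (1, 0) ∉ strip T L := fun h => by
    rw [mem_strip] at h
    simp only [InStrip, IsVert, col, cls, Prod.fst_add, Prod.snd_add] at h hcol hcls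
    omega
  have h0D : ((0, 0) : ℤ × ℤ) ∉ strip T L := (isDomain_strip hT L).origin_notMem
  have hw : IsWalk (strip T L) l := by
    refine ⟨by omega, (hv 0 (by omega)).trans h0, (hv 1 hm).trans h1, fun i hi => ?_,
      fun i hi => ?_, fun i j hij hj => ?_, fun i hi1 hi => ?_⟩
    · rcases (show i + 1 ≤ m ∨ i = m by omega) with h | rfl
      · rw [hv i (by omega), hv _ h]
        exact hnbr i (by omega)
      · rw [hv i le_rfl, hlast]
        refine ⟨hfm.1, ?_, ?_⟩
        · simp only [IsVert, cls, Prod.fst_add, Prod.snd_add] at hcls ⊢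
          omega
        · rw [add_sub_cancel_left]
          rfl
    · rcases (show i + 2 ≤ m ∨ i + 1 = m by omega) with h | h
      · rw [hv i (by omega), hv _ h]
        rcases Nat.eq_zero_or_pos i with rfl | hi0
        · rw [h0]
          exact fun e => h0D (e ▸ hmem _ (by omega) h)
        · exact (hinj i _ hi0 (by omega) h).symm
      · rw [show i + 2 = m + 1 by omega, hlast, hv i (by omega)]
        rcases Nat.eq_zero_or_pos i with rfl | hi0
        · intro e
          rw [show m = 1 by omega, h1, h0] at e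
          simp at e
        · exact fun e => hout (e ▸ hmem i hi0 (by omega))
    · rw [hv i (by omega), hv j (by omega)]
      rcases Nat.eq_zero_or_pos i with rfl | hi0
      · rw [h0]
        exact fun e => h0D (e ▸ hmem j hij (by omega))
      · exact hinj i j hi0 hij (by omega)
    · rw [hv i (by omega)]
      exact hmem i hi1 (by omega)
  refine ⟨Finset.mem_filter.2 ⟨mem_walks.2 hw, ?_, ?_⟩, hlen, hv⟩
  · rw [lastV, hlen, show m + 2 - 1 = m + 1 from rfl, hlast]
    exact hout
  · rw [lastStep, lastV, hlen, show m + 2 - 1 = m + 1 from rfl, Nat.add_sub_cancel, hlast,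
      hv m le_rfl, add_sub_cancel_left]

/-- A walk turning back from the last column is made of two bridges. -/
theorem mass_alpha_succ {T : ℕ} (hT : 1 ≤ T) (L : ℕ) :
    mass xc (alphaW (T + 1) L) ≤
      mass xc (alphaW T L) + xc⁻¹ * mass xc (betaW (T + 1) (2 * L + 1)) ^ 2 := by
  set S := alphaW (T + 1) L
  set Hit : List (ℤ × ℤ) → ℕ → Prop :=
    fun l i => 1 ≤ i ∧ i + 1 < l.length ∧ col (vtx l i) = T ∧ cls (vtx l i) = 0
  set R : List (ℤ × ℤ) → Prop := fun l => ∃ i, Hit l i
  rw [mass, ← Finset.sum_filter_not_add_sum_filter S R]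
  refine add_le_add ?_ ?_
  · refine Finset.sum_le_sum_of_subset_of_nonneg (fun l hl => ?_) fun _ _ _ =>
      pow_nonneg xc_pos.le _
    simp only [S, alphaW, Finset.mem_filter, mem_walks] at hl ⊢
    obtain ⟨⟨hw, hexit, hstep⟩, hno⟩ := hl
    obtain ⟨h3, -⟩ := hw.isPathUpTo (isDomain_strip (by omega) L) hexit
    have hex := exit_cases (hw.mem (l.length - 2) (by omega) (by omega)) hexit hw.nbr_last
    have hsmall : ∀ i, 1 ≤ i → i + 1 < l.length → col (vtx l i) < T := by
      intro i hi1 hi
      by_contra hge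
      have hiv := mem_strip.1 (hw.mem i hi1 hi)
      have hc : cls (vtx l i) = 1 := by
        have := isVert_iff.1 hiv.1
        rcases this with h | h
        · exact absurd ⟨i, hi1, hi, by simp only [InStrip] at hiv; omega, h⟩ hno
        · exact h
      have hi2 : 2 ≤ i := by
        by_contra h
        obtain rfl : i = 1 := by omega
        rw [hw.second] at hge
        simp only [col] at hge
        omega
      rcases (show i + 2 < l.length ∨ i = l.length - 2 by omega) with hn | rfl
      · have hn1 := (hw.nbr (i - 1) (by omega)).symm.cases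
        have hn2 := (hw.nbr i hi).cases
        rw [show i - 1 + 1 = i by omega] at hn1
        have hne := hw.inj (i - 1) (i + 1) (by omega) (by omega)
        have hm1 := mem_strip.1 (hw.mem (i - 1) (by omega) (by omega))
        have hm2 := mem_strip.1 (hw.mem (i + 1) (by omega) (by omega))
        have hn3 : ¬(col (vtx l (i - 1)) = T ∧ cls (vtx l (i - 1)) = 0) := fun h =>
          hno ⟨i - 1, by omega, by omega, h⟩
        have hn4 : ¬(col (vtx l (i + 1)) = T ∧ cls (vtx l (i + 1)) = 0) := fun h =>
          hno ⟨i + 1, by omega, by omega, h⟩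
        have e : ∀ u, cls (vtx l i) = 1 → col (vtx l i) = T → ¬(col u = T ∧ cls u = 0) →
            (cls (vtx l i) = 0 ∧ cls u = 1 ∧ (u - vtx l i = (1, 0) ∨ u - vtx l i = (-1, 1) ∨
              u - vtx l i = (0, -1)) ∨ cls (vtx l i) = 1 ∧ cls u = 0 ∧ (u - vtx l i = (0, 1) ∨
              u - vtx l i = (-1, 0) ∨ u - vtx l i = (1, -1))) → u = vtx l i + (-1, 0) := by
          intro u hu1 hu2 hu3 hu4
          rcases hu4 with ⟨h, -, -⟩ | ⟨-, hu5, hu6⟩
          · omega
          rcases hu6 with h | h | h
          · exfalso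
            simp only [col, cls, Prod.ext_iff, Prod.fst_sub, Prod.snd_sub] at h hu1 hu2 hu3
            omega
          · rw [← h, add_sub_cancel]
          · exfalso
            simp only [col, cls, Prod.ext_iff, Prod.fst_sub, Prod.snd_sub] at h hu1 hu2 hu3
            omega
        have hcT : col (vtx l i) = T := by simp only [InStrip] at hiv; omega
        exact hne ((e _ hc hcT hn3 hn1).trans (e _ hc hcT hn4 hn2).symm)
      · simp only [lastStep] at hstep
        simp only [col, cls, Prod.ext_iff, Prod.fst_sub, Prod.snd_sub] at hex hge hstep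
        omega
    have hw' : IsWalk (strip T L) l :=
      ⟨hw.two_le, hw.start, hw.second, hw.nbr, hw.back, hw.inj, fun i h1 h2 => by
        have h3 := mem_strip.1 (hw.mem i h1 h2)
        have h4 := hsmall i h1 h2
        rw [mem_strip]
        simp only [InStrip] at h3 ⊢
        exact ⟨h3.1, h3.2.1, by omega, h3.2.2.2.1, h3.2.2.2.2⟩⟩
    exact ⟨hw', fun h => hexit (strip_mono (Nat.le_succ T) le_rfl h), hstep⟩
  · set β := betaW (T + 1) (2 * L + 1)
    -- the two bridges
    set idx : List (ℤ × ℤ) → ℕ := fun l => if h : R l then Nat.find h else 0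
    set f₁ : List (ℤ × ℤ) → List (ℤ × ℤ) := fun l => bridgeList (vtx l) (idx l)
    set f₂ : List (ℤ × ℤ) → List (ℤ × ℤ) := fun l =>
      bridgeList (fun j => vtx l (l.length - 1 - j) - lastV l) (l.length - 1 - idx l)
    have key : ∀ l ∈ S.filter R, f₁ l ∈ β ∧ f₂ l ∈ β ∧
        xc ^ (l.length - 2) = xc⁻¹ * (xc ^ ((f₁ l).length - 2) * xc ^ ((f₂ l).length - 2)) ∧
        (f₁ l).length = idx l + 2 ∧ (∀ j ≤ idx l, vtx (f₁ l) j = vtx l j) ∧
        (f₂ l).length = l.length - 1 - idx l + 2 ∧
        (∀ j ≤ l.length - 1 - idx l,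
          vtx (f₂ l) j = vtx l (l.length - 1 - j) - lastV l) ∧
        1 ≤ idx l ∧ idx l + 1 < l.length := by
      intro l hl
      obtain ⟨hlS, hR⟩ := Finset.mem_filter.1 hl
      simp only [S, alphaW, Finset.mem_filter, mem_walks] at hlS
      obtain ⟨hw, hexit, hstep⟩ := hlS
      obtain ⟨h3, hP⟩ := hw.isPathUpTo (isDomain_strip (by omega) L) hexit
      set i := idx l with hi
      have hspec : Hit l i := by
        simp only [i, idx, dif_pos hR]
        exact Nat.find_spec hR
      obtain ⟨hi1, hi2, hicol, hicls⟩ := hspec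
      set N := l.length - 1 with hN
      have hex := exit_cases (hw.mem (l.length - 2) (by omega) (by omega)) hexit hw.nbr_last
      have hv2 := mem_strip.1 (hw.mem (l.length - 2) (by omega) (by omega))
      have hz : cls (lastV l) = 0 ∧ 2 * (lastV l).1 + (lastV l).2 = 0 ∧
          vtx l (N - 1) - lastV l = (1, 0) ∧ (lastV l).2 = (vtx l (l.length - 2)).2 := by
        rw [show N - 1 = l.length - 2 by omega]
        simp only [lastStep] at hstep
        simp only [InStrip, IsVert, col, cls, Prod.ext_iff, Prod.fst_sub, Prod.snd_sub]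
          at hex hv2 hstep ⊢
        omega
      have hz3 : vtx l (l.length - 2) - lastV l = (1, 0) := by
        rw [← hz.2.2.1, show N - 1 = l.length - 2 by omega]
      have hmem1 : ∀ j, 1 ≤ j → j ≤ i → vtx l j ∈ strip (T + 1) (2 * L + 1) := fun j hj1 hj =>
        strip_mono le_rfl (by omega) (hw.mem j hj1 (by omega))
      obtain ⟨a1, a2, a3⟩ := bridgeList_mem (T := T + 1) (L := 2 * L + 1) (f := vtx l) hi1
        (by omega) hw.start hw.second (fun j hj => hw.nbr j (by omega))
        (fun a b _ hab hb => hw.inj a b hab (by omega)) hmem1 hicls (by push_cast; omega)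
      obtain ⟨b1, b2, b3⟩ := bridgeList_mem (T := T + 1) (L := 2 * L + 1)
        (f := fun j => vtx l (N - j) - lastV l) (m := N - i) (by omega) (by omega)
        (by simp only [Nat.sub_zero]; exact sub_self _) hz.2.2.1
        (fun j hj => by
          have h := (hw.nbr (N - (j + 1)) (by omega)).symm
          rw [show N - (j + 1) + 1 = N - j by omega] at h
          refine ⟨?_, ?_, ?_⟩
          · have := h.1
            simp only [IsVert, cls, Prod.fst_sub, Prod.snd_sub] at this hz ⊢
            omega
          · have := h.2.1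
            simp only [IsVert, cls, Prod.fst_sub, Prod.snd_sub] at this hz ⊢
            omega
          · simpa using h.2.2)
        (fun a b ha hab hb => by
          simpa using (hP.inj (N - b) (N - a) (by omega) (by omega)).symm)
        (fun j hj1 hj => by
          have h := mem_strip.1 (hw.mem (N - j) (by omega) (by omega))
          rw [mem_strip]
          simp only [InStrip, IsVert, col, cls, Prod.ext_iff, Prod.fst_sub, Prod.snd_sub]
            at h hv2 hz hz3 ⊢
          exact ⟨by omega, by omega, by omega, by omega, by omega⟩)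
        (by
          rw [show N - (N - i) = i by omega]
          simp only [cls, Prod.fst_sub, Prod.snd_sub] at hicls hz ⊢
          omega)
        (by
          rw [show N - (N - i) = i by omega]
          simp only [col, Prod.fst_sub, Prod.snd_sub] at hicol hz ⊢
          push_cast
          omega)
      refine ⟨a1, b1, ?_, a2, a3, b2, b3, hi1, hi2⟩
      rw [show (f₁ l).length = i + 2 from a2, show (f₂ l).length = N - i + 2 from b2,
        Nat.add_sub_cancel, Nat.add_sub_cancel, ← pow_add,
        show i + (N - i) = (l.length - 2) + 1 by omega, pow_succ, mul_left_comm,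
        inv_mul_cancel₀ xc_pos.ne', mul_one]
    calc ∑ l ∈ S.filter R, xc ^ (l.length - 2)
        = ∑ l ∈ S.filter R, xc⁻¹ * (xc ^ ((f₁ l).length - 2) * xc ^ ((f₂ l).length - 2)) :=
          Finset.sum_congr rfl fun l hl => (key l hl).2.2.1
      _ = ∑ p ∈ (S.filter R).image fun l => (f₁ l, f₂ l),
            xc⁻¹ * (xc ^ (p.1.length - 2) * xc ^ (p.2.length - 2)) := by
          rw [Finset.sum_image]
          intro l hl l' hl' he
          obtain ⟨-, -, -, a1, a2, b1, b2, ha, hb⟩ := key l hl
          obtain ⟨-, -, -, c1, c2, d1, d2, hc, hd⟩ := key l' hl'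
          obtain ⟨e1, e2⟩ := Prod.ext_iff.1 he
          simp only at e1 e2
          have hi : idx l = idx l' := by
            have := congrArg List.length e1
            omega
          have hlen : l.length = l'.length := by
            have := congrArg List.length e2
            omega
          have hz : lastV l = lastV l' := by
            have := b2 _ le_rfl
            rw [e2, hlen, hi, d2 _ le_rfl, show l'.length - 1 - (l'.length - 1 - idx l') = idx l'
              by omega] at this
            have h2 := (a2 _ le_rfl).symm.trans ((congrArg (fun q => vtx q (idx l)) e1).trans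
              (hi ▸ c2 (idx l') le_rfl))
            rw [hi] at h2
            rw [h2] at this
            exact (sub_right_inj.1 this).symm
          refine list_ext_vtx hlen fun j hj => ?_
          rcases le_or_gt j (idx l) with h | h
          · rw [← a2 j h, e1, c2 j (hi ▸ h)]
          · have h2 := b2 (l.length - 1 - j) (by omega)
            rw [e2, d2 _ (by omega), hz, show l.length - 1 - (l.length - 1 - j) = j by omega,
              show l'.length - 1 - (l.length - 1 - j) = j by omega] at h2
            exact (sub_left_injective h2).symm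
      _ ≤ ∑ p ∈ β ×ˢ β, xc⁻¹ * (xc ^ (p.1.length - 2) * xc ^ (p.2.length - 2)) := by
          refine Finset.sum_le_sum_of_subset_of_nonneg (fun p hp => ?_) fun p _ _ =>
            mul_nonneg (inv_nonneg.2 xc_pos.le)
              (mul_nonneg (pow_nonneg xc_pos.le _) (pow_nonneg xc_pos.le _))
          obtain ⟨l, hl, rfl⟩ := Finset.mem_image.1 hp
          exact Finset.mem_product.2 ⟨(key l hl).1, (key l hl).2.1⟩
      _ = xc⁻¹ * mass xc β ^ 2 := by
          rw [Finset.sum_product, sq, mass, Finset.sum_mul_sum, Finset.mul_sum]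
          simp only [Finset.mul_sum]

/-- The vertices of a walk that count. -/
def inner (l : List (ℤ × ℤ)) : List (ℤ × ℤ) :=
  List.ofFn fun i : Fin (l.length - 2) => (fun i : ℕ => vtx l (i + 1)) i

theorem inner_spec {T L : ℕ} (hT : 1 ≤ T) {l : List (ℤ × ℤ)} (hw : IsWalk (strip T L) l)
    (hexit : lastV l ∉ strip T L) :
    IsSaw (1, 0) (inner l) ∧ (inner l).length = l.length - 2 ∧
      ∀ i, i + 2 < l.length → vtx (inner l) i = vtx l (i + 1) := by
  obtain ⟨h3, -⟩ := hw.isPathUpTo (isDomain_strip hT L) hexit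
  have hlen : (inner l).length = l.length - 2 := List.length_ofFn
  have hv : ∀ i, i + 2 < l.length → vtx (inner l) i = vtx l (i + 1) := fun i hi =>
    vtx_ofFn (fun i : ℕ => vtx l (i + 1)) (by omega)
  refine ⟨⟨by omega, (hv 0 (by omega)).trans hw.second, fun i hi => ?_, fun i j hij hj => ?_⟩,
    hlen, hv⟩
  · rw [hv i (by omega), hv _ (by omega)]
    exact hw.nbr _ (by omega)
  · rw [hv i (by omega), hv j (by omega)]
    exact hw.inj _ _ (by omega) (by omega)

/-- The kind of an exit and its last vertex determine the step, and the last vertex the strip. -/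
theorem inner_injective {T L T' L' : ℕ} (hT : 1 ≤ T) (hT' : 1 ≤ T') {l l' : List (ℤ × ℤ)}
    (hl : l ∈ betaW T L ∧ l' ∈ betaW T' L' ∨ T = T' ∧ l ∈ epsW T L ∧ l' ∈ epsW T' L')
    (he : inner l = inner l') : l = l' ∧ (l ∈ betaW T L → T = T') ∧ (l ∈ epsW T L → L = L') := by
  simp only [betaW, epsW, Finset.mem_filter, mem_walks] at hl ⊢
  obtain ⟨hw, hexit, hw', hexit'⟩ : IsWalk (strip T L) l ∧ lastV l ∉ strip T L ∧
      IsWalk (strip T' L') l' ∧ lastV l' ∉ strip T' L' := by tauto
  obtain ⟨-, a1, a2⟩ := inner_spec hT hw hexit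
  obtain ⟨-, b1, b2⟩ := inner_spec hT' hw' hexit'
  obtain ⟨h3, -⟩ := hw.isPathUpTo (isDomain_strip hT L) hexit
  obtain ⟨h3', -⟩ := hw'.isPathUpTo (isDomain_strip hT' L') hexit'
  have hlen : l.length = l'.length := by
    have := congrArg List.length he
    omega
  have hv : ∀ i, i + 1 < l.length → vtx l i = vtx l' i := fun i hi => by
    rcases Nat.eq_zero_or_pos i with rfl | h0
    · rw [hw.start, hw'.start]
    · have h1 := a2 (i - 1) (by omega)
      have h2 := b2 (i - 1) (by omega)
      rw [show i - 1 + 1 = i by omega] at h1 h2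
      rw [← h1, ← h2, he]
  have hc := exit_cases (hw.mem (l.length - 2) (by omega) (by omega)) hexit hw.nbr_last
  have hc' := exit_cases (hw'.mem (l'.length - 2) (by omega) (by omega)) hexit' hw'.nbr_last
  have hm := mem_strip.1 (hw.mem (l.length - 2) (by omega) (by omega))
  rw [hv (l.length - 2) (by omega), hlen] at hc hm
  simp only [lastStep] at hl ⊢
  rw [hv (l.length - 2) (by omega), hlen] at hl ⊢
  set v := vtx l' (l'.length - 2)
  set z := lastV l
  set z' := lastV l'
  have hfin : z = z' ∧ ((z - v = (1, 0) → T = T') ∧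
      (z - v ≠ (-1, 0) → z - v ≠ (1, 0) → L = L')) := by
    rcases hl with ⟨⟨-, -, hs⟩, -, -, hs'⟩ | ⟨rfl, ⟨-, -, hs, ht⟩, -, -, hs', ht'⟩
    · refine ⟨sub_left_injective (hs.trans hs'.symm), fun _ => ?_, fun _ h => absurd hs h⟩
      rcases hc with ⟨h, -⟩ | ⟨-, -, h2, -⟩ | ⟨h, -⟩ | ⟨h, -⟩
      · exact absurd (h.symm.trans hs) (by decide)
      · rcases hc' with ⟨g, -⟩ | ⟨-, -, g2, -⟩ | ⟨g, -⟩ | ⟨g, -⟩
        · exact absurd (g.symm.trans hs') (by decide)
        · omega
        · exact absurd (g.symm.trans hs') (by decide)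
        · exact absurd (g.symm.trans hs') (by decide)
      · exact absurd (h.symm.trans hs) (by decide)
      · exact absurd (h.symm.trans hs) (by decide)
    · simp only [InStrip, IsVert, col] at hm
      rcases hc with ⟨h, -⟩ | ⟨h, -⟩ | ⟨h, -, h2⟩ | ⟨h, -, h2⟩
      · exact absurd h hs
      · exact absurd h ht
      all_goals rcases hc' with ⟨g, -⟩ | ⟨g, -⟩ | ⟨g, -, g2⟩ | ⟨g, -, g2⟩
      all_goals first
        | exact absurd g hs'
        | exact absurd g ht'
        | exact ⟨sub_left_injective (h.trans g.symm), fun hh => absurd hh ht, fun _ _ => by omega⟩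
        | (exfalso; omega)
  refine ⟨list_ext_vtx hlen fun i hi => ?_, fun h => hfin.2.1 h.2.2,
    fun h => hfin.2.2 h.2.2.1 h.2.2.2⟩
  rcases (show i + 1 < l.length ∨ i = l.length - 1 by omega) with h | rfl
  · exact hv i h
  · calc vtx l (l.length - 1) = vtx l' (l'.length - 1) := hfin.1
      _ = vtx l' (l.length - 1) := by rw [hlen]

theorem exists_beta_one : (betaW 1 1).Nonempty := by
  refine ⟨_, (bridgeList_mem (T := 1) (L := 1) (m := 2) (by norm_num) le_rfl
    (f := fun j => if j = 0 then (0, 0) else if j = 1 then (1, 0) else (1, 1)) rfl rfl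
    (fun j hj => ?_) (fun i j h1 h2 h3 => ?_) (fun j h1 h2 => ?_) (by decide) (by decide)).1⟩
  · interval_cases j <;> decide
  · obtain ⟨rfl, rfl⟩ : i = 1 ∧ j = 2 := by omega
    decide
  · rw [mem_strip]
    interval_cases j <;> decide

theorem beta_mass_le_one {T : ℕ} (hT : 1 ≤ T) (L : ℕ) : mass xc (betaW T L) ≤ 1 := by
  nlinarith [strip_identity hT L,
    mul_nonneg cos_pos_coeffs.1.le (mass_nonneg xc_pos.le (alphaW T L)),
    mul_nonneg cos_pos_coeffs.2.le (mass_nonneg xc_pos.le (epsW T L))]

theorem mass_pos {S : Finset (List (ℤ × ℤ))} (hS : S.Nonempty) : 0 < mass xc S :=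
  Finset.sum_pos (fun _ _ => pow_pos xc_pos _) hS

/-- **The series diverges at the critical fugacity.** -/
theorem not_sawBounded_xc : ¬SawBounded xc := by
  rintro ⟨C, hC⟩
  obtain ⟨hα0, hε0⟩ := cos_pos_coeffs
  set cα := Real.cos (3 * Real.pi / 8)
  set cε := Real.cos (Real.pi / 4)
  by_cases hE : ∃ T, 1 ≤ T ∧ ∃ δ > 0, ∀ L, δ ≤ mass xc (epsW T L)
  · obtain ⟨T, hT, δ, hδ, h⟩ := hE
    obtain ⟨N, hN⟩ := exists_nat_gt (C / δ)
    have hdis : (↑(Finset.range N) : Set ℕ).PairwiseDisjoint fun L => (epsW T L).image inner := by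
      intro a _ b _ hab
      refine Finset.disjoint_left.2 fun p hp hp' => ?_
      obtain ⟨l, hl, rfl⟩ := Finset.mem_image.1 hp
      obtain ⟨l', hl', he⟩ := Finset.mem_image.1 hp'
      exact hab ((inner_injective hT hT (Or.inr ⟨rfl, hl, hl'⟩) he.symm).2.2 hl)
    have hsum : (N : ℝ) * δ ≤ C := by
      refine le_trans ?_ (hC ((Finset.range N).biUnion fun L => (epsW T L).image inner)
        fun p hp => ?_)
      · rw [Finset.sum_biUnion hdis]
        calc (N : ℝ) * δ = ∑ _L ∈ Finset.range N, δ := by simp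
          _ ≤ _ := Finset.sum_le_sum fun L _ => by
            rw [Finset.sum_image fun l hl l' hl' he =>
              (inner_injective hT hT (Or.inr ⟨rfl, hl, hl'⟩) he).1]
            refine (h L).trans_eq (Finset.sum_congr rfl fun l hl => ?_)
            simp only [epsW, Finset.mem_filter, mem_walks] at hl
            rw [(inner_spec hT hl.1 hl.2.1).2.1]
      · obtain ⟨L, -, hp⟩ := Finset.mem_biUnion.1 hp
        obtain ⟨l, hl, rfl⟩ := Finset.mem_image.1 hp
        simp only [epsW, Finset.mem_filter, mem_walks] at hl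
        exact (inner_spec hT hl.1 hl.2.1).1
    rw [div_lt_iff₀ hδ] at hN
    linarith
  simp only [not_exists, not_and, not_forall, not_le] at hE
  set a : ℕ → ℝ := fun T => ⨆ L, mass xc (alphaW T L)
  set b : ℕ → ℝ := fun T => ⨆ L, mass xc (betaW T L)
  have hba : ∀ T, 1 ≤ T → BddAbove (Set.range fun L => mass xc (alphaW T L)) := fun T hT =>
    ⟨1 / cα, by
      rintro _ ⟨L, rfl⟩
      rw [le_div_iff₀ hα0]
      nlinarith [strip_identity hT L, mass_nonneg xc_pos.le (betaW T L),
        mul_nonneg hε0.le (mass_nonneg xc_pos.le (epsW T L))]⟩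
  have hbb : ∀ T, 1 ≤ T → BddAbove (Set.range fun L => mass xc (betaW T L)) := fun T hT =>
    ⟨1, by rintro _ ⟨L, rfl⟩; exact beta_mass_le_one hT L⟩
  have hmono : ∀ T L L', 1 ≤ T → L ≤ L' →
      mass xc (alphaW T L) ≤ mass xc (alphaW T L') ∧ mass xc (betaW T L) ≤ mass xc (betaW T L') :=
    fun T L L' hT hL =>
    ⟨Finset.sum_le_sum_of_subset_of_nonneg (sides_mono hT hL).1 fun _ _ _ => pow_nonneg xc_pos.le _,
      Finset.sum_le_sum_of_subset_of_nonneg (sides_mono hT hL).2 fun _ _ _ =>
        pow_nonneg xc_pos.le _⟩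
  have heq : ∀ T, 1 ≤ T → cα * a T + b T = 1 := fun T hT => by
    refine le_antisymm ?_ ?_
    · have h1 : ∀ L, b T ≤ 1 - cα * mass xc (alphaW T L) := fun L => ciSup_le fun L' => by
        obtain ⟨h2, -⟩ := hmono T L (max L L') hT (le_max_left _ _)
        obtain ⟨-, h3⟩ := hmono T L' (max L L') hT (le_max_right _ _)
        nlinarith [strip_identity hT (max L L'), mul_le_mul_of_nonneg_left h2 hα0.le,
          mul_nonneg hε0.le (mass_nonneg xc_pos.le (epsW T (max L L')))]
      have h2 : a T ≤ (1 - b T) / cα := ciSup_le fun L => by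
        rw [le_div_iff₀ hα0]
        linarith [h1 L]
      rw [le_div_iff₀ hα0] at h2
      linarith
    · refine le_of_forall_pos_le_add fun δ hδ => ?_
      obtain ⟨L, hL⟩ := hE T hT (δ / cε) (div_pos hδ hε0)
      rw [lt_div_iff₀ hε0] at hL
      linarith [strip_identity hT L, mul_le_mul_of_nonneg_left (le_ciSup (hba T hT) L) hα0.le,
        le_ciSup (hbb T hT) L]
  have hrec : ∀ T, 1 ≤ T → b T ≤ b (T + 1) + cα * xc⁻¹ * b (T + 1) ^ 2 := fun T hT => by
    have h1 : a (T + 1) ≤ a T + xc⁻¹ * b (T + 1) ^ 2 := ciSup_le fun L =>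
      (mass_alpha_succ hT L).trans (add_le_add (le_ciSup (hba T hT) L)
        (mul_le_mul_of_nonneg_left (pow_le_pow_left₀ (mass_nonneg xc_pos.le _)
          (le_ciSup (hbb (T + 1) (by omega)) _) 2) (inv_nonneg.2 xc_pos.le)))
    nlinarith [heq T hT, heq (T + 1) (by omega), mul_le_mul_of_nonneg_left h1 hα0.le]
  set K := cα * xc⁻¹
  have hK : 0 < K := mul_pos hα0 (inv_pos.2 xc_pos)
  have hb1 : 0 < b 1 :=
    (mass_pos exists_beta_one).trans_le (le_ciSup (hbb 1 le_rfl) 1)
  set c := min (b 1) (1 / K)
  have hc0 : 0 < c := lt_min hb1 (div_pos one_pos hK)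
  have hbc : ∀ T : ℕ, 1 ≤ T → c / T ≤ b T := fun T hT => by
    induction T, hT using Nat.le_induction with
    | base => simp [c]
    | succ T hT ih =>
      by_contra hlt
      rw [not_le] at hlt
      have hT0 : (0 : ℝ) < T := Nat.cast_pos.2 hT
      have hb0 : 0 ≤ b (T + 1) := (mass_nonneg xc_pos.le _).trans (le_ciSup (hbb _ (by omega)) 0)
      push_cast at hlt
      set u : ℝ := c / ((T : ℝ) + 1) with hu
      have h1 := hrec T hT
      have h2 : K * b (T + 1) ^ 2 ≤ K * u ^ 2 :=
        mul_le_mul_of_nonneg_left (pow_le_pow_left₀ hb0 hlt.le 2) hK.le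
      have hKc : K * c ≤ 1 := by
        have := mul_le_mul_of_nonneg_left (min_le_right (b 1) (1 / K)) hK.le
        rwa [mul_one_div_cancel hK.ne'] at this
      have h3 : K * u ^ 2 ≤ u / ((T : ℝ) + 1) := by
        rw [hu, div_pow, ← mul_div_assoc, div_div, ← sq,
          div_le_div_iff_of_pos_right (by positivity)]
        nlinarith
      have h4 : u + u / ((T : ℝ) + 1) ≤ c / T := by
        rw [hu, le_div_iff₀ hT0]
        field_simp
        nlinarith
      linarith
  have hchoose : ∀ T : ℕ, ∃ L, 1 ≤ T → c / T / 2 ≤ mass xc (betaW T L) := fun T => by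
    by_cases hT : 1 ≤ T
    · have h1 : c / T / 2 < b T :=
        (half_lt_self (div_pos hc0 (Nat.cast_pos.2 hT))).trans_le (hbc T hT)
      obtain ⟨L, hL⟩ := exists_lt_of_lt_ciSup h1
      exact ⟨L, fun _ => hL.le⟩
    · exact ⟨0, fun h => absurd h hT⟩
  choose Lf hLf using hchoose
  have hbound : ∀ N, ∑ i ∈ Finset.range N, c / 2 * (1 / ((i : ℝ) + 1)) ≤ C := fun N => by
    have hdis : (↑(Finset.range N) : Set ℕ).PairwiseDisjoint
        fun i => (betaW (i + 1) (Lf (i + 1))).image inner := by
      intro i _ j _ hij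
      refine Finset.disjoint_left.2 fun p hp hp' => ?_
      obtain ⟨l, hl, rfl⟩ := Finset.mem_image.1 hp
      obtain ⟨l', hl', he⟩ := Finset.mem_image.1 hp'
      have := (inner_injective (by omega) (by omega) (Or.inl ⟨hl, hl'⟩) he.symm).2.1 hl
      omega
    refine le_trans ?_ (hC ((Finset.range N).biUnion fun i =>
      (betaW (i + 1) (Lf (i + 1))).image inner) fun p hp => ?_)
    · rw [Finset.sum_biUnion hdis]
      refine Finset.sum_le_sum fun i _ => ?_
      have h := hLf (i + 1) (by omega)
      push_cast at h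
      rw [Finset.sum_image fun l hl l' hl' he =>
        (inner_injective (by omega) (by omega) (Or.inl ⟨hl, hl'⟩) he).1]
      refine (le_of_eq (by ring)).trans (h.trans_eq (Finset.sum_congr rfl fun l hl => ?_))
      simp only [betaW, Finset.mem_filter, mem_walks] at hl
      rw [(inner_spec (by omega) hl.1 hl.2.1).2.1]
    · obtain ⟨i, -, hp⟩ := Finset.mem_biUnion.1 hp
      obtain ⟨l, hl, rfl⟩ := Finset.mem_image.1 hp
      simp only [betaW, Finset.mem_filter, mem_walks] at hl
      exact (inner_spec (by omega) hl.1 hl.2.1).1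
  obtain ⟨N, hN⟩ := (Real.tendsto_sum_range_one_div_nat_succ_atTop.eventually_gt_atTop
    (C / (c / 2))).exists
  have := hbound N
  rw [← Finset.mul_sum] at this
  rw [div_lt_iff₀ (by positivity)] at hN
  linarith

end FA.Honeycomb

end
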