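import Fermat.Agent.Honeycomb.Upper

/-!
# The connective constant of the honeycomb lattice

The number `c n` of self-avoiding walks of `n` steps from a vertex is submultiplicative, so the
divergence at `xc = 1 / √(2 + √2)` gives `(√(2 + √2)) ^ n ≤ c n`, and the convergence below `xc`
gives the matching upper bound: the `n`-th root tends to `√(2 + √2)`
(Duminil-Copin and Smirnov).
-/

set_option autoImplicit false

noncomputable section

open Finset Filter
open scoped Classical Topology

namespace FA.Honeycomb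

/-- The self-avoiding walks of `n` steps from the origin. -/
def sawSet (n : ℕ) : Set (Fin (n + 1) → ℤ × ℤ) :=
  {f | f 0 = 0 ∧ Function.Injective f ∧ ∀ i : Fin n, Nbr (f i.castSucc) (f i.succ)}

/-- Their number. -/
def sawCount (n : ℕ) : ℕ := (sawSet n).ncard

/-- The half turn about the middle of the first edge exchanges the colours. -/
theorem nbr_flip {u v : ℤ × ℤ} :
    Nbr ((1, 0) - u) ((1, 0) - v) ↔ Nbr u v := by
  simp only [Nbr, IsVert, nrm, Prod.fst_sub, Prod.snd_sub]
  refine and_congr (by omega) (and_congr (by omega) ?_)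
  constructor <;> intro h <;> linear_combination h

theorem sawSet_coord_le {n : ℕ} {f : Fin (n + 1) → ℤ × ℤ} (hf : f ∈ sawSet n) (i : Fin (n + 1)) :
    |(f i).1| ≤ i ∧ |(f i).2| ≤ i := by
  induction i using Fin.induction with
  | zero => simp [hf.1]
  | succ i ih =>
    have h := (hf.2.2 i).cases
    simp only [abs_le, Fin.val_castSucc, Fin.val_succ, Prod.ext_iff, Prod.fst_sub, Prod.snd_sub]
      at ih h ⊢
    push_cast
    omega

theorem sawSet_finite (n : ℕ) : (sawSet n).Finite := by
  refine ((Fintype.piFinset fun _ : Fin (n + 1) =>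
    Finset.Icc (-(n : ℤ)) n ×ˢ Finset.Icc (-(n : ℤ)) n).finite_toSet).subset fun f hf => ?_
  simp only [Finset.mem_coe, Fintype.mem_piFinset, Finset.mem_product, Finset.mem_Icc]
  intro i
  have h := sawSet_coord_le hf i
  have := i.isLt
  simp only [abs_le] at h
  omega

theorem one_le_sawCount_zero : 1 ≤ sawCount 0 :=
  (Set.ncard_pos (sawSet_finite 0)).2
    ⟨fun _ => 0, rfl, fun a b _ => Subsingleton.elim (α := Fin 1) a b, fun i => i.elim0⟩

/-- **Submultiplicativity.** -/
theorem sawCount_add_le (n m : ℕ) : sawCount (n + m) ≤ sawCount n * sawCount m := by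
  rw [sawCount, sawCount, sawCount, ← Set.ncard_prod]
  set p : (Fin (n + m + 1) → ℤ × ℤ) → ℤ × ℤ := fun f => f ⟨n, by omega⟩
  set turn : (Fin (n + m + 1) → ℤ × ℤ) → ℤ × ℤ → ℤ × ℤ :=
    fun f v => if cls (p f) = 0 then v - p f else p f - v
  set split : (Fin (n + m + 1) → ℤ × ℤ) → (Fin (n + 1) → ℤ × ℤ) × (Fin (m + 1) → ℤ × ℤ) :=
    fun f => (fun i => f ⟨i, by omega⟩, fun j => turn f (f ⟨n + j, by omega⟩))
  refine Set.ncard_le_ncard_of_injOn split (fun f hf => ?_) (fun f hf g hg he => ?_)
    ((sawSet_finite n).prod (sawSet_finite m))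
  · obtain ⟨h0, hinj, hnbr⟩ := hf
    refine ⟨⟨h0, fun i j h => ?_, fun i => hnbr ⟨i, by omega⟩⟩, ?_, fun i j h => ?_, fun i => ?_⟩
    · exact Fin.ext (Fin.mk.inj_iff.1 (hinj h))
    · simp only [split, turn, p, Fin.val_zero, Nat.add_zero]
      split <;> exact sub_self _
    · have h1 : f ⟨n + i, by omega⟩ = f ⟨n + j, by omega⟩ := by
        simp only [split, turn] at h
        split at h
        · exact sub_left_injective h
        · exact sub_right_injective h
      exact Fin.ext (Nat.add_left_cancel (Fin.mk.inj_iff.1 (hinj h1)))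
    · have h : Nbr (f ⟨n + i, by omega⟩) (f ⟨n + (i + 1), by omega⟩) := hnbr ⟨n + i, by omega⟩
      have hp : IsVert (p f) := by
        rcases Nat.eq_zero_or_pos m with rfl | hm
        · exact i.elim0
        · exact (hnbr ⟨n, by omega⟩).1
      simp only [split, turn, Fin.val_castSucc, Fin.val_succ]
      simp only [IsVert] at hp
      obtain ⟨ha, hb, hd⟩ := h
      simp only [IsVert] at ha hb
      split <;> rename_i hc <;> simp only [cls] at hc <;> refine ⟨?_, ?_, ?_⟩
      · simp only [IsVert, Prod.fst_sub, Prod.snd_sub]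
        omega
      · simp only [IsVert, Prod.fst_sub, Prod.snd_sub]
        omega
      · simpa using hd
      · simp only [IsVert, Prod.fst_sub, Prod.snd_sub]
        omega
      · simp only [IsVert, Prod.fst_sub, Prod.snd_sub]
        omega
      · simp only [nrm, Prod.fst_sub, Prod.snd_sub] at hd ⊢
        linear_combination hd
  · simp only [split, Prod.mk.injEq, funext_iff] at he
    have hp : p f = p g := he.1 ⟨n, by omega⟩
    funext i
    rcases le_or_gt i.val n with h | h
    · exact he.1 ⟨i, by omega⟩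
    · have h1 := he.2 ⟨i - n, by omega⟩
      have e : (⟨n + (i.val - n), by omega⟩ : Fin (n + m + 1)) = i :=
        Fin.ext (by simp only; omega)
      simp only [turn, hp, e] at h1
      split at h1
      · exact sub_left_injective h1
      · exact sub_right_injective h1

/-- A walk of the generating series. -/
def toSaw {n : ℕ} (f : Fin (n + 1) → ℤ × ℤ) : List (ℤ × ℤ) :=
  List.ofFn fun i => (1, 0) - f i

theorem toSaw_injective {n : ℕ} : Function.Injective (toSaw (n := n)) := fun f g h => by
  funext i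
  exact sub_right_injective (congrFun (List.ofFn_injective h) i)

theorem vtx_toSaw {n : ℕ} (f : Fin (n + 1) → ℤ × ℤ) {i : ℕ} (h : i < n + 1) :
    vtx (toSaw f) i = (1, 0) - f ⟨i, h⟩ := by
  rw [vtx, List.getD_eq_getElem _ _ (by simpa [toSaw] using h)]
  exact List.getElem_ofFn _

theorem isSaw_toSaw {n : ℕ} {f : Fin (n + 1) → ℤ × ℤ} (hf : f ∈ sawSet n) :
    IsSaw (1, 0) (toSaw f) := by
  obtain ⟨h0, hinj, hnbr⟩ := hf
  have hlen : (toSaw f).length = n + 1 := List.length_ofFn
  refine ⟨by omega, ?_, fun i hi => ?_, fun i j hij hj h => ?_⟩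
  · rw [vtx_toSaw f n.succ_pos]
    exact (congrArg _ h0).trans (sub_zero _)
  · rw [vtx_toSaw f (by omega), vtx_toSaw f (by omega)]
    exact nbr_flip.2 (hnbr ⟨i, by omega⟩)
  · rw [vtx_toSaw f (by omega), vtx_toSaw f (by omega)] at h
    have := Fin.mk.inj_iff.1 (hinj (sub_right_injective h))
    omega

theorem card_le_sawCount {k : ℕ} {S : Finset (List (ℤ × ℤ))}
    (hS : ∀ p ∈ S, IsSaw (1, 0) p ∧ p.length = k + 1) : S.card ≤ sawCount k := by
  rw [← Set.ncard_coe_finset, sawCount]
  refine Set.ncard_le_ncard_of_injOn (fun p (i : Fin (k + 1)) => (1, 0) - vtx p i) (fun p hp => ?_)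
    (fun p hp q hq he => ?_) (sawSet_finite k)
  · obtain ⟨hs, hlen⟩ := hS p hp
    refine ⟨?_, fun i j h => ?_, fun i => nbr_flip.2 (hs.nbr i (by omega))⟩
    · simp [hs.start]
    · have h' := sub_right_injective h
      rcases lt_trichotomy i.val j.val with hl | hl | hl
      · exact absurd h' (hs.inj i j hl (by omega))
      · exact Fin.ext hl
      · exact absurd h'.symm (hs.inj j i hl (by omega))
  · have hl := (hS p hp).2
    refine list_ext_vtx (hl.trans (hS q hq).2.symm) fun i hi => ?_
    exact sub_right_injective (congrFun he ⟨i, by omega⟩)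

/-- **Divergence at `1 / √(2 + √2)`.** -/
theorem honeycomb_critical_divergence :
    ¬Summable fun n => (sawCount n : ℝ) * (Real.sqrt (2 + Real.sqrt 2))⁻¹ ^ n := by
  change ¬Summable fun n => (sawCount n : ℝ) * xc ^ n
  intro h
  refine not_sawBounded_xc ⟨xc * ∑' n, (sawCount n : ℝ) * xc ^ n, fun S hS => ?_⟩
  have hsplit : ∑ p ∈ S, xc ^ p.length =
      ∑ k ∈ S.image fun p => p.length - 1,
        (S.filter fun p => p.length - 1 = k).card • xc ^ (k + 1) := by
    rw [← Finset.sum_comp (fun k => xc ^ (k + 1))]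
    exact Finset.sum_congr rfl fun p hp => by rw [Nat.sub_add_cancel (hS p hp).one_le]
  rw [hsplit, ← tsum_mul_left]
  refine le_trans (Finset.sum_le_sum fun k _ => ?_)
    ((h.mul_left xc).sum_le_tsum _ fun k _ =>
      mul_nonneg xc_pos.le (mul_nonneg (Nat.cast_nonneg _) (pow_nonneg xc_pos.le _)))
  have hc : ((S.filter fun p => p.length - 1 = k).card : ℝ) ≤ sawCount k := by
    refine Nat.cast_le.2 (card_le_sawCount fun p hp => ?_)
    obtain ⟨hpS, hk⟩ := Finset.mem_filter.1 hp
    exact ⟨hS p hpS, by have := (hS p hpS).one_le; omega⟩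
  rw [nsmul_eq_mul, pow_succ']
  nlinarith [mul_le_mul_of_nonneg_right hc (mul_nonneg xc_pos.le (pow_nonneg xc_pos.le k))]

/-- **Every count is at least a power of `√(2 + √2)`.** -/
theorem honeycomb_lower (n : ℕ) : Real.sqrt (2 + Real.sqrt 2) ^ n ≤ sawCount n := by
  have hμ : Real.sqrt (2 + Real.sqrt 2) = xc⁻¹ := (inv_inv _).symm
  rcases Nat.eq_zero_or_pos n with rfl | hn
  · simpa using one_le_sawCount_zero
  by_contra hlt
  rw [not_le, hμ, inv_pow, ← one_div, lt_div_iff₀ (pow_pos xc_pos n)] at hlt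
  set a : ℕ → ℝ := fun k => (sawCount k : ℝ) * xc ^ k
  have ha : ∀ k, 0 ≤ a k := fun k => mul_nonneg (Nat.cast_nonneg _) (pow_nonneg xc_pos.le _)
  have hadd : ∀ i j, a (i + j) ≤ a i * a j := fun i j => by
    have h : (sawCount (i + j) : ℝ) ≤ sawCount i * sawCount j := by
      exact_mod_cast sawCount_add_le i j
    simp only [a]
    rw [pow_add]
    nlinarith [mul_le_mul_of_nonneg_right h (mul_nonneg (pow_nonneg xc_pos.le i)
      (pow_nonneg xc_pos.le j))]
  have hq : ∀ q r, a (q * n + r) ≤ a n ^ q * a r := fun q => by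
    induction q with
    | zero => simp
    | succ q ih =>
      intro r
      rw [show (q + 1) * n + r = n + (q * n + r) by ring, pow_succ', mul_assoc]
      exact (hadd _ _).trans (mul_le_mul_of_nonneg_left (ih r) (ha n))
  have hsum : ∀ N, ∑ k ∈ Finset.range (N * n), a k ≤
      (∑ r ∈ Finset.range n, a r) * ∑ q ∈ Finset.range N, a n ^ q := fun N => by
    induction N with
    | zero => simp
    | succ N ih =>
      rw [Nat.succ_mul, Finset.sum_range_add, Finset.sum_range_succ _ N, mul_add]
      refine add_le_add ih ?_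
      rw [Finset.sum_mul]
      exact Finset.sum_le_sum fun r _ => (hq N r).trans_eq (mul_comm _ _)
  refine honeycomb_critical_divergence (summable_of_sum_range_le
    (c := (∑ r ∈ Finset.range n, a r) * (1 - a n)⁻¹) ha fun N => ?_)
  refine le_trans (Finset.sum_le_sum_of_subset_of_nonneg
    (Finset.range_mono (Nat.le_mul_of_pos_right N hn)) fun _ _ _ => ha _) ((hsum N).trans ?_)
  refine mul_le_mul_of_nonneg_left ?_ (Finset.sum_nonneg fun _ _ => ha _)
  rw [← tsum_geometric_of_lt_one (ha n) hlt]
  exact (summable_geometric_of_lt_one (ha n) hlt).sum_le_tsum _ fun _ _ => pow_nonneg (ha n) _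

/-- **Convergence below `1 / √(2 + √2)`.** -/
theorem honeycomb_summable_below {x : ℝ} (hx : 0 ≤ x)
    (hxc : x < (Real.sqrt (2 + Real.sqrt 2))⁻¹) :
    Summable fun n => (sawCount n : ℝ) * x ^ n := by
  rcases hx.eq_or_lt with rfl | hx
  · exact summable_of_ne_finset_zero (s := {0}) fun n hn => by
      rw [zero_pow (by simpa using hn), mul_zero]
  obtain ⟨C, hC⟩ := sawBounded_of_lt hx hxc
  refine summable_of_sum_range_le (c := C / x) (fun n => by positivity) fun N => ?_
  rw [le_div_iff₀ hx, Finset.sum_mul]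
  set F : ℕ → Finset (List (ℤ × ℤ)) := fun n => (sawSet_finite n).toFinset.image toSaw
  have hF : ∀ {n p}, p ∈ F n → IsSaw (1, 0) p ∧ p.length = n + 1 := fun {n p} hp => by
    obtain ⟨f, hf, rfl⟩ := Finset.mem_image.1 hp
    exact ⟨isSaw_toSaw ((sawSet_finite n).mem_toFinset.1 hf), List.length_ofFn⟩
  refine le_trans (le_of_eq ?_)
    (hC ((Finset.range N).biUnion F) fun p hp => by
      obtain ⟨n, -, hn⟩ := Finset.mem_biUnion.1 hp
      exact (hF hn).1)
  rw [Finset.sum_biUnion fun a _ b _ hab => Finset.disjoint_left.2 fun p hp hp' => hab (by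
    have := (hF hp).2
    have := (hF hp').2
    omega)]
  refine Finset.sum_congr rfl fun n _ => ?_
  rw [Finset.sum_congr rfl fun p hp => by rw [(hF hp).2], Finset.sum_const,
    Finset.card_image_of_injective _ toSaw_injective, nsmul_eq_mul,
    ← Set.ncard_eq_toFinset_card _ (sawSet_finite n), ← sawCount, pow_succ, mul_assoc]

/-- **The connective constant of the honeycomb lattice is `√(2 + √2)`.** -/
theorem honeycomb_connective_constant :
    Tendsto (fun n : ℕ => (sawCount n : ℝ) ^ (1 / (n : ℝ))) atTop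
      (𝓝 (Real.sqrt (2 + Real.sqrt 2))) := by
  set μ := Real.sqrt (2 + Real.sqrt 2)
  have hμ0 : 0 < μ := Real.sqrt_pos.2 (by positivity)
  refine tendsto_order.2 ⟨fun a ha => ?_, fun b hb => ?_⟩
  · filter_upwards [eventually_ge_atTop 1] with n hn
    refine ha.trans_le ?_
    rw [one_div, ← Real.pow_rpow_inv_natCast hμ0.le (show n ≠ 0 by omega)]
    exact Real.rpow_le_rpow (by positivity) (honeycomb_lower n) (by positivity)
  · set ν := (μ + b) / 2 with hν
    have h1 : μ < ν := by rw [hν]; linarith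
    have h2 : ν < b := by rw [hν]; linarith
    have hν0 : 0 < ν := hμ0.trans h1
    have hsum := honeycomb_summable_below (inv_nonneg.2 hν0.le) (inv_strictAnti₀ hμ0 h1)
    set C := max 1 (∑' n, (sawCount n : ℝ) * ν⁻¹ ^ n)
    have hC : 0 < C := zero_lt_one.trans_le (le_max_left _ _)
    have hlim : Tendsto (fun n : ℕ => C ^ (1 / (n : ℝ)) * ν) atTop (𝓝 ν) := by
      have h := ((Real.continuous_const_rpow hC.ne').tendsto 0).comp
        tendsto_one_div_atTop_nhds_zero_nat
      simpa using h.mul_const ν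
    filter_upwards [eventually_ge_atTop 1, hlim.eventually_lt_const h2] with n hn hlt
    refine lt_of_le_of_lt ?_ hlt
    have hle : (sawCount n : ℝ) ≤ C * ν ^ n := by
      have h := (hsum.le_tsum n fun k _ => by positivity).trans
        (le_max_right 1 (∑' k, (sawCount k : ℝ) * ν⁻¹ ^ k))
      rwa [inv_pow, ← div_eq_mul_inv, div_le_iff₀ (pow_pos hν0 n)] at h
    calc (sawCount n : ℝ) ^ (1 / (n : ℝ)) ≤ (C * ν ^ n) ^ (1 / (n : ℝ)) :=
          Real.rpow_le_rpow (Nat.cast_nonneg _) hle (by positivity)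
      _ = C ^ (1 / (n : ℝ)) * ν := by
          rw [one_div, Real.mul_rpow hC.le (pow_nonneg hν0.le _),
            Real.pow_rpow_inv_natCast hν0.le (show n ≠ 0 by omega)]

/-- The square of the length of a vector of the lattice. -/
theorem normSq_pos (v : ℤ × ℤ) : Complex.normSq (pos v) = (nrm v : ℝ) := by
  simp only [pos, nrm, Complex.normSq_mk]
  push_cast
  linear_combination ((v.2 : ℝ) ^ 2 / 4) * Real.mul_self_sqrt (show (0 : ℝ) ≤ 3 by norm_num)

/-- Adjacency is being at distance one in the plane. -/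
theorem nbr_iff_norm {u v : ℤ × ℤ} :
    Nbr u v ↔ (u.1 - u.2) % 3 ≠ 2 ∧ (v.1 - v.2) % 3 ≠ 2 ∧ ‖pos v - pos u‖ = 1 := by
  refine and_congr Iff.rfl (and_congr Iff.rfl ?_)
  rw [← sq_eq_sq₀ (norm_nonneg _) zero_le_one, ← Complex.normSq_eq_norm_sq, ← pos_sub, normSq_pos,
    one_pow, Int.cast_eq_one]

end FA.Honeycomb

end
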