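import Fermat.Agent.Honeycomb.Loop
import Mathlib.Data.List.GetD

/-!
# The parafermionic observable

Over the walks from the mid-edge left of `(1, 0)` in a finite domain, the weighted directions of
the last steps telescope at the critical fugacity, so those leaving the domain sum to one.
-/

set_option autoImplicit false

noncomputable section

open Complex Finset
open scoped ComplexConjugate

namespace FA.Honeycomb

/-- The vertex of a list at an index. -/
def vtx (l : List (ℤ × ℤ)) (i : ℕ) : ℤ × ℤ := l.getD i 0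

theorem vtx_append_left {l l' : List (ℤ × ℤ)} {i : ℕ} (h : i < l.length) :
    vtx (l ++ l') i = vtx l i := List.getD_append _ _ _ _ h

theorem vtx_append_right {l l' : List (ℤ × ℤ)} {i : ℕ} (h : l.length ≤ i) :
    vtx (l ++ l') i = vtx l' (i - l.length) := List.getD_append_right _ _ _ _ h

theorem vtx_ofFn {n : ℕ} (f : ℕ → ℤ × ℤ) {i : ℕ} (h : i < n) :
    vtx (List.ofFn fun j : Fin n => f j) i = f i := by
  rw [vtx, List.getD_eq_getElem _ _ (by simpa using h), List.getElem_ofFn]

theorem list_ext_vtx {l l' : List (ℤ × ℤ)} (hlen : l.length = l'.length)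
    (h : ∀ i < l.length, vtx l i = vtx l' i) : l = l' :=
  List.ext_getElem hlen fun i h1 h2 => by
    have := h i h1
    rwa [vtx, vtx, List.getD_eq_getElem _ _ h1, List.getD_eq_getElem _ _ h2] at this

/-- A walk from the mid-edge left of `(1, 0)` through vertices of `D`, with the next vertex after
the last one as its last entry. -/
structure IsWalk (D : Finset (ℤ × ℤ)) (l : List (ℤ × ℤ)) : Prop where
  two_le : 2 ≤ l.length
  start : vtx l 0 = (0, 0)
  second : vtx l 1 = (1, 0)
  nbr : ∀ i, i + 1 < l.length → Nbr (vtx l i) (vtx l (i + 1))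
  back : ∀ i, i + 2 < l.length → vtx l (i + 2) ≠ vtx l i
  inj : ∀ i j, i < j → j + 1 < l.length → vtx l i ≠ vtx l j
  mem : ∀ i, 1 ≤ i → i + 1 < l.length → vtx l i ∈ D

/-- The conditions on a domain. -/
structure IsDomain (D : Finset (ℤ × ℤ)) : Prop where
  right : ∀ v ∈ D, 0 < 2 * v.1 + v.2
  one_mem : ((1, 0) : ℤ × ℤ) ∈ D

variable {D : Finset (ℤ × ℤ)}

theorem IsDomain.origin_notMem (hD : IsDomain D) : ((0, 0) : ℤ × ℤ) ∉ D := fun h => by
  simpa using hD.right _ h

theorem IsWalk.ne_base {l : List (ℤ × ℤ)} (hl : IsWalk D l) (hne : l ≠ [(0, 0), (1, 0)]) :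
    3 ≤ l.length := by
  by_contra h
  have h2 : l.length = 2 := by have := hl.two_le; omega
  refine hne (list_ext_vtx h2 fun i hi => ?_)
  have h01 : i = 0 ∨ i = 1 := by omega
  rcases h01 with rfl | rfl
  · exact hl.start
  · exact hl.second

/-- The points next to the domain. -/
def around (D : Finset (ℤ × ℤ)) : Finset (ℤ × ℤ) :=
  insert (0, 0) (insert (1, 0) (D ∪ D.biUnion fun v => units.image fun e => v + e))

open scoped Classical in
/-- All walks in `D`. -/
def walks (D : Finset (ℤ × ℤ)) : Finset (List (ℤ × ℤ)) :=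
  ((range (D.card + 3)).biUnion fun n =>
    (Fintype.piFinset fun _ : Fin n => around D).image List.ofFn).filter (IsWalk D)

theorem mem_walks {l : List (ℤ × ℤ)} : l ∈ walks D ↔ IsWalk D l := by
  classical
  refine ⟨fun h => (Finset.mem_filter.1 h).2, fun h => Finset.mem_filter.2 ⟨?_, h⟩⟩
  have hcard : l.length - 2 ≤ D.card := by
    have := Finset.card_le_card_of_injOn (s := Finset.range (l.length - 2)) (t := D)
      (fun i => vtx l (i + 1))
      (fun i hi => h.mem _ (by omega) (by have := Finset.mem_range.1 hi; omega))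
      fun i hi j hj hij => by
        have hi' := Finset.mem_range.1 (Finset.mem_coe.1 hi)
        have hj' := Finset.mem_range.1 (Finset.mem_coe.1 hj)
        rcases lt_trichotomy i j with h1 | h1 | h1
        · exact absurd hij (h.inj _ _ (by omega) (by omega))
        · exact h1
        · exact absurd hij.symm (h.inj _ _ (by omega) (by omega))
    simpa using this
  refine Finset.mem_biUnion.2 ⟨l.length, Finset.mem_range.2 (by omega), Finset.mem_image.2
    ⟨fun i => l[i], Fintype.mem_piFinset.2 fun i => ?_, List.ofFn_getElem⟩⟩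
  have e : l[(i : ℕ)] = vtx l i := (List.getD_eq_getElem _ _ i.2).symm
  show l[(i : ℕ)] ∈ around D
  rw [e]
  simp only [around, Finset.mem_insert, Finset.mem_union, Finset.mem_biUnion, Finset.mem_image]
  have := h.two_le
  rcases Nat.eq_zero_or_pos (i : ℕ) with h0 | h0
  · exact Or.inl (h0 ▸ h.start)
  rcases (show (i : ℕ) + 1 ≤ l.length from i.2).lt_or_eq with h1 | h1
  · exact Or.inr (Or.inr (Or.inl (h.mem _ h0 h1)))
  obtain ⟨j, hj⟩ : ∃ j, (i : ℕ) = j + 1 := ⟨i - 1, by omega⟩
  rcases Nat.eq_zero_or_pos j with rfl | hj0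
  · exact Or.inr (Or.inl (hj ▸ h.second))
  refine Or.inr (Or.inr (Or.inr ⟨vtx l j, h.mem j hj0 (by omega), vtx l i - vtx l j,
    mem_units.2 ?_, add_sub_cancel _ _⟩))
  exact hj ▸ (h.nbr j (by omega)).2.2

/-- The turning in units of sixty degrees. -/
def winding (l : List (ℤ × ℤ)) : ℤ :=
  ∑ i ∈ Ico 0 (l.length - 2), turn (vtx l i) (vtx l (i + 1)) (vtx l (i + 2))

/-- The last vertex, which is not counted. -/
def lastV (l : List (ℤ × ℤ)) : ℤ × ℤ := vtx l (l.length - 1)

/-- The last step. -/
def lastStep (l : List (ℤ × ℤ)) : ℤ × ℤ := lastV l - vtx l (l.length - 2)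

/-- The phase of a turning. -/
def phase (W : ℤ) : ℂ := exp ((-(5 * Real.pi / 24) * W : ℝ) * I)

theorem phase_add (a b : ℤ) : phase (a + b) = phase a * phase b := by
  rw [phase, phase, phase, ← Complex.exp_add]
  congr 1
  push_cast
  ring

/-- The critical fugacity `1 / √(2 + √2)`. -/
def xc : ℝ := (Real.sqrt (2 + Real.sqrt 2))⁻¹

theorem xc_pos : 0 < xc := inv_pos.2 (Real.sqrt_pos.2 (by positivity))

theorem two_mul_cos_mul_xc : 2 * Real.cos (Real.pi / 8) * xc = 1 := by
  rw [Real.cos_pi_div_eight, mul_div_cancel₀ _ (two_ne_zero), xc,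
    mul_inv_cancel₀ (Real.sqrt_pos.2 (by positivity)).ne']

theorem pair_cancels {s : ℤ} (hs : s = 1 ∨ s = -1) :
    (⟨1 / 2, -((s : ℝ) * (Real.sqrt 3 / 2))⟩ : ℂ) * phase (-4 * s) +
      ⟨1 / 2, (s : ℝ) * (Real.sqrt 3 / 2)⟩ * phase (4 * s) = 0 := by
  have e : ∀ W : ℤ, phase W = ⟨Real.cos (-(5 * Real.pi / 24) * W),
      Real.sin (-(5 * Real.pi / 24) * W)⟩ := fun W => by
    rw [phase]
    apply Complex.ext
    · exact exp_ofReal_mul_I_re _
    · exact exp_ofReal_mul_I_im _
  have e4 : phase 4 = ⟨-(Real.sqrt 3 / 2), -(1 / 2)⟩ := by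
    rw [e, show -(5 * Real.pi / 24) * ((4 : ℤ) : ℝ) = -(Real.pi - Real.pi / 6) by push_cast; ring,
      Real.cos_neg, Real.sin_neg, Real.cos_pi_sub, Real.sin_pi_sub, Real.cos_pi_div_six,
      Real.sin_pi_div_six]
  have e4' : phase (-4) = ⟨-(Real.sqrt 3 / 2), 1 / 2⟩ := by
    rw [e, show -(5 * Real.pi / 24) * ((-4 : ℤ) : ℝ) = Real.pi - Real.pi / 6 by push_cast; ring,
      Real.cos_pi_sub, Real.sin_pi_sub, Real.cos_pi_div_six, Real.sin_pi_div_six]
  have h3 := Real.mul_self_sqrt (show (0 : ℝ) ≤ 3 by norm_num)
  rcases hs with rfl | rfl <;>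
    simp only [mul_one, mul_neg, neg_neg, Int.cast_one, Int.cast_neg, one_mul, neg_mul, e4, e4'] <;>
    apply Complex.ext <;> simp [mul_re, mul_im] <;> linear_combination h3 / 4 * 0

theorem turns_collapse :
    (⟨1 / 2, Real.sqrt 3 / 2⟩ : ℂ) * phase 1 + ⟨1 / 2, -(Real.sqrt 3 / 2)⟩ * phase (-1) =
      ((2 * Real.cos (Real.pi / 8) : ℝ) : ℂ) := by
  have e : ∀ W : ℤ, phase W = ⟨Real.cos (-(5 * Real.pi / 24) * W),
      Real.sin (-(5 * Real.pi / 24) * W)⟩ := fun W => by
    rw [phase]
    apply Complex.ext
    · exact exp_ofReal_mul_I_re _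
    · exact exp_ofReal_mul_I_im _
  rw [show Real.pi / 8 = Real.pi / 3 - 5 * Real.pi / 24 by ring, Real.cos_sub,
    Real.cos_pi_div_three, Real.sin_pi_div_three, e, e]
  apply Complex.ext <;>
    simp only [add_re, add_im, mul_re, mul_im, ofReal_re, ofReal_im, Int.cast_one, Int.cast_neg,
      mul_one, mul_neg, neg_neg, Real.cos_neg, Real.sin_neg] <;> ring

/-- The summand of a walk. -/
def term (l : List (ℤ × ℤ)) : ℂ :=
  ((xc ^ (l.length - 2) : ℝ) : ℂ) * phase (winding l) * pos (lastStep l)

/-- The two ways on. -/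
def next (l : List (ℤ × ℤ)) : Bool → ℤ × ℤ
  | true => lastV l + rot (lastStep l)
  | false => lastV l + rotInv (lastStep l)

theorem winding_append {l : List (ℤ × ℤ)} (h : 2 ≤ l.length) (z : ℤ × ℤ) :
    winding (l ++ [z]) = winding l + turn (vtx l (l.length - 2)) (lastV l) z := by
  have hlen : (l ++ [z]).length - 2 = (l.length - 2) + 1 := by simp; omega
  rw [winding, hlen, Finset.sum_Ico_succ_top (Nat.zero_le _), winding]
  congr 1
  · refine Finset.sum_congr rfl fun i hi => ?_
    have := (Finset.mem_Ico.1 hi).2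
    rw [vtx_append_left (by omega), vtx_append_left (by omega), vtx_append_left (by omega)]
  · rw [vtx_append_left (by omega), vtx_append_left (by omega),
      vtx_append_right (by omega : l.length ≤ l.length - 2 + 2), lastV,
      show l.length - 2 + 1 = l.length - 1 by omega,
      show l.length - 2 + 2 - l.length = 0 by omega]
    rfl

theorem IsWalk.nbr_last {l : List (ℤ × ℤ)} (hl : IsWalk D l) :
    Nbr (vtx l (l.length - 2)) (lastV l) := by
  have h := hl.nbr (l.length - 2) (by have := hl.two_le; omega)
  rwa [show l.length - 2 + 1 = l.length - 1 by have := hl.two_le; omega] at h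

/-- A walk can go on unless it has left the domain or met itself. -/
def IsFresh (D : Finset (ℤ × ℤ)) (l : List (ℤ × ℤ)) : Prop :=
  lastV l ∈ D ∧ ∀ i, i + 1 < l.length → vtx l i ≠ lastV l

theorem IsWalk.append {l : List (ℤ × ℤ)} (hl : IsWalk D l) (hf : IsFresh D l) (b : Bool) :
    IsWalk D (l ++ [next l b]) := by
  have h2 := hl.two_le
  obtain ⟨t1, t2, t3, t4, -, -⟩ := nbr_turns hl.nbr_last
  have hn : Nbr (lastV l) (next l b) ∧ next l b ≠ vtx l (l.length - 2) := by
    cases b
    · exact ⟨t2, t4⟩
    · exact ⟨t1, t3⟩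
  have hlast : ∀ i, i + 1 = l.length → vtx l i = lastV l := fun i hi => by
    rw [lastV, ← hi, Nat.add_sub_cancel]
  have hlen : (l ++ [next l b]).length = l.length + 1 := by simp
  refine ⟨by omega, (vtx_append_left (by omega)).trans hl.start,
    (vtx_append_left (by omega)).trans hl.second, fun i hi => ?_, fun i hi => ?_,
    fun i j hij hj => ?_, fun i hi1 hi => ?_⟩
  · rw [hlen] at hi
    rw [vtx_append_left (by omega)]
    rcases (show i + 1 ≤ l.length by omega).lt_or_eq with h | h
    · rw [vtx_append_left h]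
      exact hl.nbr i h
    · rw [vtx_append_right (by omega), hlast i h, show i + 1 - l.length = 0 by omega]
      exact hn.1
  · rw [hlen] at hi
    rw [vtx_append_left (show i < l.length by omega)]
    rcases (show i + 2 ≤ l.length by omega).lt_or_eq with h | h
    · rw [vtx_append_left h]
      exact hl.back i h
    · rw [vtx_append_right (by omega), show i + 2 - l.length = 0 by omega,
        show i = l.length - 2 by omega]
      exact hn.2
  · rw [hlen] at hj
    rw [vtx_append_left (by omega), vtx_append_left (by omega)]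
    rcases (show j + 1 ≤ l.length by omega).lt_or_eq with h | h
    · exact hl.inj i j hij h
    · rw [hlast j h]
      exact hf.2 i (by omega)
  · rw [hlen] at hi
    rw [vtx_append_left (by omega)]
    rcases (show i + 1 ≤ l.length by omega).lt_or_eq with h | h
    · exact hl.mem i hi1 h
    · rw [hlast i h]
      exact hf.1

theorem IsWalk.parent {l : List (ℤ × ℤ)} (hl : IsWalk D l) (h3 : 3 ≤ l.length) :
    IsWalk D l.dropLast ∧ IsFresh D l.dropLast ∧
      ∃ b, l = l.dropLast ++ [next l.dropLast b] := by
  have hlen : l.dropLast.length = l.length - 1 := List.length_dropLast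
  have hv : ∀ i, i + 1 < l.length → vtx l.dropLast i = vtx l i := fun i hi => by
    rw [vtx, vtx, List.getD_eq_getElem _ _ (show i < l.dropLast.length by omega),
      List.getD_eq_getElem _ _ (show i < l.length by omega), List.getElem_dropLast]
  have hw : IsWalk D l.dropLast := by
    refine ⟨by omega, (hv 0 (by omega)).trans hl.start, (hv 1 (by omega)).trans hl.second,
      fun i hi => ?_, fun i hi => ?_, fun i j hij hj => ?_, fun i hi1 hi => ?_⟩ <;>
      rw [hlen] at * <;> simp (disch := omega) only [hv]
    · exact hl.nbr i (by omega)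
    · exact hl.back i (by omega)
    · exact hl.inj i j hij (by omega)
    · exact hl.mem i hi1 (by omega)
  have hL : lastV l.dropLast = vtx l (l.length - 2) := by
    rw [lastV, hv _ (by omega), hlen, Nat.sub_sub]
  refine ⟨hw, ⟨hL ▸ hl.mem _ (by omega) (by omega), fun i hi => ?_⟩, ?_⟩
  · rw [hL, hv i (by omega)]
    exact hl.inj i _ (by omega) (by omega)
  have hn : Nbr (vtx l (l.length - 2)) (lastV l) := hl.nbr_last
  have hb : lastV l ≠ vtx l (l.length - 3) := by
    have := hl.back (l.length - 3) (by omega)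
    rwa [show l.length - 3 + 2 = l.length - 1 by omega] at this
  obtain ⟨-, -, -, -, -, ht⟩ := nbr_turns hw.nbr_last
  have key : l = l.dropLast ++ [lastV l] := by
    have hne : l ≠ [] := fun h => by simp [h] at h3
    conv_lhs => rw [← List.dropLast_append_getLast hne]
    rw [lastV, vtx, List.getD_eq_getElem _ _ (by omega), List.getLast_eq_getElem]
  rcases ht (lastV l) (hL ▸ hn) (by
    rwa [hlen, hv _ (by omega), show l.length - 1 - 2 = l.length - 3 by omega]) with h | h
  · exact ⟨true, key.trans (congrArg (fun z => l.dropLast ++ [z]) h)⟩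
  · exact ⟨false, key.trans (congrArg (fun z => l.dropLast ++ [z]) h)⟩

theorem term_append {l : List (ℤ × ℤ)} (hl : IsWalk D l) :
    term (l ++ [next l true]) + term (l ++ [next l false]) = term l := by
  have h2 := hl.two_le
  obtain ⟨-, -, -, -, hdiff, -⟩ := nbr_turns hl.nbr_last
  have hstep : ∀ b, lastStep (l ++ [next l b]) = next l b - lastV l := fun b => by
    rw [lastStep, lastV, lastV, List.length_append, List.length_singleton, Nat.add_sub_cancel,
      vtx_append_right le_rfl, Nat.sub_self, show l.length + 1 - 2 = l.length - 1 by omega,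
      vtx_append_left (by omega)]
    rfl
  have hlen : ∀ b, (l ++ [next l b]).length - 2 = (l.length - 2) + 1 := fun b => by simp; omega
  have ht : turn (vtx l (l.length - 2)) (lastV l) (next l true) = 1 := if_pos rfl
  have hf : turn (vtx l (l.length - 2)) (lastV l) (next l false) = -1 := if_neg hdiff.symm
  simp only [term, hlen, winding_append h2, hstep, ht, hf, phase_add]
  simp only [next, add_sub_cancel_left, (pos_rot _).1, (pos_rot _).2, pow_succ, ofReal_mul]
  have key : (xc : ℂ) * ((⟨1 / 2, Real.sqrt 3 / 2⟩ : ℂ) * phase 1 +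
      ⟨1 / 2, -(Real.sqrt 3 / 2)⟩ * phase (-1)) = 1 := by
    rw [turns_collapse, ← ofReal_mul, mul_comm, two_mul_cos_mul_xc, ofReal_one]
  linear_combination ((xc ^ (l.length - 2) : ℝ) : ℂ) * phase (winding l) * pos (lastStep l) * key

open scoped Classical in
/-- The index where a walk meets itself. -/
def hitIdx (l : List (ℤ × ℤ)) : ℕ :=
  if h : ∃ i, i + 1 < l.length ∧ vtx l i = lastV l then Nat.find h else 0

/-- The loop traversed backwards. -/
def flipLoop (l : List (ℤ × ℤ)) : List (ℤ × ℤ) :=
  List.ofFn fun i : Fin l.length => (fun j : ℕ => if hitIdx l < j ∧ j + 1 < l.length then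
    vtx l (l.length - 1 + hitIdx l - j) else vtx l j) i

/-- **A loop and its reverse cancel.** -/
theorem flipLoop_spec (hD : IsDomain D) {l : List (ℤ × ℤ)} (hl : IsWalk D l) (hlast : lastV l ∈ D)
    (hnf : ¬IsFresh D l) :
    IsWalk D (flipLoop l) ∧ lastV (flipLoop l) ∈ D ∧ ¬IsFresh D (flipLoop l) ∧
      flipLoop l ≠ l ∧ flipLoop (flipLoop l) = l ∧ term l + term (flipLoop l) = 0 := by
  have hex : ∃ i, i + 1 < l.length ∧ vtx l i = lastV l := by
    by_contra h
    exact hnf ⟨hlast, fun i hi hi' => h ⟨i, hi, hi'⟩⟩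
  set k := hitIdx l with hkdef
  have hk : k + 1 < l.length ∧ vtx l k = lastV l := by
    rw [hkdef, hitIdx, dif_pos hex]
    exact Nat.find_spec hex
  obtain ⟨n, hn⟩ : ∃ n, l.length = n + 2 := ⟨l.length - 2, by have := hl.two_le; omega⟩
  have hkw : vtx l k = vtx l (n + 1) := by rw [hk.2, lastV, hn]; rfl
  have hk1 : 1 ≤ k := by
    by_contra h
    rw [show k = 0 by omega, hl.start] at hk
    exact hD.origin_notMem (hk.2 ▸ hlast)
  have hkn : k + 2 ≤ n := by
    by_contra h
    rcases (show k = n ∨ k + 1 = n by omega) with rfl | h'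
    · exact (hl.nbr k (by omega)).ne hkw
    · exact hl.back k (by omega) (by rw [show k + 2 = n + 1 by omega]; exact hkw.symm)
  set g : ℕ → ℤ × ℤ :=
    fun j => if k < j ∧ j + 1 < l.length then vtx l (l.length - 1 + k - j) else vtx l j
  have hg : ∀ j < l.length, vtx (flipLoop l) j = g j := fun j hj => vtx_ofFn g hj
  have hlenf : (flipLoop l).length = l.length := List.length_ofFn
  have gout : ∀ j, j ≤ k ∨ n + 1 ≤ j → g j = vtx l j := fun j hj => if_neg (by omega)
  have gin : ∀ j, k ≤ j → j ≤ n + 1 → g j = vtx l (n + 1 + k - j) := fun j h1 h2 => by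
    rcases h1.lt_or_eq with h1 | rfl
    · rcases h2.lt_or_eq with h2 | rfl
      · exact (if_pos ⟨h1, by omega⟩).trans (by rw [hn]; rfl)
      · rw [gout _ (Or.inr le_rfl), Nat.add_sub_cancel_left, hkw]
    · rw [gout _ (Or.inl le_rfl), Nat.add_sub_cancel, hkw]
  have hw : IsWalk D (flipLoop l) := by
    refine ⟨by omega, by rw [hg 0 (by omega), gout 0 (Or.inl (by omega))]; exact hl.start,
      by rw [hg 1 (by omega), gout 1 (Or.inl hk1)]; exact hl.second, fun i hi => ?_,
      fun i hi => ?_, fun i j hij hj => ?_, fun i hi1 hi => ?_⟩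
    · rw [hlenf] at hi
      rw [hg i (by omega), hg (i + 1) hi]
      rcases lt_or_ge i k with h | h
      · rw [gout i (Or.inl h.le), gout (i + 1) (Or.inl h)]
        exact hl.nbr i hi
      · rw [gin i h (by omega), gin (i + 1) (by omega) (by omega)]
        have := (hl.nbr (n + 1 + k - (i + 1)) (by omega)).symm
        rwa [show n + 1 + k - (i + 1) + 1 = n + 1 + k - i by omega] at this
    · rw [hlenf] at hi
      rw [hg i (by omega), hg (i + 2) hi]
      rcases lt_or_ge i k with h | h
      · rcases (show i + 2 ≤ k ∨ i + 1 = k by omega) with h' | h'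
        · rw [gout i (Or.inl h.le), gout (i + 2) (Or.inl h')]
          exact hl.back i hi
        · rw [gout i (Or.inl h.le), gin (i + 2) (by omega) (by omega),
            show n + 1 + k - (i + 2) = n by omega]
          exact (hl.inj i n (by omega) (by omega)).symm
      · rw [gin i h (by omega), gin (i + 2) (by omega) (by omega)]
        have := (hl.back (n + 1 + k - (i + 2)) (by omega)).symm
        rwa [show n + 1 + k - (i + 2) + 2 = n + 1 + k - i by omega] at this
    · rw [hlenf] at hj
      rw [hg i (by omega), hg j (by omega)]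
      rcases le_or_gt j k with h | h
      · rw [gout i (Or.inl (by omega)), gout j (Or.inl h)]
        exact hl.inj i j hij hj
      rcases le_or_gt i k with h' | h'
      · rw [gout i (Or.inl h'), gin j h.le (by omega)]
        exact hl.inj i _ (by omega) (by omega)
      · rw [gin i h'.le (by omega), gin j h.le (by omega)]
        exact (hl.inj _ _ (by omega) (by omega)).symm
    · rw [hlenf] at hi
      rw [hg i (by omega)]
      rcases le_or_gt i k with h | h
      · rw [gout i (Or.inl h)]
        exact hl.mem i hi1 hi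
      · rw [gin i h.le (by omega)]
        exact hl.mem _ (by omega) (by omega)
  have hlastf : lastV (flipLoop l) = lastV l := by
    rw [lastV, lastV, hlenf, hg _ (by omega), gout _ (Or.inr (by omega))]
  have hkf : vtx (flipLoop l) k = lastV (flipLoop l) := by
    rw [hg k (by omega), gout k (Or.inl le_rfl), hlastf, hk.2]
  have hnff : ¬IsFresh D (flipLoop l) := fun h => h.2 k (by omega) hkf
  have hhit : hitIdx (flipLoop l) = k := by
    have hex' : ∃ i, i + 1 < (flipLoop l).length ∧ vtx (flipLoop l) i = lastV (flipLoop l) :=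
      ⟨k, by omega, hkf⟩
    rw [hitIdx, dif_pos hex']
    obtain ⟨h1, h2⟩ := Nat.find_spec hex'
    by_contra hne
    rcases lt_or_gt_of_ne hne with h | h
    · exact hw.inj _ k h (by omega) (h2.trans hkf.symm)
    · exact hw.inj k _ h h1 (hkf.trans h2.symm)
  have hne : vtx l (k + 1) ≠ vtx l n := hl.inj _ _ (by omega) (by omega)
  refine ⟨hw, hlastf ▸ hlast, hnff, fun h => ?_, ?_, ?_⟩
  · have := congrArg (fun l' => vtx l' (k + 1)) h
    rw [hg _ (by omega), gin _ (by omega) (by omega),
      show n + 1 + k - (k + 1) = n by omega] at this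
    exact hne this.symm
  · refine list_ext_vtx (by rw [flipLoop, List.length_ofFn, hlenf]) fun i hi => ?_
    rw [flipLoop, List.length_ofFn] at hi
    rw [flipLoop, vtx_ofFn (fun j : ℕ => if hitIdx (flipLoop l) < j ∧ j + 1 < (flipLoop l).length
      then vtx (flipLoop l) ((flipLoop l).length - 1 + hitIdx (flipLoop l) - j)
      else vtx (flipLoop l) j) hi]
    simp only [hhit, hlenf]
    rw [hlenf] at hi
    split_ifs with h
    · rw [hg _ (by omega), gin _ (by omega) (by omega)]
      congr 1
      omega
    · rw [hg _ hi, gout i (by omega)]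
  -- the two turnings
  have hloop : ∀ (l' : List (ℤ × ℤ)), IsWalk D l' → l'.length = n + 2 →
      vtx l' k = vtx l' (n + 1) → lastV l' ∈ D →
      winding l' = ∑ i ∈ Ico 0 (k - 1), turn (vtx l' i) (vtx l' (i + 1)) (vtx l' (i + 2)) -
        4 * turn (vtx l' (k - 1)) (vtx l' k) (vtx l' (k + 1)) := by
    intro l' hl' hn' hk' hlast'
    set s := turn (vtx l' (k - 1)) (vtx l' k) (vtx l' (k + 1))
    have hL := sum_tau_loop (P := fun i => vtx l' (k + i)) (Q := fun i => vtx l' (k - i))
      (n := n + 1 - k) (m := k) (by omega) hk1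
      (by simp only [add_zero]; rw [show k + (n + 1 - k) = n + 1 by omega]; exact hk'.symm)
      (fun i hi => hl'.nbr (k + i) (by omega))
      (fun i j hi hij hj => by
        rcases (show k + j ≤ n ∨ k + j = n + 1 by omega) with h | h
        · exact hl'.inj _ _ (by omega) (by omega)
        · simp only [h, ← hk']
          exact (hl'.inj k (k + i) (by omega) (by omega)).symm)
      (by simp) (fun i hi => by
        have := (hl'.nbr (k - (i + 1)) (by omega)).symm
        rwa [show k - (i + 1) + 1 = k - i by omega] at this)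
      (fun i j hi1 hi hj => by
        rcases (show k + j ≤ n ∨ k + j = n + 1 by omega) with h | h
        · exact hl'.inj _ _ (by omega) (by omega)
        · simp only [h, ← hk']
          exact hl'.inj _ _ (by omega) (by omega))
      (fun j hj => by
        have hmem : vtx l' (k + j) ∈ D := by
          rcases (show k + j ≤ n ∨ k + j = n + 1 by omega) with h | h
          · exact hl'.mem _ (by omega) (by omega)
          · rw [h]
            rwa [lastV, hn'] at hlast'
        simp only [Nat.sub_self, hl'.start]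
        rw [show ((0, 0) : ℤ × ℤ) = 0 from rfl, sub_zero, re_pos_eq]
        exact div_pos (Int.cast_pos.2 (hD.right _ hmem)) two_pos)
    have hsum : ((∑ i ∈ Ico 0 (n + 1 - k - 1),
        turn (vtx l' (k + i)) (vtx l' (k + (i + 1))) (vtx l' (k + (i + 2))) : ℤ) : ℝ) =
        -5 * (s : ℝ) := by
      have hpi : Real.pi / 3 ≠ 0 := by positivity
      refine mul_left_cancel₀ hpi ?_
      rw [Int.cast_sum, Finset.mul_sum]
      simp only [add_zero] at hL
      refine (Finset.sum_congr rfl fun i hi => ?_).trans (hL.trans (by ring))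
      have := (Finset.mem_Ico.1 hi).2
      exact (tau_eq (hl'.nbr (k + i) (by omega)) (hl'.nbr (k + i + 1) (by omega))
        (hl'.back (k + i) (by omega))).symm
    have hsum' : ∑ i ∈ Ico 0 (n + 1 - k - 1),
        turn (vtx l' (k + i)) (vtx l' (k + (i + 1))) (vtx l' (k + (i + 2))) = -5 * s := by
      exact_mod_cast hsum
    rw [winding, hn', Nat.add_sub_cancel, ← Finset.sum_Ico_consecutive _ (Nat.zero_le (k - 1))
      (show k - 1 ≤ n by omega), Finset.sum_eq_sum_Ico_succ_bot (show k - 1 < n by omega),
      show k - 1 + 1 = k by omega, show k - 1 + 2 = k + 1 by omega]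
    have hrest : ∑ i ∈ Ico k n, turn (vtx l' i) (vtx l' (i + 1)) (vtx l' (i + 2)) =
        ∑ i ∈ Ico 0 (n + 1 - k - 1),
          turn (vtx l' (k + i)) (vtx l' (k + (i + 1))) (vtx l' (k + (i + 2))) := by
      rw [Finset.sum_Ico_eq_sum_range, Finset.sum_Ico_eq_sum_range]
      refine Finset.sum_congr (by congr 1; omega) fun i _ => ?_
      simp only [zero_add, add_assoc]
    rw [hrest, hsum']
    ring
  have hW := hloop l hl hn hkw (by rwa [lastV] at hlast)
  have hW' := hloop (flipLoop l) hw (by omega) (by
    rw [hkf, lastV, hlenf, hn]; rfl) (hlastf ▸ hlast)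
  set u := vtx l (k - 1)
  set w := vtx l k
  set pre := ∑ i ∈ Ico 0 (k - 1), turn (vtx l i) (vtx l (i + 1)) (vtx l (i + 2))
  have hpre : ∑ i ∈ Ico 0 (k - 1), turn (vtx (flipLoop l) i) (vtx (flipLoop l) (i + 1))
      (vtx (flipLoop l) (i + 2)) = pre := by
    refine Finset.sum_congr rfl fun i hi => ?_
    have := (Finset.mem_Ico.1 hi).2
    rw [hg i (by omega), hg (i + 1) (by omega), hg (i + 2) (by omega), gout i (Or.inl (by omega)),
      gout (i + 1) (Or.inl (by omega)), gout (i + 2) (Or.inl (by omega))]
  rw [hpre, hg (k - 1) (by omega), hg k (by omega), hg (k + 1) (by omega),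
    gout (k - 1) (Or.inl (by omega)), gout k (Or.inl le_rfl), gin (k + 1) (by omega) (by omega),
    show n + 1 + k - (k + 1) = n by omega] at hW'
  have huw : Nbr u w := by
    have := hl.nbr (k - 1) (by omega)
    rwa [show k - 1 + 1 = k by omega] at this
  obtain ⟨-, -, -, -, hdiff, ht⟩ := nbr_turns huw
  have h1 := ht (vtx l (k + 1)) (hl.nbr k (by omega))
    (hl.inj (k - 1) (k + 1) (by omega) (by omega)).symm
  have h2 := ht (vtx l n) (by
    have := (hl.nbr n (by omega)).symm
    rwa [← hkw] at this) (hl.inj (k - 1) n (by omega) (by omega)).symm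
  have hls : lastStep l = w - vtx l n := by
    rw [lastStep, lastV, hn, Nat.add_sub_cancel, show n + 2 - 1 = n + 1 from rfl, ← hkw]
  have hlsf : lastStep (flipLoop l) = w - vtx l (k + 1) := by
    rw [lastStep, hlastf, hlenf, hn, Nat.add_sub_cancel, hg n (by omega),
      gin n (by omega) (by omega), show n + 1 + k - n = k + 1 by omega, hk.2]
  have hneg : ∀ v : ℤ × ℤ, pos (w - (w + v)) = -pos v := fun v => by
    rw [sub_add_cancel_left, ← zero_sub, pos_sub, pos_eq_zero.2 rfl, zero_sub]
  change winding (flipLoop l) = pre - 4 * turn u w (vtx l n) at hW'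
  simp only [term, hlenf, hls, hlsf, hW, hW', sub_eq_add_neg (pre : ℤ), phase_add, ← neg_mul]
  have p1 := pair_cancels (s := 1) (Or.inl rfl)
  simp only [Int.cast_one, one_mul, mul_one] at p1
  rcases h1 with h1 | h1 <;> rcases h2 with h2 | h2
  · exact absurd (h1.trans h2.symm) hne
  all_goals first
    | exact absurd (h1.trans h2.symm) hne
    | skip
  · simp only [h1, h2, turn, if_true, if_neg hdiff.symm, mul_one, mul_neg, neg_neg,
      ← sub_eq_add_neg, hneg, (pos_rot _).1, (pos_rot _).2]
    linear_combination -((xc ^ (l.length - 2) : ℝ) : ℂ) * phase pre * pos (w - u) * p1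
  · simp only [h1, h2, turn, if_true, if_neg hdiff.symm, mul_one, mul_neg, neg_neg,
      ← sub_eq_add_neg, hneg, (pos_rot _).1, (pos_rot _).2]
    linear_combination -((xc ^ (l.length - 2) : ℝ) : ℂ) * phase pre * pos (w - u) * p1

open scoped Classical in
/-- **The walks leaving the domain sum to one.** -/
theorem sum_term_exit (hD : IsDomain D) :
    ∑ l ∈ (walks D).filter (fun l => lastV l ∉ D), term l = 1 := by
  set A := walks D
  set base : List (ℤ × ℤ) := [(0, 0), (1, 0)]
  have hb : base ∈ A := by
    rw [mem_walks]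
    refine ⟨by simp [base], rfl, rfl, fun i hi => ?_, fun i hi => ?_, fun i j hij hj => ?_,
      fun i hi1 hi => ?_⟩
    all_goals simp only [base, List.length_cons, List.length_nil] at *
    · obtain rfl : i = 0 := by omega
      show Nbr (0, 0) (1, 0)
      decide
    all_goals omega
  have hterm : term base = 1 := by
    simp [term, base, winding, phase, lastStep, lastV, vtx, pos]
    rfl
  have hnb : ∀ l ∈ A, l ≠ base → 3 ≤ l.length := fun l hl hne => (mem_walks.1 hl).ne_base hne
  -- the children
  have hchild : ∑ l ∈ A.erase base, term l = ∑ l ∈ A.filter (IsFresh D), term l := by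
    calc ∑ l ∈ A.erase base, term l
        = ∑ p ∈ (A.filter (IsFresh D)) ×ˢ (univ : Finset Bool), term (p.1 ++ [next p.1 p.2]) := by
          symm
          refine Finset.sum_bij (fun p _ => p.1 ++ [next p.1 p.2]) (fun p hp => ?_)
            (fun p hp p' hp' he => ?_) (fun l hl => ?_) (fun p hp => rfl)
          · obtain ⟨h1, h2⟩ := Finset.mem_filter.1 (Finset.mem_product.1 hp).1
            refine Finset.mem_erase.2 ⟨fun h => ?_, mem_walks.2 ((mem_walks.1 h1).append h2 _)⟩
            have := congrArg List.length h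
            have := (mem_walks.1 h1).two_le
            simp [base] at *
            omega
          · obtain ⟨h1, h2⟩ := List.append_inj' he rfl
            have h4 := (mem_walks.1 (Finset.mem_filter.1 (Finset.mem_product.1 hp).1).1).nbr_last
            obtain ⟨-, -, -, -, hdiff, -⟩ := nbr_turns h4
            simp only [List.cons.injEq, and_true, ← h1] at h2
            refine Prod.ext h1 ?_
            rcases p.2.dichotomy with hb1 | hb1 <;> rcases p'.2.dichotomy with hb2 | hb2 <;>
              rw [hb1, hb2] at h2 ⊢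
            · exact absurd h2.symm hdiff
            · exact absurd h2 hdiff
          · obtain ⟨hne, hl⟩ := Finset.mem_erase.1 hl
            obtain ⟨h1, h2, b, hb'⟩ := (mem_walks.1 hl).parent (hnb l hl hne)
            exact ⟨(l.dropLast, b), Finset.mem_product.2
              ⟨Finset.mem_filter.2 ⟨mem_walks.2 h1, h2⟩, Finset.mem_univ _⟩, hb'.symm⟩
      _ = _ := by
          rw [Finset.sum_product]
          refine Finset.sum_congr rfl fun l hl => ?_
          rw [Fintype.sum_bool]
          exact term_append (mem_walks.1 (Finset.mem_filter.1 hl).1)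
  -- the loops
  have hloop :
      ∑ l ∈ (A.filter fun l => lastV l ∈ D).filter (fun l => ¬IsFresh D l), term l = 0 := by
    refine Finset.sum_involution (fun l _ => flipLoop l) (fun l hl => ?_) (fun l hl _ => ?_)
      (fun l hl => ?_) fun l hl => ?_
    all_goals
      simp only [A, Finset.mem_filter, mem_walks] at hl ⊢
      obtain ⟨h1, h2, h3, h4, h5, h6⟩ := flipLoop_spec hD hl.1.1 hl.1.2 hl.2
    · exact h6
    · exact h4
    · exact ⟨⟨h1, h2⟩, h3⟩
    · exact h5
  have hfresh : (A.filter fun l => lastV l ∈ D).filter (IsFresh D) = A.filter (IsFresh D) := by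
    rw [Finset.filter_filter]
    exact Finset.filter_congr fun l _ => ⟨fun h => h.2, fun h => ⟨h.1, h⟩⟩
  have h1 := Finset.add_sum_erase A term hb
  have h2 := Finset.sum_filter_add_sum_filter_not A (fun l => lastV l ∈ D) term
  have h3 := Finset.sum_filter_add_sum_filter_not (A.filter fun l => lastV l ∈ D) (IsFresh D) term
  rw [hfresh, hloop, add_zero] at h3
  rw [hterm, hchild] at h1
  linear_combination h2 - h1 + h3

end FA.Honeycomb

end
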