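import Fermat.Agent.Honeycomb.Observable

/-!
# The identity in a truncated strip

The domain has `T` columns, cut by lines at `±60` degrees at height `L`; its boundary consists of
the side of the start, the opposite side and the two cuts, and on each the turning is fixed.
-/

set_option autoImplicit false

noncomputable section

open Complex Finset
open scoped ComplexConjugate

namespace FA.Honeycomb

/-- The column of a vertex. -/
def col (v : ℤ × ℤ) : ℤ := (2 * v.1 + v.2 - 2) / 3

/-- `T` columns cut at height `L`. -/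
def InStrip (T L : ℕ) (v : ℤ × ℤ) : Prop :=
  IsVert v ∧ 0 ≤ col v ∧ col v < T ∧ 3 * v.2 ≤ 2 * v.1 + v.2 + 6 * L ∧
    -(3 * v.2) ≤ 2 * v.1 + v.2 + 6 * L

instance (T L : ℕ) (v : ℤ × ℤ) : Decidable (InStrip T L v) := by unfold InStrip; infer_instance

/-- The domain. -/
def strip (T L : ℕ) : Finset (ℤ × ℤ) :=
  ((Finset.Icc (-(3 * T + 3 * L + 4 : ℤ)) (3 * T + 3 * L + 4)) ×ˢ
    (Finset.Icc (-(3 * T + 3 * L + 4 : ℤ)) (3 * T + 3 * L + 4))).filter (InStrip T L)

theorem mem_strip {T L : ℕ} {v : ℤ × ℤ} : v ∈ strip T L ↔ InStrip T L v := by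
  rw [strip, Finset.mem_filter, and_iff_right_iff_imp]
  intro h
  simp only [InStrip, IsVert, col] at h
  simp only [Finset.mem_product, Finset.mem_Icc]
  omega

theorem isDomain_strip {T : ℕ} (hT : 1 ≤ T) (L : ℕ) : IsDomain (strip T L) := by
  refine ⟨fun v hv => ?_, ?_⟩
  · have h := mem_strip.1 hv
    simp only [InStrip, IsVert, col] at h
    omega
  · rw [mem_strip]
    simp only [InStrip, IsVert, col]
    omega

theorem strip_mono {T T' L L' : ℕ} (hT : T ≤ T') (hL : L ≤ L') : strip T L ⊆ strip T' L' :=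
  fun v hv => by
    rw [mem_strip] at hv ⊢
    simp only [InStrip] at hv ⊢
    exact ⟨hv.1, hv.2.1, by omega, by omega, by omega⟩

/-- The ways out of the strip. -/
theorem exit_cases {T L : ℕ} {v z : ℤ × ℤ} (hv : v ∈ strip T L) (hz : z ∉ strip T L)
    (h : Nbr v z) :
    (z - v = (-1, 0) ∧ cls v = 1 ∧ col v = 0 ∧ 2 * z.1 + z.2 = 0) ∨
      (z - v = (1, 0) ∧ cls v = 0 ∧ col v = (T : ℤ) - 1 ∧ 2 * z.1 + z.2 = 3 * T + 2) ∨
      (z - v = (-1, 1) ∧ cls v = 0 ∧ 3 * v.2 = 2 * v.1 + v.2 + 6 * L) ∨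
      (z - v = (0, -1) ∧ cls v = 0 ∧ -(3 * v.2) = 2 * v.1 + v.2 + 6 * L) := by
  rw [mem_strip] at hv hz
  obtain ⟨hv1, hv2, hv3, hv4, hv5⟩ := hv
  have hz' : col z < 0 ∨ (T : ℤ) ≤ col z ∨ 2 * z.1 + z.2 + 6 * L < 3 * z.2 ∨
      2 * z.1 + z.2 + 6 * L < -(3 * z.2) := by
    by_contra hcon
    simp only [not_or, not_lt, not_le] at hcon
    exact hz ⟨h.2.1, hcon.1, hcon.2.1, hcon.2.2.1, hcon.2.2.2⟩
  clear hz
  rcases h.cases with ⟨hc, hc', hd | hd | hd⟩ | ⟨hc, hc', hd | hd | hd⟩
  all_goals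
    have hd' := hd
    simp only [IsVert, col, cls, Prod.ext_iff, Prod.fst_sub, Prod.snd_sub]
      at hv1 hv2 hv3 hc hd' hz' ⊢
  · exact Or.inr (Or.inl ⟨⟨hd'.1, hd'.2⟩, hc, by omega, by omega⟩)
  · exact Or.inr (Or.inr (Or.inl ⟨⟨hd'.1, hd'.2⟩, hc, by omega⟩))
  · exact Or.inr (Or.inr (Or.inr ⟨⟨hd'.1, hd'.2⟩, hc, by omega⟩))
  · exfalso; omega
  · exact Or.inl ⟨⟨hd'.1, hd'.2⟩, hc, by omega, by omega⟩
  · exfalso; omega

variable {T L : ℕ} {l : List (ℤ × ℤ)}

/-- An exit walk is a self-avoiding path. -/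
theorem IsWalk.isPathUpTo {D : Finset (ℤ × ℤ)} (hD : IsDomain D) (hl : IsWalk D l)
    (hexit : lastV l ∉ D) : 3 ≤ l.length ∧ IsPathUpTo (vtx l) (l.length - 1) := by
  have h2 := hl.two_le
  have h3 : 3 ≤ l.length := by
    by_contra h
    refine hexit ?_
    rw [lastV, show l.length - 1 = 1 by omega, hl.second]
    exact hD.one_mem
  refine ⟨h3, fun i hi => hl.nbr i (by omega), fun i j hij hj => ?_⟩
  rcases (show j + 1 < l.length ∨ j = l.length - 1 by omega) with h | rfl
  · exact hl.inj i j hij h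
  rcases Nat.eq_zero_or_pos i with rfl | hi
  · intro h0
    have hn := hl.nbr_last.cases
    have hp := hD.right _ (hl.mem (l.length - 2) (by omega) (by omega))
    rw [hl.start] at h0
    rw [lastV, ← h0] at hn
    simp only [cls, Prod.ext_iff, Prod.fst_sub, Prod.snd_sub] at hn
    have hv : vtx l (l.length - 2) = (1, 0) := by
      refine Prod.ext ?_ ?_ <;> simp only <;> omega
    rcases (show l.length = 3 ∨ 4 ≤ l.length by omega) with h | h
    · refine hl.back 0 (by omega) ?_
      rw [hl.start]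
      simpa [h] using h0.symm
    · exact hl.inj 1 (l.length - 2) (by omega) (by omega) (hl.second.trans hv.symm)
  · intro h
    refine hexit ?_
    rw [lastV, ← h]
    exact hl.mem i hi (by omega)

/-- The turning of an exit walk, in radians. -/
theorem winding_eq_sum_tau {D : Finset (ℤ × ℤ)} (hl : IsWalk D l) :
    Real.pi / 3 * (winding l : ℝ) =
      ∑ i ∈ Ico 0 (l.length - 1 - 1), tau (vtx l i) (vtx l (i + 1)) (vtx l (i + 2)) := by
  rw [winding, Int.cast_sum, Finset.mul_sum, Nat.sub_sub]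
  refine Finset.sum_congr rfl fun i hi => ?_
  have := (Finset.mem_Ico.1 hi).2
  exact (tau_eq (hl.nbr i (by omega)) (hl.nbr (i + 1) (by omega)) (hl.back i (by omega))).symm

theorem arg_pos_units : arg (pos (1, 0)) = 0 ∧ arg (pos (-1, 1)) = 2 * Real.pi / 3 ∧
    arg (pos (0, -1)) = -(2 * Real.pi / 3) := by
  have hc : Real.cos (2 * Real.pi / 3) = -(1 / 2) := by
    rw [show 2 * Real.pi / 3 = Real.pi - Real.pi / 3 by ring, Real.cos_pi_sub,
      Real.cos_pi_div_three]
  have hs : Real.sin (2 * Real.pi / 3) = Real.sqrt 3 / 2 := by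
    rw [show 2 * Real.pi / 3 = Real.pi - Real.pi / 3 by ring, Real.sin_pi_sub,
      Real.sin_pi_div_three]
  have key : ∀ (v : ℤ × ℤ) (θ : ℝ), θ ∈ Set.Ioc (-Real.pi) Real.pi →
      pos v = ⟨Real.cos θ, Real.sin θ⟩ → arg (pos v) = θ := fun v θ hθ h => by
    rw [h, show (⟨Real.cos θ, Real.sin θ⟩ : ℂ) = Complex.cos θ + Complex.sin θ * I by
      apply Complex.ext <;> simp [Complex.cos_ofReal_re, Complex.sin_ofReal_re],
      arg_cos_add_sin_mul_I hθ]
  refine ⟨key _ 0 ⟨by linarith [Real.pi_pos], Real.pi_pos.le⟩ ?_,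
    key _ _ ⟨by linarith [Real.pi_pos], by linarith [Real.pi_pos]⟩ ?_,
    key _ _ ⟨by linarith [Real.pi_pos], by linarith [Real.pi_pos]⟩ ?_⟩
  · rw [Real.cos_zero, Real.sin_zero]
    apply Complex.ext <;> simp [pos]
  · rw [hc, hs]
    apply Complex.ext <;> simp [pos] <;> ring
  · rw [Real.cos_neg, Real.sin_neg, hc, hs]
    apply Complex.ext <;> simp [pos] <;> ring

theorem re_phase_mul (W : ℤ) (v : ℤ × ℤ) :
    (phase W * pos v).re = Real.cos (-(5 * Real.pi / 24) * W) * (pos v).re -
      Real.sin (-(5 * Real.pi / 24) * W) * (pos v).im := by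
  rw [mul_re, phase, exp_ofReal_mul_I_re, exp_ofReal_mul_I_im]

/-- **The weight of an exit.** -/
theorem re_term_exit (hT : 1 ≤ T) (hl : IsWalk (strip T L) l) (hexit : lastV l ∉ strip T L) :
    (term l).re = xc ^ (l.length - 2) *
      if lastStep l = (1, 0) then 1
      else if lastStep l = (-1, 0) then Real.cos (3 * Real.pi / 8) else Real.cos (Real.pi / 4) := by
  have hD := isDomain_strip hT L
  obtain ⟨h3, hP⟩ := hl.isPathUpTo hD hexit
  rw [term, mul_assoc, re_ofReal_mul]
  congr 1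
  set n := l.length - 1 with hn
  have hv : vtx l (n - 1) ∈ strip T L := hl.mem _ (by omega) (by omega)
  have hzv : lastStep l = vtx l n - vtx l (n - 1) := by
    rw [lastStep, lastV, hn, Nat.sub_sub]
  have h01 : vtx l 1 - vtx l 0 = (1, 0) := by rw [hl.start, hl.second]; rfl
  have hre : ∀ i, 1 ≤ i → i < n → 0 < (pos (vtx l i - vtx l 0)).re := fun i h1 h2 => by
    rw [hl.start, show ((0, 0) : ℤ × ℤ) = 0 from rfl, sub_zero, re_pos_eq]
    exact div_pos (Int.cast_pos.2 (hD.right _ (hl.mem i h1 (by omega)))) two_pos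
  have hreN : 0 ≤ 2 * (vtx l n).1 + (vtx l n).2 → 0 ≤ (pos (vtx l n - vtx l 0)).re := fun h => by
    rw [hl.start, show ((0, 0) : ℤ × ℤ) = 0 from rfl, sub_zero, re_pos_eq]
    exact div_nonneg (Int.cast_nonneg h) two_pos.le
  have hW := winding_eq_sum_tau hl
  rw [re_phase_mul, hzv]
  have hcases := exit_cases hv (show vtx l n ∉ strip T L from hexit) (by
    simpa only [hn, Nat.sub_sub, lastV] using hl.nbr_last)
  have hmem : ∀ i < n, vtx l i = (0, 0) ∨ InStrip T L (vtx l i) := fun i hi => by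
    rcases Nat.eq_zero_or_pos i with rfl | h0
    · exact Or.inl hl.start
    · exact Or.inr (mem_strip.1 (hl.mem i h0 (by omega)))
  have hvS := mem_strip.1 hv
  rcases hcases with ⟨he, hc, hk, hz⟩ | ⟨he, hc, hk, hz⟩ | ⟨he, hc, hk⟩ | ⟨he, hc, hk⟩
  · rw [he, if_neg (by decide), if_pos rfl]
    have hp : pos (-1, 0) = -1 := by apply Complex.ext <;> simp [pos]
    have h := sum_tau_returning hP (by omega) h01 hre (by
      rw [hl.start, show ((0, 0) : ℤ × ℤ) = 0 from rfl, sub_zero, re_pos_eq, hz]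
      simp) he
    rw [← hW] at h
    rcases h with h | h
    · have hw : (winding l : ℝ) = 3 := by nlinarith [Real.pi_pos]
      rw [hw, hp, show -(5 * Real.pi / 24) * 3 = -(Real.pi - 3 * Real.pi / 8) by ring,
        Real.cos_neg, Real.cos_pi_sub]
      simp
    · have hw : (winding l : ℝ) = -3 := by nlinarith [Real.pi_pos]
      rw [hw, hp, show -(5 * Real.pi / 24) * -3 = Real.pi - 3 * Real.pi / 8 by ring,
        Real.cos_pi_sub]
      simp
  all_goals
    have hd : ∀ i < n, 0 < ip (vtx l n - vtx l (n - 1)) (vtx l n - vtx l i) := fun i hi => by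
      have he' := he
      rw [he]
      simp only [Prod.ext_iff, Prod.fst_sub, Prod.snd_sub] at he'
      simp only [InStrip, IsVert, col, cls] at hvS hc hk
      rcases hmem i hi with h | h
      · rw [h]
        simp only [ip, Prod.fst_sub, Prod.snd_sub]
        omega
      · simp only [InStrip, IsVert, col] at h
        simp only [ip, Prod.fst_sub, Prod.snd_sub]
        omega
    have h := sum_tau_crossing hP (by omega) h01 hre (hreN (by
      have he' := he
      simp only [Prod.ext_iff, Prod.fst_sub, Prod.snd_sub] at he'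
      simp only [InStrip, IsVert, col, cls] at hvS hc hk
      omega)) hd
    rw [← hW, he] at h
  · rw [he, if_pos rfl]
    rw [arg_pos_units.1] at h
    have hw : (winding l : ℝ) = 0 := by nlinarith [Real.pi_pos]
    simp [hw, pos]
  · rw [he, if_neg (by decide), if_neg (by decide)]
    rw [arg_pos_units.2.1] at h
    have hw : (winding l : ℝ) = 2 := by nlinarith [Real.pi_pos]
    rw [hw, show Real.pi / 4 = Real.pi - (5 * Real.pi / 12 + Real.pi / 3) by ring, Real.cos_pi_sub,
      Real.cos_add, Real.cos_pi_div_three, Real.sin_pi_div_three,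
      show -(5 * Real.pi / 24) * 2 = -(5 * Real.pi / 12) by ring, Real.cos_neg, Real.sin_neg]
    simp [pos]
    ring
  · rw [he, if_neg (by decide), if_neg (by decide)]
    rw [arg_pos_units.2.2] at h
    have hw : (winding l : ℝ) = -2 := by nlinarith [Real.pi_pos]
    rw [hw, show Real.pi / 4 = Real.pi - (5 * Real.pi / 12 + Real.pi / 3) by ring, Real.cos_pi_sub,
      Real.cos_add, Real.cos_pi_div_three, Real.sin_pi_div_three,
      show -(5 * Real.pi / 24) * -2 = 5 * Real.pi / 12 by ring]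
    simp [pos]
    ring

open scoped Classical in
/-- The walks back to the side of the start. -/
def alphaW (T L : ℕ) : Finset (List (ℤ × ℤ)) :=
  (walks (strip T L)).filter fun l => lastV l ∉ strip T L ∧ lastStep l = (-1, 0)

open scoped Classical in
/-- The walks across. -/
def betaW (T L : ℕ) : Finset (List (ℤ × ℤ)) :=
  (walks (strip T L)).filter fun l => lastV l ∉ strip T L ∧ lastStep l = (1, 0)

open scoped Classical in
/-- The walks to the cuts. -/
def epsW (T L : ℕ) : Finset (List (ℤ × ℤ)) :=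
  (walks (strip T L)).filter fun l =>
    lastV l ∉ strip T L ∧ lastStep l ≠ (-1, 0) ∧ lastStep l ≠ (1, 0)

/-- The total weight of a family of walks. -/
def mass (x : ℝ) (S : Finset (List (ℤ × ℤ))) : ℝ := ∑ l ∈ S, x ^ (l.length - 2)

theorem mass_nonneg {x : ℝ} (hx : 0 ≤ x) (S : Finset (List (ℤ × ℤ))) : 0 ≤ mass x S :=
  Finset.sum_nonneg fun _ _ => pow_nonneg hx _

/-- **The identity.** -/
theorem strip_identity (hT : 1 ≤ T) (L : ℕ) :
    Real.cos (3 * Real.pi / 8) * mass xc (alphaW T L) + mass xc (betaW T L) +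
      Real.cos (Real.pi / 4) * mass xc (epsW T L) = 1 := by
  classical
  have h := congrArg Complex.re (sum_term_exit (isDomain_strip hT L))
  rw [re_sum, one_re] at h
  refine Eq.trans ?_ h
  set S := (walks (strip T L)).filter fun l => lastV l ∉ strip T L
  have ha : alphaW T L = S.filter fun l => lastStep l = (-1, 0) := by
    rw [alphaW, Finset.filter_filter]
  have hb : betaW T L = S.filter fun l => lastStep l = (1, 0) := by
    rw [betaW, Finset.filter_filter]
  have he : epsW T L = S.filter fun l => lastStep l ≠ (-1, 0) ∧ lastStep l ≠ (1, 0) := by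
    rw [epsW, Finset.filter_filter]
  simp only [ha, hb, he, mass, Finset.mul_sum, Finset.sum_filter, ← Finset.sum_add_distrib]
  refine Finset.sum_congr rfl fun l hl => ?_
  obtain ⟨hl1, hl2⟩ := Finset.mem_filter.1 hl
  rw [re_term_exit hT (mem_walks.1 hl1) hl2]
  by_cases h1 : lastStep l = (-1, 0)
  · simp [h1]; ring
  by_cases h2 : lastStep l = (1, 0)
  · simp [h2]
  simp [h1, h2]; ring

theorem cos_pos_coeffs : 0 < Real.cos (3 * Real.pi / 8) ∧ 0 < Real.cos (Real.pi / 4) :=
  ⟨Real.cos_pos_of_mem_Ioo ⟨by linarith [Real.pi_pos], by linarith [Real.pi_pos]⟩,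
    Real.cos_pos_of_mem_Ioo ⟨by linarith [Real.pi_pos], by linarith [Real.pi_pos]⟩⟩

theorem IsWalk.mono {D D' : Finset (ℤ × ℤ)} (h : D ⊆ D') (hl : IsWalk D l) : IsWalk D' l :=
  ⟨hl.two_le, hl.start, hl.second, hl.nbr, hl.back, hl.inj, fun i h1 h2 => h (hl.mem i h1 h2)⟩

/-- The walks to the two vertical sides grow with the height. -/
theorem sides_mono (hT : 1 ≤ T) {L' : ℕ} (hL : L ≤ L') :
    alphaW T L ⊆ alphaW T L' ∧ betaW T L ⊆ betaW T L' := by
  classical
  refine ⟨fun l hl => ?_, fun l hl => ?_⟩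
  all_goals
    simp only [alphaW, betaW, Finset.mem_filter, mem_walks] at hl ⊢
    obtain ⟨hw, hexit, hs⟩ := hl
    refine ⟨hw.mono (strip_mono le_rfl hL), fun hmem => ?_, hs⟩
    obtain ⟨h3, -⟩ := hw.isPathUpTo (isDomain_strip hT L) hexit
    have hv := mem_strip.1 (hw.mem (l.length - 2) (by omega) (by omega))
    have hc := exit_cases (mem_strip.2 hv) hexit hw.nbr_last
    have hm := mem_strip.1 hmem
    simp only [lastStep] at hs
    simp only [InStrip, IsVert, col, cls, Prod.ext_iff, Prod.fst_sub, Prod.snd_sub] at hv hc hm hs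
    omega

end FA.Honeycomb

end
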