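import Fermat.Agent.Honeycomb.Lower

/-!
# Convergence below the critical fugacity

A walk in a half plane splits at its last visit to the outermost column into a bridge and a
shorter half-plane walk turned round, and every walk splits at a leftmost vertex into two of
these. The bridges across `T` columns weigh at most `r ^ T` with `r = x / xc`.
-/

set_option autoImplicit false

noncomputable section

open Finset
open scoped Classical

namespace FA.Honeycomb

/-- The steps from a vertex, by colour and column. -/
theorem col_step {u v : ℤ × ℤ} (h : Nbr u v) :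
    col v ≤ col u + 1 ∧ col u ≤ col v + 1 ∧
      (cls u = 1 → cls v = 0 ∧ col v ≤ col u ∧ (col v < col u → v = u + (-1, 0))) ∧
      (cls u = 0 → cls v = 1 ∧ col u ≤ col v ∧ (col u < col v → v = u + (1, 0)) ∧
        (col v = col u → v = u + (-1, 1) ∨ v = u + (0, -1))) := by
  have hu := h.1
  rcases h.cases with ⟨hc, hc', hd | hd | hd⟩ | ⟨hc, hc', hd | hd | hd⟩ <;>
    simp only [IsVert, col, cls, Prod.ext_iff, Prod.fst_sub, Prod.snd_sub, Prod.fst_add,
      Prod.snd_add] at * <;>
    refine ⟨by omega, by omega, fun _ => ?_, fun _ => ?_⟩ <;>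
    omega

variable {o : ℤ × ℤ} {p : List (ℤ × ℤ)}

theorem IsSaw.vert (hp : IsSaw o p) (ho : IsVert o) : ∀ i < p.length, IsVert (vtx p i)
  | 0, _ => hp.start ▸ ho
  | i + 1, hi => (hp.nbr i hi).2.1

theorem IsSaw.col_le (hp : IsSaw o p) : ∀ i < p.length, col (vtx p i) ≤ col o + i
  | 0, _ => by simp [hp.start]
  | i + 1, hi => by
    have h1 := hp.col_le i (by omega)
    have h2 := (col_step (hp.nbr i hi)).1
    push_cast
    omega

theorem IsSaw.snd_le (hp : IsSaw o p) : ∀ i < p.length, |(vtx p i).2 - o.2| ≤ i
  | 0, _ => by simp [hp.start]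
  | i + 1, hi => by
    have h1 := hp.snd_le i (by omega)
    have h2 := (hp.nbr i hi).cases
    simp only [abs_le, Prod.ext_iff, Prod.fst_sub, Prod.snd_sub] at *
    push_cast
    omega

/-- A white vertex of the outermost column is an end of a walk with no black vertex beside it. -/
theorem IsSaw.white_top (hp : IsSaw o p) {M : ℤ} {i : ℕ} (hi : 1 ≤ i) (hi' : i < p.length)
    (hw : cls (vtx p i) = 1) (hc : col (vtx p i) = M)
    (hno : ∀ j, j < p.length → i ≤ j + 1 → j ≤ i + 1 → cls (vtx p j) = 0 → col (vtx p j) ≠ M) :
    i + 1 = p.length ∧ vtx p (i - 1) = vtx p i + (-1, 0) := by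
  have h1 := (hp.nbr (i - 1) (by omega)).symm
  rw [show i - 1 + 1 = i by omega] at h1
  obtain ⟨a1, a2, a3⟩ := (col_step h1).2.2.1 hw
  have e1 : col (vtx p (i - 1)) ≠ M := hno (i - 1) (by omega) (by omega) (by omega) a1
  have e2 := a3 (by omega)
  refine ⟨?_, e2⟩
  by_contra hne
  obtain ⟨b1, b2, b3⟩ := (col_step (hp.nbr i (by omega))).2.2.1 hw
  have e3 : col (vtx p (i + 1)) ≠ M := hno (i + 1) (by omega) (by omega) (by omega) b1
  exact hp.inj (i - 1) (i + 1) (by omega) (by omega) (e2.trans (b3 (by omega)).symm)

/-- A piece of a walk, moved by a translation. -/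
theorem IsSaw.piece (hp : IsSaw o p) {a k : ℕ} (hk : 1 ≤ k) (hak : a + k ≤ p.length) {t : ℤ × ℤ}
    (ht : cls t = 0) :
    IsSaw (vtx p a - t) (List.ofFn fun i : Fin k => (fun i : ℕ => vtx p (a + i) - t) i) := by
  have hv : ∀ i < k, vtx (List.ofFn fun i : Fin k => (fun i : ℕ => vtx p (a + i) - t) i) i =
      vtx p (a + i) - t := fun i hi => vtx_ofFn (fun i : ℕ => vtx p (a + i) - t) hi
  refine ⟨by simpa using hk, hv 0 hk, fun i hi => ?_, fun i j hij hj => ?_⟩
  · simp only [List.length_ofFn] at hi
    rw [hv i (by omega), hv _ hi]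
    have h := hp.nbr (a + i) (by omega)
    refine ⟨?_, ?_, ?_⟩
    · have := h.1
      simp only [IsVert, cls, Prod.fst_sub, Prod.snd_sub] at this ht ⊢
      omega
    · have := h.2.1
      simp only [IsVert, cls, Prod.fst_sub, Prod.snd_sub, Nat.add_assoc] at this ht ⊢
      omega
    · simpa [Nat.add_assoc] using h.2.2
  · simp only [List.length_ofFn] at hj
    rw [hv i (by omega), hv j hj]
    simpa using hp.inj (a + i) (a + j) (by omega) (by omega)

/-- A piece of a walk turned round a point. -/
theorem IsSaw.piece_turned (hp : IsSaw o p) {a k : ℕ} (hk : 1 ≤ k) (hak : a + k ≤ p.length)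
    {t : ℤ × ℤ} (ht : cls t = 1) :
    IsSaw (t - vtx p a) (List.ofFn fun i : Fin k => (fun i : ℕ => t - vtx p (a + i)) i) := by
  have hv : ∀ i < k, vtx (List.ofFn fun i : Fin k => (fun i : ℕ => t - vtx p (a + i)) i) i =
      t - vtx p (a + i) := fun i hi => vtx_ofFn (fun i : ℕ => t - vtx p (a + i)) hi
  refine ⟨by simpa using hk, hv 0 hk, fun i hi => ?_, fun i j hij hj => ?_⟩
  · simp only [List.length_ofFn] at hi
    rw [hv i (by omega), hv _ hi]
    have h := hp.nbr (a + i) (by omega)
    refine ⟨?_, ?_, ?_⟩
    · have := h.1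
      simp only [IsVert, cls, Prod.fst_sub, Prod.snd_sub] at this ht ⊢
      omega
    · have := h.2.1
      simp only [IsVert, cls, Prod.fst_sub, Prod.snd_sub, Nat.add_assoc] at this ht ⊢
      omega
    · rw [← h.2.2, nrm, nrm]
      simp only [Prod.fst_sub, Prod.snd_sub, Nat.add_assoc]
      ring
  · simp only [List.length_ofFn] at hj
    rw [hv i (by omega), hv j hj]
    simpa using hp.inj (a + i) (a + j) (by omega) (by omega)

/-- The walks of `M` columns starting white on the left. -/
def InCols (M : ℕ) (p : List (ℤ × ℤ)) : Prop :=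
  IsSaw (1, 0) p ∧ ∀ i < p.length, 0 ≤ col (vtx p i) ∧ col (vtx p i) < M

/-- The bridges across `T` columns. -/
def IsBridge (T : ℕ) (p : List (ℤ × ℤ)) : Prop :=
  InCols T p ∧ cls (vtx p (p.length - 1)) = 0 ∧ col (vtx p (p.length - 1)) = (T : ℤ) - 1

variable {x : ℝ}

/-- **Bridges decay.** -/
theorem sum_bridge_le (hx : 0 < x) (hxc : x < xc) (T : ℕ) {S : Finset (List (ℤ × ℤ))}
    (hS : ∀ p ∈ S, IsBridge T p) : ∑ p ∈ S, x ^ p.length ≤ (x / xc) ^ T := by
  rcases S.eq_empty_or_nonempty with rfl | ⟨q, hq⟩
  · simpa using pow_nonneg (div_nonneg hx.le xc_pos.le) T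
  have hT : 1 ≤ T := by
    have := (hS q hq).1.2 0 (hS q hq).1.1.one_le
    omega
  set L := S.sup List.length
  set f : List (ℤ × ℤ) → ℕ → ℤ × ℤ := fun p j => if j = 0 then (0, 0) else vtx p (j - 1)
  set Φ : List (ℤ × ℤ) → List (ℤ × ℤ) := fun p => bridgeList (f p) p.length
  have key : ∀ p ∈ S, Φ p ∈ betaW T L ∧ (Φ p).length = p.length + 2 ∧
      (∀ j < p.length, vtx (Φ p) (j + 1) = vtx p j) ∧ T ≤ p.length := by
    intro p hp
    obtain ⟨⟨hsaw, hcols⟩, hcls, hcol⟩ := hS p hp
    have h1 := hsaw.one_le
    have hf : ∀ j, 1 ≤ j → f p j = vtx p (j - 1) := fun j hj => if_neg (by omega)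
    obtain ⟨a1, a2, a3⟩ := bridgeList_mem (T := T) (L := L) (f := f p) (m := p.length) h1 hT rfl
      ((hf 1 le_rfl).trans hsaw.start) (fun j hj => by
        rcases Nat.eq_zero_or_pos j with rfl | h0
        · rw [hf 1 le_rfl, hsaw.start]
          show Nbr (0, 0) (1, 0)
          decide
        · rw [hf j h0, hf (j + 1) (by omega)]
          have := hsaw.nbr (j - 1) (by omega)
          rwa [show j - 1 + 1 = j by omega] at this)
      (fun i j hi hij hj => by
        rw [hf i hi, hf j (by omega)]
        exact hsaw.inj _ _ (by omega) (by omega))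
      (fun j hj hj' => by
        rw [hf j hj, mem_strip]
        have h2 := hcols (j - 1) (by omega)
        have h3 := hsaw.vert (show IsVert ((1, 0) : ℤ × ℤ) by decide) (j - 1) (by omega)
        have h4 := hsaw.snd_le (j - 1) (by omega)
        have h5 : p.length ≤ L := Finset.le_sup (f := List.length) hp
        simp only [InStrip, IsVert, col, abs_le] at h2 h3 h4 ⊢
        exact ⟨h3, h2.1, h2.2, by omega, by omega⟩)
      (by rw [hf _ h1]; exact hcls) (by rw [hf _ h1]; exact hcol)
    refine ⟨a1, a2, fun j hj => (a3 (j + 1) (by omega)).trans (hf _ (by omega)), ?_⟩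
    have := hsaw.col_le (p.length - 1) (by omega)
    simp only [col] at this hcol
    omega
  have hr0 : 0 ≤ x / xc := div_nonneg hx.le xc_pos.le
  calc ∑ p ∈ S, x ^ p.length ≤ ∑ p ∈ S, (x / xc) ^ T * xc ^ ((Φ p).length - 2) := by
        refine Finset.sum_le_sum fun p hp => ?_
        rw [(key p hp).2.1, Nat.add_sub_cancel]
        calc x ^ p.length = (x / xc) ^ p.length * xc ^ p.length := by
              rw [← mul_pow, div_mul_cancel₀ _ xc_pos.ne']
          _ ≤ _ := mul_le_mul_of_nonneg_right (pow_le_pow_of_le_one hr0
              ((div_le_one xc_pos).2 hxc.le) (key p hp).2.2.2) (pow_nonneg xc_pos.le _)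
    _ = (x / xc) ^ T * ∑ l ∈ S.image Φ, xc ^ (l.length - 2) := by
        rw [Finset.mul_sum, Finset.sum_image fun p hp p' hp' he => ?_]
        obtain ⟨-, a2, a3, -⟩ := key p hp
        obtain ⟨-, b2, b3, -⟩ := key p' hp'
        have hlen : p.length = p'.length := by
          have := congrArg List.length he
          omega
        refine list_ext_vtx hlen fun i hi => ?_
        rw [← a3 i hi, he, b3 i (hlen ▸ hi)]
    _ ≤ (x / xc) ^ T * 1 := by
        refine mul_le_mul_of_nonneg_left (le_trans ?_ (beta_mass_le_one hT L)) (pow_nonneg hr0 _)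
        refine Finset.sum_le_sum_of_subset_of_nonneg (fun l hl => ?_) fun _ _ _ =>
          pow_nonneg xc_pos.le _
        obtain ⟨p, hp, rfl⟩ := Finset.mem_image.1 hl
        exact (key p hp).1
    _ = _ := mul_one _

/-- What follows the last visit to the outermost black column, moved to a standard place. -/
def IsTail (M : ℕ) (q : List (ℤ × ℤ)) : Prop :=
  (q = [] ∨ IsSaw ((M : ℤ) + 1 - 1, (M : ℤ) + 1 + 1) q ∨ IsSaw ((M : ℤ) + 1, (M : ℤ) + 1 - 1) q) ∧
    ∀ i < q.length, 0 ≤ col (vtx q i) ∧ col (vtx q i) ≤ M ∧
      (cls (vtx q i) = 0 → col (vtx q i) < M)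

/-- **Tails.** -/
theorem sum_tail_le (hx : 0 < x) (hx1 : x ≤ 1) {M : ℕ} {B : ℝ}
    (hB : ∀ S : Finset (List (ℤ × ℤ)), (∀ p ∈ S, InCols M p) → ∑ p ∈ S, x ^ p.length + 1 ≤ B)
    {S : Finset (List (ℤ × ℤ))} (hS : ∀ q ∈ S, IsTail M q) :
    ∑ q ∈ S, x ^ q.length ≤ 4 * B := by
  set c₁ : ℤ × ℤ := ((M : ℤ) + 1 - 1, (M : ℤ) + 1 + 1)
  set c₂ : ℤ × ℤ := ((M : ℤ) + 1, (M : ℤ) + 1 - 1)
  set c : Bool → ℤ × ℤ := fun b => if b then c₁ else c₂
  have hB1 : 1 ≤ B := by simpa using hB ∅ (by simp)
  set Short := S.filter fun q => q.length ≤ 1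
  set Long := S.filter fun q => ¬q.length ≤ 1
  have hshort : ∑ q ∈ Short, x ^ q.length ≤ 1 + 2 * x := by
    have hsub : Short ⊆ {[], [c₁], [c₂]} := fun q hq => by
      obtain ⟨hqS, hlen⟩ := Finset.mem_filter.1 hq
      rcases Nat.le_one_iff_eq_zero_or_eq_one.1 hlen with h | h
      · simp [List.length_eq_zero_iff.1 h]
      · obtain ⟨a, rfl⟩ := List.length_eq_one_iff.1 h
        rcases (hS _ hqS).1 with h' | h' | h'
        · simp at h'
        · simp [show a = c₁ from h'.start]
        · simp [show a = c₂ from h'.start]
    refine (Finset.sum_le_sum_of_subset_of_nonneg hsub fun _ _ _ => pow_nonneg hx.le _).trans ?_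
    have e : c₁ ≠ c₂ := by simp [c₁, c₂]
    rw [Finset.sum_insert (by simp), Finset.sum_insert (by simp [e]), Finset.sum_singleton]
    simp only [List.length_nil, List.length_cons, pow_zero, pow_one, zero_add]
    linarith
  -- the bodies
  set ext : List (ℤ × ℤ) → Bool := fun q => decide (col (vtx q (q.length - 1)) = (M : ℤ))
  set size : List (ℤ × ℤ) → ℕ := fun q => q.length - 1 - cond (ext q) 1 0
  set body : List (ℤ × ℤ) → List (ℤ × ℤ) := fun q =>
    List.ofFn fun i : Fin (size q) => (fun i : ℕ => vtx q 1 + (1, 0) - vtx q (1 + i)) i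
  set tag : List (ℤ × ℤ) → Bool := fun q => decide (vtx q 0 = c₁)
  have key : ∀ q ∈ Long, InCols M (body q) ∧ (body q).length = size q ∧
      q.length = 1 + cond (ext q) 1 0 + size q ∧ vtx q 0 = c (tag q) ∧
      vtx q 1 = vtx q 0 + (-1, 0) ∧ 1 ≤ size q ∧
      (ext q = true → vtx q (q.length - 1) = vtx q (q.length - 2) + (1, 0)) := by
    intro q hq
    obtain ⟨hqS, hlen⟩ := Finset.mem_filter.1 hq
    obtain ⟨hst, hcols⟩ := hS q hqS
    obtain ⟨o, hsaw, ho⟩ : ∃ o, IsSaw o q ∧ (o = c₁ ∨ o = c₂) := by
      rcases hst with h | h | h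
      · simp [h] at hlen
      · exact ⟨_, h, Or.inl rfl⟩
      · exact ⟨_, h, Or.inr rfl⟩
    have h0 : cls o = 1 ∧ col o = M := by
      rcases ho with rfl | rfl <;> simp only [c₁, c₂, cls, col] <;> omega
    obtain ⟨a1, a2, a3⟩ := (col_step (hsaw.nbr 0 (by omega))).2.2.1 (by rw [hsaw.start]; exact h0.1)
    simp only [zero_add] at a1 a2 a3
    have hlt := (hcols 1 (by omega)).2.2 a1
    have hq1 : vtx q 1 = vtx q 0 + (-1, 0) := a3 (by rw [hsaw.start]; omega)
    have htop : ∀ i, 1 ≤ i → i < q.length → col (vtx q i) = M →
        i + 1 = q.length ∧ vtx q (i - 1) = vtx q i + (-1, 0) := fun i hi1 hi2 hc => by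
      refine hsaw.white_top hi1 hi2 ?_ hc fun j hj _ _ hj0 => ne_of_lt ((hcols j hj).2.2 hj0)
      rcases isVert_iff.1 (hsaw.vert (isVert_iff.2 (Or.inr h0.1)) i hi2) with h | h
      · have := (hcols i hi2).2.2 h
        omega
      · exact h
    have hext : ext q = true ↔ col (vtx q (q.length - 1)) = M := by simp [ext]
    have hlast : ext q = true → 3 ≤ q.length := fun h => by
      by_contra hlt'
      rw [hext, show q.length - 1 = 1 by omega] at h
      omega
    have hsize : 1 ≤ size q ∧ q.length = 1 + cond (ext q) 1 0 + size q := by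
      simp only [size]
      rcases Bool.eq_false_or_eq_true (ext q) with h | h <;> simp only [h, cond_true, cond_false]
      · have := hlast h
        omega
      · omega
    have hin : ∀ i < size q, col (vtx q (1 + i)) < M := fun i hi => by
      refine lt_of_le_of_ne (hcols _ (by omega)).2.1 fun hc => ?_
      obtain ⟨h1, -⟩ := htop (1 + i) (by omega) (by omega) hc
      have : ext q = true := hext.2 (by rw [show q.length - 1 = 1 + i by omega]; exact hc)
      simp only [this, cond_true] at hsize
      omega
    have hcls1 : cls (vtx q 1 + (1, 0)) = 1 := by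
      simp only [cls, Prod.fst_add, Prod.snd_add] at a1 ⊢
      omega
    have hsaw' := hsaw.piece_turned (a := 1) (k := size q) hsize.1 (by omega) hcls1
    have hst' : vtx q 1 + (1, 0) - vtx q 1 = ((1, 0) : ℤ × ℤ) := add_sub_cancel_left _ _
    rw [hst'] at hsaw'
    have hlenb : (body q).length = size q := List.length_ofFn
    refine ⟨⟨hsaw', fun i hi => ?_⟩, hlenb, hsize.2, ?_, hq1, hsize.1, fun h => ?_⟩
    · rw [hlenb] at hi
      simp only [body]
      rw [vtx_ofFn (fun i : ℕ => vtx q 1 + (1, 0) - vtx q (1 + i)) hi]
      have h1 := hin i hi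
      have h2 := (hcols (1 + i) (by omega)).1
      have h3 := hsaw.vert (isVert_iff.2 (Or.inr h0.1)) (1 + i) (by omega)
      rw [hq1, hsaw.start]
      simp only [IsVert, col, cls, Prod.fst_add, Prod.snd_add, Prod.fst_sub, Prod.snd_sub]
        at h0 h1 h2 h3 ⊢
      omega
    · simp only [tag, c, hsaw.start]
      rcases ho with rfl | rfl
      · simp
      · simp [c₁, c₂]
    · obtain ⟨-, h1⟩ := htop (q.length - 1) (by omega) (by omega) (hext.1 h)
      rw [show q.length - 1 - 1 = q.length - 2 by omega] at h1
      rw [h1, add_assoc]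
      simp
  have hinj : Set.InjOn (fun q => ((tag q, ext q), body q)) ↑Long := fun q hq q' hq' he => by
    simp only [Prod.mk.injEq] at he
    obtain ⟨⟨ht, hx'⟩, hb⟩ := he
    obtain ⟨-, a2, a3, a4, a5, a6, a7⟩ := key q hq
    obtain ⟨-, b2, b3, b4, b5, b6, b7⟩ := key q' hq'
    have hs : size q = size q' := by rw [← a2, ← b2, hb]
    have hlen : q.length = q'.length := by rw [a3, b3, hx', hs]
    have h0 : vtx q 0 = vtx q' 0 := by rw [a4, b4, ht]
    have h1 : vtx q 1 = vtx q' 1 := by rw [a5, b5, h0]
    have hmid : ∀ i < size q, vtx q (1 + i) = vtx q' (1 + i) := fun i hi => by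
      have e1 := vtx_ofFn (fun i : ℕ => vtx q 1 + (1, 0) - vtx q (1 + i)) hi
      have e2 := vtx_ofFn (fun i : ℕ => vtx q' 1 + (1, 0) - vtx q' (1 + i)) (hs ▸ hi)
      have e3 : vtx (body q) i = vtx (body q') i := by rw [hb]
      simp only [body] at e3
      rw [e1, e2, h1] at e3
      exact sub_right_injective e3
    refine list_ext_vtx hlen fun i hi => ?_
    rcases (show i = 0 ∨ (1 ≤ i ∧ i ≤ size q) ∨ size q < i by omega) with rfl | ⟨h, h'⟩ | h
    · exact h0
    · have := hmid (i - 1) (by omega)
      rwa [show 1 + (i - 1) = i by omega] at this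
    · rcases Bool.eq_false_or_eq_true (ext q) with he' | he' <;> simp only [he', cond_true,
        cond_false] at a3
      · have e := hmid (size q - 1) (by omega)
        rw [show 1 + (size q - 1) = q.length - 2 by omega] at e
        rw [show i = q.length - 1 by omega, a7 he', e, hlen, b7 (hx' ▸ he')]
      · omega
  have hlong : ∑ q ∈ Long, x ^ q.length ≤ 2 * (x * (1 + x)) * (B - 1) := by
    set Bs := Long.image body
    have hBs : ∑ p ∈ Bs, x ^ p.length ≤ B - 1 := by
      have := hB Bs fun p hp => by
        obtain ⟨q, hq, rfl⟩ := Finset.mem_image.1 hp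
        exact (key q hq).1
      linarith
    calc ∑ q ∈ Long, x ^ q.length
        = ∑ z ∈ Long.image fun q => ((tag q, ext q), body q),
            x * x ^ (cond z.1.2 1 0) * x ^ z.2.length := by
          rw [Finset.sum_image hinj]
          refine Finset.sum_congr rfl fun q hq => ?_
          obtain ⟨-, a2, a3, -⟩ := key q hq
          simp only [a2]
          rw [a3, pow_add, pow_add, pow_one]
      _ ≤ ∑ z ∈ (Finset.univ : Finset (Bool × Bool)) ×ˢ Bs,
            x * x ^ (cond z.1.2 1 0) * x ^ z.2.length := by
          refine Finset.sum_le_sum_of_subset_of_nonneg (fun z hz => ?_) fun _ _ _ => by positivity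
          obtain ⟨q, hq, rfl⟩ := Finset.mem_image.1 hz
          exact Finset.mem_product.2 ⟨Finset.mem_univ _, Finset.mem_image_of_mem _ hq⟩
      _ = 2 * (x * (1 + x)) * ∑ p ∈ Bs, x ^ p.length := by
          rw [Finset.sum_product, ← Finset.univ_product_univ, Finset.sum_product,
            Fintype.sum_bool]
          simp only [Fintype.sum_bool, cond_true, cond_false, pow_zero, pow_one, ← Finset.mul_sum]
          ring
      _ ≤ _ := mul_le_mul_of_nonneg_left hBs (by positivity)
  rw [← Finset.sum_filter_add_sum_filter_not S fun q => q.length ≤ 1]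
  have h4 : x * (1 + x) ≤ 2 := by nlinarith
  nlinarith [mul_le_mul_of_nonneg_right h4 (sub_nonneg.2 hB1)]

/-- **Half-plane walks.** -/
theorem sum_inCols_le (hx : 0 < x) (hxc : x < xc) (hx1 : x ≤ 1) : ∀ (M : ℕ)
    (S : Finset (List (ℤ × ℤ))), (∀ p ∈ S, InCols M p) →
      ∑ p ∈ S, x ^ p.length + 1 ≤ Real.exp (∑ k ∈ Finset.range M, 5 * (x / xc) ^ k)
  | 0, S, hS => by
    rcases S.eq_empty_or_nonempty with rfl | ⟨p, hp⟩
    · simp
    · exact absurd ((hS p hp).2 0 (hS p hp).1.one_le) (by simp)
  | M + 1, S, hS => by
    have ih := sum_inCols_le hx hxc hx1 M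
    set B := Real.exp (∑ k ∈ Finset.range M, 5 * (x / xc) ^ k)
    set r := x / xc
    have hr : 0 ≤ r := div_nonneg hx.le xc_pos.le
    have hr1 : r ≤ 1 := (div_le_one xc_pos).2 hxc.le
    have hB1 : 1 ≤ B := Real.one_le_exp (Finset.sum_nonneg fun _ _ => by positivity)
    set Hit : List (ℤ × ℤ) → ℕ → Prop :=
      fun p i => i < p.length ∧ cls (vtx p i) = 0 ∧ col (vtx p i) = M
    set S₁ := S.filter fun p => ∀ i < p.length, col (vtx p i) < M
    set S₂ := (S.filter fun p => ¬∀ i < p.length, col (vtx p i) < M).filter fun p => ¬∃ i, Hit p i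
    set S₃ := (S.filter fun p => ¬∀ i < p.length, col (vtx p i) < M).filter fun p => ∃ i, Hit p i
    have h1 : ∑ p ∈ S₁, x ^ p.length + 1 ≤ B := ih S₁ fun p hp => by
      obtain ⟨hpS, h⟩ := Finset.mem_filter.1 hp
      exact ⟨(hS p hpS).1, fun i hi => ⟨((hS p hpS).2 i hi).1, h i hi⟩⟩
    have h2 : ∑ p ∈ S₂, x ^ p.length ≤ x * r ^ M := by
      simp only [S₂]
      set cut : List (ℤ × ℤ) → List (ℤ × ℤ) := fun p =>
        List.ofFn fun i : Fin (p.length - 1) => (fun i : ℕ => vtx p (0 + i) - 0) i
      set U := (S.filter fun p => ¬∀ i < p.length, col (vtx p i) < M).filter fun p => ¬∃ i, Hit p i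
      have key : ∀ p ∈ U, vtx p 0 = (1, 0) ∧ p.length = (cut p).length + 1 ∧
          (∀ i, i + 1 < p.length → vtx (cut p) i = vtx p i) ∧
          (p.length = 1 ∨ (IsBridge M (cut p) ∧
            vtx p (p.length - 1) = vtx p (p.length - 2) + (1, 0))) ∧
          (p.length = 1 → M = 0) := by
        intro p hp
        simp only [U, Finset.mem_filter, not_forall, not_exists] at hp
        obtain ⟨⟨hpS, i, hi, hci⟩, hno⟩ := hp
        obtain ⟨hsaw, hcols⟩ := hS p hpS
        have htop : col (vtx p i) = M := by
          have := (hcols i hi).2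
          omega
        have hwhite : ∀ j < p.length, col (vtx p j) = M → cls (vtx p j) = 1 := fun j hj hc => by
          rcases isVert_iff.1 (hsaw.vert (by decide) j hj) with h | h
          · exact absurd ⟨hj, h, hc⟩ (hno j)
          · exact h
        have hlen : (cut p).length = p.length - 1 := List.length_ofFn
        have hv : ∀ j, j + 1 < p.length → vtx (cut p) j = vtx p j := fun j hj => by
          simp only [cut]
          rw [vtx_ofFn (fun i : ℕ => vtx p (0 + i) - 0) (show j < p.length - 1 by omega)]
          simp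
        have h1le := hsaw.one_le
        refine ⟨hsaw.start, by omega, hv, ?_, fun h => ?_⟩
        · rcases (show p.length = 1 ∨ 2 ≤ p.length by omega) with h | h
          · exact Or.inl h
          refine Or.inr ?_
          have h0 : 1 ≤ i := by
            by_contra h0
            obtain rfl : i = 0 := by omega
            obtain ⟨a1, a2, -⟩ := (col_step (hsaw.nbr 0 (by omega))).2.2.1 (hwhite 0 hi htop)
            simp only [zero_add] at a1 a2
            have := (hcols 1 (by omega)).1
            rw [hsaw.start] at htop a2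
            simp only [col] at htop a2 this
            exact hno 1 ⟨by omega, a1, by simp only [col]; omega⟩
          obtain ⟨hend, hprev⟩ := hsaw.white_top h0 hi (hwhite i hi htop) htop
            fun j hj _ _ hj0 hjM => hno j ⟨hj, hj0, hjM⟩
          have hbelow : ∀ j, j + 1 < p.length → col (vtx p j) < M := fun j hj => by
            by_contra hc
            have hjM : col (vtx p j) = M := by
              have := (hcols j (by omega)).2
              omega
            rcases Nat.eq_zero_or_pos j with rfl | hj0
            · obtain ⟨a1, a2, -⟩ :=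
                (col_step (hsaw.nbr 0 (by omega))).2.2.1 (hwhite 0 (by omega) hjM)
              simp only [zero_add] at a1 a2
              have := (hcols 1 (by omega)).1
              rw [hsaw.start] at hjM a2
              simp only [col] at hjM a2 this
              exact hno 1 ⟨by omega, a1, by simp only [col]; omega⟩
            · have := (hsaw.white_top hj0 (by omega) (hwhite j (by omega) hjM) hjM
                fun k hk _ _ hk0 hkM => hno k ⟨hk, hk0, hkM⟩).1
              omega
          have hsaw' := hsaw.piece (a := 0) (k := p.length - 1) (by omega) (by omega)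
            (t := 0) rfl
          rw [sub_zero, hsaw.start] at hsaw'
          refine ⟨⟨⟨hsaw', fun j hj => ?_⟩, ?_, ?_⟩, ?_⟩
          · rw [hlen] at hj
            rw [hv j (by omega)]
            exact ⟨(hcols j (by omega)).1, hbelow j (by omega)⟩
          · rw [hlen, hv _ (by omega), show p.length - 1 - 1 = i - 1 by omega, hprev]
            have := hwhite i hi htop
            simp only [cls, Prod.fst_add, Prod.snd_add] at this ⊢
            omega
          · rw [hlen, hv _ (by omega), show p.length - 1 - 1 = i - 1 by omega, hprev]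
            have := hwhite i hi htop
            simp only [col, cls, Prod.fst_add, Prod.snd_add] at this htop ⊢
            omega
          · rw [show p.length - 1 = i by omega, show p.length - 2 = i - 1 by omega, hprev,
              add_assoc]
            simp
        · obtain rfl : i = 0 := by omega
          rw [hsaw.start] at htop
          simp only [col] at htop
          omega
      rcases Nat.eq_zero_or_pos M with rfl | hM
      · rw [pow_zero, mul_one]
        calc ∑ p ∈ U, x ^ p.length ≤ ∑ p ∈ ({[(1, 0)]} : Finset (List (ℤ × ℤ))), x ^ p.length := by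
              refine Finset.sum_le_sum_of_subset_of_nonneg (fun p hp => ?_) fun _ _ _ =>
                pow_nonneg hx.le _
              obtain ⟨a0, -, -, a3, -⟩ := key p hp
              rcases a3 with h | ⟨⟨⟨hs, hc⟩, -⟩, -⟩
              · obtain ⟨a, rfl⟩ := List.length_eq_one_iff.1 h
                simp [show a = (1, 0) from a0]
              · exact absurd (hc 0 hs.one_le) (by simp)
          _ = x := by simp
      · have hb : ∀ p ∈ U, IsBridge M (cut p) ∧
            vtx p (p.length - 1) = vtx p (p.length - 2) + (1, 0) := fun p hp => by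
          obtain ⟨-, -, -, a3, a4⟩ := key p hp
          rcases a3 with h | h
          · have := a4 h
            omega
          · exact h
        calc ∑ p ∈ U, x ^ p.length = x * ∑ q ∈ U.image cut, x ^ q.length := by
              rw [Finset.mul_sum, Finset.sum_image fun p hp p' hp' he => ?_]
              · exact Finset.sum_congr rfl fun p hp => by rw [(key p hp).2.1, pow_succ']
              obtain ⟨-, a1, a2, -⟩ := key p hp
              obtain ⟨-, b1, b2, -⟩ := key p' hp'
              have hlen : p.length = p'.length := by rw [a1, b1, he]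
              have hpos := (hb p hp).1.1.1.one_le
              refine list_ext_vtx hlen fun i hi => ?_
              rcases (show i + 1 < p.length ∨ i = p.length - 1 by omega) with h | rfl
              · rw [← a2 i h, he, b2 i (hlen ▸ h)]
              · rw [(hb p hp).2, ← a2 _ (by omega), he, b2 _ (by omega), hlen, (hb p' hp').2]
          _ ≤ x * r ^ M := mul_le_mul_of_nonneg_left (sum_bridge_le hx hxc M fun q hq => by
              obtain ⟨p, hp, rfl⟩ := Finset.mem_image.1 hq
              exact (hb p hp).1) hx.le
    have h3 : ∑ p ∈ S₃, x ^ p.length ≤ r ^ (M + 1) * (4 * B) := by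
      simp only [S₃]
      set U := (S.filter fun p => ¬∀ i < p.length, col (vtx p i) < M).filter fun p => ∃ i, Hit p i
      set idx : List (ℤ × ℤ) → ℕ := fun p => Nat.findGreatest (Hit p) p.length
      set shift : List (ℤ × ℤ) → ℤ × ℤ := fun p => vtx p (idx p) - ((M : ℤ) + 1, (M : ℤ) + 1)
      set head : List (ℤ × ℤ) → List (ℤ × ℤ) := fun p =>
        List.ofFn fun i : Fin (idx p + 1) => (fun i : ℕ => vtx p (0 + i) - 0) i
      set rest : List (ℤ × ℤ) → List (ℤ × ℤ) := fun p =>
        List.ofFn fun i : Fin (p.length - (idx p + 1)) =>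
          (fun i : ℕ => vtx p (idx p + 1 + i) - shift p) i
      have key : ∀ p ∈ U, IsBridge (M + 1) (head p) ∧ IsTail M (rest p) ∧
          (head p).length = idx p + 1 ∧ (rest p).length = p.length - (idx p + 1) ∧
          idx p < p.length ∧ (∀ j ≤ idx p, vtx (head p) j = vtx p j) ∧
          ∀ j < p.length - (idx p + 1), vtx (rest p) j = vtx p (idx p + 1 + j) - shift p := by
        intro p hp
        simp only [U, Finset.mem_filter] at hp
        obtain ⟨⟨hpS, -⟩, i₀, hi₀⟩ := hp
        obtain ⟨hsaw, hcols⟩ := hS p hpS
        obtain ⟨hilt, hcls, hcol⟩ : Hit p (idx p) :=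
          Nat.findGreatest_spec (P := Hit p) hi₀.1.le hi₀
        have hafter : ∀ j, idx p < j → j < p.length → ¬Hit p j := fun j hj hj' =>
          Nat.findGreatest_is_greatest hj hj'.le
        set i := idx p
        have hlh : (head p).length = i + 1 := List.length_ofFn
        have hlr : (rest p).length = p.length - (i + 1) := List.length_ofFn
        have hvh : ∀ j ≤ i, vtx (head p) j = vtx p j := fun j hj => by
          simp only [head]
          rw [vtx_ofFn (fun i : ℕ => vtx p (0 + i) - 0) (Nat.lt_succ_of_le hj)]
          simp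
        have hvr : ∀ j < p.length - (i + 1), vtx (rest p) j = vtx p (i + 1 + j) - shift p :=
          fun j hj => vtx_ofFn (fun j : ℕ => vtx p (i + 1 + j) - shift p) hj
        have hsh : cls (shift p) = 0 ∧ 2 * (shift p).1 + (shift p).2 = 0 := by
          simp only [shift, i, cls, col, Prod.fst_sub, Prod.snd_sub] at hcls hcol ⊢
          omega
        refine ⟨⟨⟨?_, fun j hj => ?_⟩, ?_, ?_⟩, ⟨?_, fun j hj => ?_⟩, hlh, hlr, hilt, hvh, hvr⟩
        · have := hsaw.piece (a := 0) (k := i + 1) (by omega) (by omega) (t := 0) rfl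
          rwa [sub_zero, hsaw.start] at this
        · rw [hlh] at hj
          rw [hvh j (by omega)]
          exact hcols j (by omega)
        · rwa [hlh, hvh _ (by omega), Nat.add_sub_cancel]
        · rw [hlh, hvh _ (by omega), Nat.add_sub_cancel, hcol]
          push_cast
          ring
        · rcases Nat.eq_zero_or_pos (p.length - (i + 1)) with h | h
          · exact Or.inl (List.length_eq_zero_iff.1 (hlr.trans h))
          refine Or.inr ?_
          have hsaw' := hsaw.piece (a := i + 1) (k := p.length - (i + 1)) h (by omega) hsh.1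
          obtain ⟨-, a2, -, a4⟩ := (col_step (hsaw.nbr i (by omega))).2.2.2 hcls
          have a5 := (hcols (i + 1) (by omega)).2
          rcases a4 (by push_cast at a5; omega) with e | e
          · refine Or.inl ?_
            convert! hsaw' using 1
            rw [e]
            simp only [shift, i, Prod.ext_iff, Prod.fst_sub, Prod.snd_sub, Prod.fst_add,
              Prod.snd_add]
            omega
          · refine Or.inr ?_
            convert! hsaw' using 1
            rw [e]
            simp only [shift, i, Prod.ext_iff, Prod.fst_sub, Prod.snd_sub, Prod.fst_add,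
              Prod.snd_add]
            omega
        · rw [hlr] at hj
          rw [hvr j hj]
          have h1 := hcols (i + 1 + j) (by omega)
          have h2 : cls (vtx p (i + 1 + j)) = 0 → col (vtx p (i + 1 + j)) ≠ M := fun hc hm =>
            hafter (i + 1 + j) (by omega) (by omega) ⟨by omega, hc, hm⟩
          push_cast at h1
          simp only [col, cls, Prod.fst_sub, Prod.snd_sub] at h1 h2 hsh ⊢
          omega
      calc ∑ p ∈ U, x ^ p.length
          = ∑ z ∈ U.image fun p => (head p, rest p), x ^ z.1.length * x ^ z.2.length := by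
            rw [Finset.sum_image fun p hp p' hp' he => ?_]
            · refine Finset.sum_congr rfl fun p hp => ?_
              obtain ⟨-, -, a3, a4, a5, -⟩ := key p hp
              simp only [a3, a4]
              rw [← pow_add, show idx p + 1 + (p.length - (idx p + 1)) = p.length by omega]
            simp only [Prod.mk.injEq] at he
            obtain ⟨-, -, a3, a4, a5, a6, a7⟩ := key p hp
            obtain ⟨-, -, b3, b4, b5, b6, b7⟩ := key p' hp'
            have hi : idx p = idx p' := by
              have := congrArg List.length he.1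
              omega
            have hlen : p.length = p'.length := by
              have := congrArg List.length he.2
              omega
            have hfirst : ∀ j ≤ idx p, vtx p j = vtx p' j := fun j hj => by
              rw [← a6 j hj, he.1, b6 j (hi ▸ hj)]
            have hsh : shift p = shift p' := by
              simp only [shift]
              rw [hfirst _ le_rfl, hi]
            refine list_ext_vtx hlen fun j hj => ?_
            rcases le_or_gt j (idx p) with h | h
            · exact hfirst j h
            · have e := a7 (j - (idx p + 1)) (by omega)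
              rw [he.2, b7 _ (by omega), ← hi, hsh, show idx p + 1 + (j - (idx p + 1)) = j by omega]
                at e
              exact (sub_left_injective e).symm
        _ ≤ ∑ z ∈ (U.image head) ×ˢ (U.image rest), x ^ z.1.length * x ^ z.2.length := by
            refine Finset.sum_le_sum_of_subset_of_nonneg (fun z hz => ?_) fun _ _ _ => by positivity
            obtain ⟨p, hp, rfl⟩ := Finset.mem_image.1 hz
            exact Finset.mem_product.2
              ⟨Finset.mem_image_of_mem _ hp, Finset.mem_image_of_mem _ hp⟩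
        _ = (∑ a ∈ U.image head, x ^ a.length) * ∑ b ∈ U.image rest, x ^ b.length := by
            rw [Finset.sum_product, Finset.sum_mul_sum]
        _ ≤ r ^ (M + 1) * (4 * B) := by
            refine mul_le_mul (sum_bridge_le hx hxc (M + 1) fun a ha => ?_)
              (sum_tail_le hx hx1 ih fun b hb => ?_) (Finset.sum_nonneg fun _ _ => by positivity)
              (pow_nonneg hr _)
            · obtain ⟨p, hp, rfl⟩ := Finset.mem_image.1 ha
              exact (key p hp).1
            · obtain ⟨p, hp, rfl⟩ := Finset.mem_image.1 hb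
              exact (key p hp).2.1
    have htot : ∑ p ∈ S, x ^ p.length =
        ∑ p ∈ S₁, x ^ p.length + (∑ p ∈ S₃, x ^ p.length + ∑ p ∈ S₂, x ^ p.length) := by
      simp only [S₁, S₂, S₃]
      rw [Finset.sum_filter_add_sum_filter_not, Finset.sum_filter_add_sum_filter_not]
    rw [htot, Finset.sum_range_succ, Real.exp_add]
    have hrM : 0 ≤ r ^ M := pow_nonneg hr M
    refine le_trans ?_ (mul_le_mul_of_nonneg_left (Real.add_one_le_exp (5 * r ^ M)) (by positivity))
    have e1 : x * r ^ M ≤ B * r ^ M := mul_le_mul_of_nonneg_right (hx1.trans hB1) hrM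
    have e2 : r ^ (M + 1) * (4 * B) ≤ r ^ M * (4 * B) :=
      mul_le_mul_of_nonneg_right (pow_le_pow_of_le_one hr hr1 (Nat.le_succ M)) (by positivity)
    nlinarith

theorem xc_lt_one : xc < 1 := by
  refine inv_lt_one_of_one_lt₀ ((Real.lt_sqrt zero_le_one).2 ?_)
  nlinarith [Real.sqrt_nonneg 2]

/-- **The series converges below the critical fugacity.** -/
theorem sawBounded_of_lt (hx : 0 < x) (hxc : x < xc) : SawBounded x := by
  have hx1 : x ≤ 1 := hxc.le.trans xc_lt_one.le
  set r := x / xc
  have hr : 0 ≤ r := div_nonneg hx.le xc_pos.le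
  have hr1 : r < 1 := (div_lt_one xc_pos).2 hxc
  set H := Real.exp (5 * (1 - r)⁻¹)
  have hH : ∀ (M : ℕ) (S : Finset (List (ℤ × ℤ))), (∀ p ∈ S, InCols M p) →
      ∑ p ∈ S, x ^ p.length ≤ H := fun M S hS => by
    have h1 := sum_inCols_le hx hxc hx1 M S hS
    have h2 : Real.exp (∑ k ∈ Finset.range M, 5 * r ^ k) ≤ H := by
      refine Real.exp_le_exp.2 ?_
      rw [← Finset.mul_sum]
      refine mul_le_mul_of_nonneg_left ?_ (by norm_num)
      rw [← tsum_geometric_of_lt_one hr hr1]
      exact (summable_geometric_of_lt_one hr hr1).sum_le_tsum _ fun _ _ => pow_nonneg hr _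
    linarith
  -- walks with a white vertex in their leftmost column
  set Good : List (ℤ × ℤ) → ℕ → Prop := fun p i =>
    i < p.length ∧ cls (vtx p i) = 1 ∧ ∀ j < p.length, col (vtx p i) ≤ col (vtx p j)
  have hgood : ∀ S : Finset (List (ℤ × ℤ)), (∀ p ∈ S, IsSaw (1, 0) p ∧ ∃ i, Good p i) →
      ∑ p ∈ S, x ^ p.length ≤ H * H / x := by
    intro S hS
    set idx : List (ℤ × ℤ) → ℕ := fun p => if h : ∃ i, Good p i then Nat.find h else 0
    set t : List (ℤ × ℤ) → ℤ × ℤ := fun p => vtx p (idx p) - (1, 0)
    set back : List (ℤ × ℤ) → List (ℤ × ℤ) := fun p =>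
      List.ofFn fun j : Fin (idx p + 1) => (fun j : ℕ => vtx p (idx p - j) - t p) j
    set fwd : List (ℤ × ℤ) → List (ℤ × ℤ) := fun p =>
      List.ofFn fun j : Fin (p.length - idx p) => (fun j : ℕ => vtx p (idx p + j) - t p) j
    set M := S.sup List.length
    have key : ∀ p ∈ S, InCols M (back p) ∧ InCols M (fwd p) ∧
        (back p).length = idx p + 1 ∧ (fwd p).length = p.length - idx p ∧ idx p < p.length ∧
        (∀ j ≤ idx p, vtx (back p) j = vtx p (idx p - j) - t p) ∧
        ∀ j < p.length - idx p, vtx (fwd p) j = vtx p (idx p + j) - t p := by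
      intro p hp
      obtain ⟨hsaw, hex⟩ := hS p hp
      obtain ⟨hilt, hcls, hmin⟩ : Good p (idx p) := by
        simp only [idx, dif_pos hex]
        exact Nat.find_spec hex
      set i := idx p
      have hM : p.length ≤ M := Finset.le_sup (f := List.length) hp
      have ht : cls (t p) = 0 ∧ ∀ v, col (v - t p) = col v - col (vtx p i) := by
        simp only [t, i, cls, col, Prod.fst_sub, Prod.snd_sub] at hcls ⊢
        exact ⟨by omega, fun v => by omega⟩
      have hlb : (back p).length = i + 1 := List.length_ofFn
      have hlf : (fwd p).length = p.length - i := List.length_ofFn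
      have hvb : ∀ j ≤ i, vtx (back p) j = vtx p (i - j) - t p := fun j hj =>
        vtx_ofFn (fun j : ℕ => vtx p (i - j) - t p) (Nat.lt_succ_of_le hj)
      have hvf : ∀ j < p.length - i, vtx (fwd p) j = vtx p (i + j) - t p := fun j hj =>
        vtx_ofFn (fun j : ℕ => vtx p (i + j) - t p) hj
      have hst : vtx p i - t p = (1, 0) := sub_sub_cancel _ _
      have hsf : IsSaw (1, 0) (fwd p) :=
        hst ▸ hsaw.piece (a := i) (k := p.length - i) (by omega) (by omega) ht.1
      have hsb : IsSaw (1, 0) (back p) := by
        refine ⟨by omega, (hvb 0 (Nat.zero_le _)).trans hst, fun j hj => ?_, fun a b hab hb => ?_⟩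
        · rw [hlb] at hj
          rw [hvb j (by omega), hvb _ (by omega)]
          have h := (hsaw.nbr (i - (j + 1)) (by omega)).symm
          rw [show i - (j + 1) + 1 = i - j by omega] at h
          refine ⟨?_, ?_, by simpa using h.2.2⟩
          · have h1 := h.1
            have h2 := ht.1
            simp only [IsVert, cls, Prod.fst_sub, Prod.snd_sub] at h1 h2 ⊢
            omega
          · have h1 := h.2.1
            have h2 := ht.1
            simp only [IsVert, cls, Prod.fst_sub, Prod.snd_sub] at h1 h2 ⊢
            omega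
        · rw [hlb] at hb
          rw [hvb a (by omega), hvb b (by omega)]
          simpa using (hsaw.inj (i - b) (i - a) (by omega) (by omega)).symm
      refine ⟨⟨hsb, fun j hj => ?_⟩, ⟨hsf, fun j hj => ?_⟩, hlb, hlf, hilt, hvb, hvf⟩
      · rw [hlb] at hj
        have hb := hsb.col_le j (by omega)
        rw [hvb j (by omega), ht.2] at hb ⊢
        have h := hmin (i - j) (by omega)
        simp only [col] at hb h ⊢
        omega
      · rw [hlf] at hj
        have hb := hsf.col_le j (by omega)
        rw [hvf j hj, ht.2] at hb ⊢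
        have h := hmin (i + j) (by omega)
        simp only [col] at hb h ⊢
        omega
    rw [le_div_iff₀ hx, Finset.sum_mul]
    calc ∑ p ∈ S, x ^ p.length * x
        = ∑ z ∈ S.image fun p => (back p, fwd p), x ^ z.1.length * x ^ z.2.length := by
          rw [Finset.sum_image fun p hp p' hp' he => ?_]
          · refine Finset.sum_congr rfl fun p hp => ?_
            obtain ⟨-, -, a3, a4, a5, -⟩ := key p hp
            simp only [a3, a4]
            rw [← pow_add, ← pow_succ, show idx p + 1 + (p.length - idx p) = p.length + 1 by omega]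
          simp only [Prod.mk.injEq] at he
          obtain ⟨-, -, a3, a4, a5, a6, a7⟩ := key p hp
          obtain ⟨-, -, b3, b4, b5, b6, b7⟩ := key p' hp'
          have hi : idx p = idx p' := by
            have := congrArg List.length he.1
            omega
          have hlen : p.length = p'.length := by
            have := congrArg List.length he.2
            omega
          have ht : t p = t p' := by
            have e := a6 (idx p) le_rfl
            rw [he.1, b6 _ hi.le, ← hi, Nat.sub_self, (hS p hp).1.start, (hS p' hp').1.start] at e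
            exact (sub_right_injective e).symm
          refine list_ext_vtx hlen fun j hj => ?_
          rcases le_or_gt j (idx p) with h | h
          · have e := a6 (idx p - j) (Nat.sub_le _ _)
            rw [he.1, b6 _ (by omega), ← hi, ht, show idx p - (idx p - j) = j by omega] at e
            exact (sub_left_injective e).symm
          · have e := a7 (j - idx p) (by omega)
            rw [he.2, b7 _ (by omega), ← hi, ht, show idx p + (j - idx p) = j by omega] at e
            exact (sub_left_injective e).symm
      _ ≤ ∑ z ∈ (S.image back) ×ˢ (S.image fwd), x ^ z.1.length * x ^ z.2.length := by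
          refine Finset.sum_le_sum_of_subset_of_nonneg (fun z hz => ?_) fun _ _ _ => by positivity
          obtain ⟨p, hp, rfl⟩ := Finset.mem_image.1 hz
          exact Finset.mem_product.2 ⟨Finset.mem_image_of_mem _ hp, Finset.mem_image_of_mem _ hp⟩
      _ = (∑ a ∈ S.image back, x ^ a.length) * ∑ b ∈ S.image fwd, x ^ b.length := by
          rw [Finset.sum_product, Finset.sum_mul_sum]
      _ ≤ H * H := mul_le_mul
          (hH M _ fun a ha => by
            obtain ⟨p, hp, rfl⟩ := Finset.mem_image.1 ha
            exact (key p hp).1)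
          (hH M _ fun b hb => by
            obtain ⟨p, hp, rfl⟩ := Finset.mem_image.1 hb
            exact (key p hp).2.1)
          (Finset.sum_nonneg fun _ _ => by positivity) (Real.exp_pos _).le
  refine ⟨H * H / x + H * H / x / x, fun S hS => ?_⟩
  rw [← Finset.sum_filter_add_sum_filter_not S fun p => ∃ i, Good p i]
  refine add_le_add (hgood _ fun p hp => ?_) ?_
  · obtain ⟨h1, h2⟩ := Finset.mem_filter.1 hp
    exact ⟨hS p h1, h2⟩
  set U := S.filter fun p => ¬∃ i, Good p i
  set grow : List (ℤ × ℤ) → List (ℤ × ℤ) := fun p => p ++ [vtx p (p.length - 1) + (-1, 1)]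
  have key : ∀ p ∈ U, IsSaw (1, 0) (grow p) ∧ ∃ i, Good (grow p) i := by
    intro p hp
    obtain ⟨hpS, hno⟩ := Finset.mem_filter.1 hp
    have hsaw := hS p hpS
    have h1 := hsaw.one_le
    obtain ⟨i, hi, hmin⟩ : ∃ i < p.length, ∀ j < p.length, col (vtx p i) ≤ col (vtx p j) := by
      obtain ⟨i, hi, h⟩ := Finset.exists_min_image (Finset.range p.length)
        (fun j => col (vtx p j)) ⟨0, Finset.mem_range.2 (by omega)⟩
      exact ⟨i, Finset.mem_range.1 hi, fun j hj => h j (Finset.mem_range.2 hj)⟩
    have hcls : cls (vtx p i) = 0 :=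
      (isVert_iff.1 (hsaw.vert (by decide) i hi)).resolve_right
        fun h => hno ⟨i, hi, h, hmin⟩
    have hw : ∀ j < p.length, cls (vtx p j) = 1 → col (vtx p j) ≠ col (vtx p i) := fun j hj h e =>
      hno ⟨j, hj, h, fun k hk => e ▸ hmin k hk⟩
    have hi0 : 1 ≤ i := by
      by_contra h
      rw [show i = 0 by omega, hsaw.start] at hcls
      simp [cls] at hcls
    have hend : i + 1 = p.length := by
      by_contra hne
      obtain ⟨a1, a2, a3, -⟩ := (col_step (hsaw.nbr i (by omega))).2.2.2 hcls
      have hb := (hsaw.nbr (i - 1) (by omega)).symm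
      rw [show i - 1 + 1 = i by omega] at hb
      obtain ⟨b1, b2, b3, -⟩ := (col_step hb).2.2.2 hcls
      exact hsaw.inj (i - 1) (i + 1) (by omega) (by omega)
        ((b3 (lt_of_le_of_ne b2 (Ne.symm (hw _ (by omega) b1)))).trans
          (a3 (lt_of_le_of_ne a2 (Ne.symm (hw _ (by omega) a1)))).symm)
    set z := vtx p (p.length - 1) + (-1, 1) with hz
    have hzi : z = vtx p i + (-1, 1) := by rw [hz, show p.length - 1 = i by omega]
    have hzc : cls z = 1 ∧ col z = col (vtx p i) := by
      rw [hzi]
      simp only [cls, col, Prod.fst_add, Prod.snd_add] at hcls ⊢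
      omega
    have hlen : (grow p).length = p.length + 1 := by simp [grow]
    have hvl : ∀ j < p.length, vtx (grow p) j = vtx p j := fun j hj => vtx_append_left hj
    have hvz : vtx (grow p) p.length = z := by
      simp only [grow]
      rw [vtx_append_right le_rfl, Nat.sub_self]
      rfl
    refine ⟨⟨by omega, (hvl 0 (by omega)).trans hsaw.start, fun j hj => ?_,
      fun a b hab hb => ?_⟩, p.length, by omega, hvz.symm ▸ hzc.1, fun j hj => ?_⟩
    · rw [hlen] at hj
      rcases (show j + 1 < p.length ∨ j = i by omega) with h | rfl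
      · rw [hvl j (by omega), hvl _ h]
        exact hsaw.nbr j h
      · rw [hvl j hi, show j + 1 = p.length from hend, hvz, hzi]
        refine ⟨hsaw.vert (by decide) j hi, hzi ▸ isVert_iff.2 (Or.inr hzc.1), ?_⟩
        rw [add_sub_cancel_left]
        rfl
    · rw [hlen] at hb
      rw [hvl a (by omega)]
      rcases (show b < p.length ∨ b = p.length by omega) with h | rfl
      · rw [hvl b h]
        exact hsaw.inj a b hab h
      · rw [hvz]
        exact fun e => hw a (by omega) (e ▸ hzc.1) (e ▸ hzc.2)
    · rw [hlen] at hj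
      rw [hvz, hzc.2]
      rcases (show j < p.length ∨ j = p.length by omega) with h | rfl
      · rw [hvl j h]
        exact hmin j h
      · rw [hvz, hzc.2]
  rw [le_div_iff₀ hx, Finset.sum_mul]
  calc ∑ p ∈ U, x ^ p.length * x = ∑ q ∈ U.image grow, x ^ q.length := by
        rw [Finset.sum_image fun p _ p' _ he => ?_]
        · exact Finset.sum_congr rfl fun p _ => by
            simp only [grow, List.length_append, List.length_singleton, pow_succ]
        exact (List.append_inj' he rfl).1
    _ ≤ H * H / x := hgood _ fun q hq => by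
        obtain ⟨p, hp, rfl⟩ := Finset.mem_image.1 hq
        exact key p hp

end FA.Honeycomb

end
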