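import Fermat.Agent.Honeycomb.Lattice

/-!
# Turning numbers of lattice paths

The turning of a self-avoiding path is the variation of the direction of its secants, moved over
the triangle of pairs of times; it is fixed by the endpoints for a path crossing a half plane and
by the side of the escape route for a loop.
-/

set_option autoImplicit false

noncomputable section

open Complex Finset
open scoped ComplexConjugate

namespace FA.Honeycomb

/-- The angle from `z` to `z'`. -/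
def ang (z z' : ℂ) : ℝ := arg (z' / z)

theorem arg_div_eq_sub {a b : ℂ} (ha : a ≠ 0) (hb : b ≠ 0)
    (h : arg a - arg b ∈ Set.Ioc (-Real.pi) Real.pi) : arg (a / b) = arg a - arg b := by
  rw [← arg_coe_angle_toReal_eq_arg (a / b), arg_div_coe_angle ha hb, ← Real.Angle.coe_sub,
    Real.Angle.toReal_coe_eq_self_iff_mem_Ioc.2 h]

/-- In a half plane, open at one of the two points, angles are differences of arguments. -/
theorem ang_eq_sub {c z z' : ℂ} (hz : 0 ≤ (c * z).re) (hz' : 0 ≤ (c * z').re)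
    (h : 0 < (c * z).re ∨ 0 < (c * z').re) (h0 : c * z ≠ 0) (h0' : c * z' ≠ 0) :
    ang z z' = arg (c * z') - arg (c * z) := by
  rw [ang, ← mul_div_mul_left z' z (left_ne_zero_of_mul h0), arg_div_eq_sub h0' h0]
  have h1 := abs_le.1 (abs_arg_le_pi_div_two_iff.2 hz)
  have h2 := abs_le.1 (abs_arg_le_pi_div_two_iff.2 hz')
  rcases h with h | h
  · have h3 := abs_lt.1 (abs_arg_lt_pi_div_two_iff.2 (Or.inl h))
    constructor <;> linarith
  · have h3 := abs_lt.1 (abs_arg_lt_pi_div_two_iff.2 (Or.inl h))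
    constructor <;> linarith

theorem ang_add_eq {c z₁ z₂ z₃ z₄ : ℂ} (h₁ : 0 < (c * z₁).re) (h₂ : 0 < (c * z₂).re)
    (h₃ : 0 < (c * z₃).re) (h₄ : 0 < (c * z₄).re) :
    ang z₁ z₂ + ang z₂ z₄ = ang z₁ z₃ + ang z₃ z₄ := by
  have hne : ∀ z : ℂ, 0 < (c * z).re → c * z ≠ 0 := fun z hz h => by simp [h] at hz
  rw [ang_eq_sub h₁.le h₂.le (Or.inl h₁) (hne _ h₁) (hne _ h₂),
    ang_eq_sub h₂.le h₄.le (Or.inl h₂) (hne _ h₂) (hne _ h₄),
    ang_eq_sub h₁.le h₃.le (Or.inl h₁) (hne _ h₁) (hne _ h₃),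
    ang_eq_sub h₃.le h₄.le (Or.inl h₃) (hne _ h₃) (hne _ h₄)]
  ring

/-- A sweep inside a half plane is the difference of the arguments at its ends. -/
theorem sum_ang_eq {c : ℂ} (Z : ℕ → ℂ) {a b : ℕ} (hab : a ≤ b)
    (h0 : ∀ i, a ≤ i → i ≤ b → c * Z i ≠ 0) (hge : ∀ i, a ≤ i → i ≤ b → 0 ≤ (c * Z i).re)
    (hgt : ∀ i, a ≤ i → i < b → 0 < (c * Z i).re ∨ 0 < (c * Z (i + 1)).re) :
    ∑ i ∈ Ico a b, ang (Z i) (Z (i + 1)) = arg (c * Z b) - arg (c * Z a) := by
  rw [← Finset.sum_Ico_sub (fun i => arg (c * Z i)) hab]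
  refine Finset.sum_congr rfl fun i hi => ?_
  rw [Finset.mem_Ico] at hi
  exact ang_eq_sub (hge i hi.1 hi.2.le) (hge _ (by omega) hi.2) (hgt i hi.1 hi.2)
    (h0 i hi.1 hi.2.le) (h0 _ (by omega) hi.2)

/-- Arguments add when the product lands in the right half plane from the right half plane. -/
theorem arg_mul_of_re_pos {c z : ℂ} (hz : 0 ≤ z.re) (hz0 : z ≠ 0) (h : 0 < (c * z).re) :
    arg (c * z) = arg c + arg z := by
  have hc : c ≠ 0 := fun hc => by simp [hc] at h
  have h1 := abs_le.1 (abs_arg_le_pi_div_two_iff.2 hz)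
  have h2 := neg_pi_lt_arg c
  have h3 := arg_le_pi c
  have hcos : 0 < Real.cos (arg c + arg z) := by
    have e : (c * z).re = ‖c‖ * ‖z‖ * Real.cos (arg c + arg z) := by
      rw [mul_re, Real.cos_add, ← norm_mul_cos_arg c, ← norm_mul_sin_arg c,
        ← norm_mul_cos_arg z, ← norm_mul_sin_arg z]
      ring
    rw [e] at h
    exact pos_of_mul_pos_right h (by positivity)
  refine arg_mul hc hz0 ⟨?_, ?_⟩
  · by_contra hle
    have h4 := Real.cos_nonpos_of_pi_div_two_le_of_le (x := -(arg c + arg z))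
      (by linarith [Real.pi_pos]) (by linarith [Real.pi_pos])
    rw [Real.cos_neg] at h4
    linarith
  · by_contra hle
    have h4 := Real.cos_nonpos_of_pi_div_two_le_of_le (x := arg c + arg z)
      (by linarith [Real.pi_pos]) (by linarith [Real.pi_pos])
    linarith

theorem ang_neg (z z' : ℂ) : ang (-z) (-z') = ang z z' := by rw [ang, ang, neg_div_neg_eq]

theorem pos_eq_zero {v : ℤ × ℤ} : pos v = 0 ↔ v = 0 := by
  refine ⟨fun h => ?_, fun h => by subst h; apply Complex.ext <;> simp [pos]⟩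
  have h1 := congrArg Complex.re h
  have h2 := congrArg Complex.im h
  simp only [pos, zero_re, zero_im, mul_eq_zero] at h1 h2
  rcases h2 with h2 | h2
  · rw [h2, zero_div, add_zero] at h1
    exact Prod.ext (by exact_mod_cast h1) (by exact_mod_cast h2)
  · linarith [Real.sqrt_pos.2 (show (0 : ℝ) < 3 by norm_num)]

theorem re_pos_eq (v : ℤ × ℤ) : (pos v).re = ((2 * v.1 + v.2 : ℤ) : ℝ) / 2 := by
  simp only [pos]
  push_cast
  ring

/-- The real turn at the middle of three points. -/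
def tau (u v w : ℤ × ℤ) : ℝ := ang (pos (v - u)) (pos (w - v))

/-- The turn in units of sixty degrees. -/
def turn (u v w : ℤ × ℤ) : ℤ := if w = v + rot (v - u) then 1 else -1

theorem pos_rot (v : ℤ × ℤ) :
    pos (rot v) = ⟨1 / 2, Real.sqrt 3 / 2⟩ * pos v ∧
      pos (rotInv v) = ⟨1 / 2, -(Real.sqrt 3 / 2)⟩ * pos v := by
  have h := Real.mul_self_sqrt (show (0 : ℝ) ≤ 3 by norm_num)
  constructor <;> apply Complex.ext <;> simp [pos, rot, rotInv] <;>
    first
      | ring1
      | linear_combination (v.2 : ℝ) / 4 * h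
      | linear_combination -((v.2 : ℝ) / 4) * h

theorem tau_eq {u v w : ℤ × ℤ} (h : Nbr u v) (h' : Nbr v w) (hne : w ≠ u) :
    tau u v w = Real.pi / 3 * turn u v w := by
  obtain ⟨-, -, -, -, hdiff, hw⟩ := nbr_turns h
  have hp0 : pos (v - u) ≠ 0 := fun h0 => h.ne (sub_eq_zero.1 (pos_eq_zero.1 h0)).symm
  have key : ∀ θ : ℝ, θ ∈ Set.Ioc (-Real.pi) Real.pi → pos (w - v) =
      ⟨Real.cos θ, Real.sin θ⟩ * pos (v - u) → tau u v w = θ := fun θ hθ he => by
    rw [tau, ang, he, mul_div_assoc, div_self hp0, mul_one,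
      show (⟨Real.cos θ, Real.sin θ⟩ : ℂ) = Complex.cos θ + Complex.sin θ * I by
        apply Complex.ext <;> simp [Complex.cos_ofReal_re, Complex.sin_ofReal_re],
      arg_cos_add_sin_mul_I hθ]
  rcases hw w h' hne with rfl | rfl
  · simp only [turn, if_true, Int.cast_one, mul_one]
    refine key _ ⟨by linarith [Real.pi_pos], by linarith [Real.pi_pos]⟩ ?_
    rw [add_sub_cancel_left, (pos_rot _).1, Real.cos_pi_div_three, Real.sin_pi_div_three]
  · simp only [turn, if_neg hdiff.symm, Int.cast_neg, Int.cast_one, mul_neg, mul_one]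
    refine key _ ⟨by linarith [Real.pi_pos], by linarith [Real.pi_pos]⟩ ?_
    rw [add_sub_cancel_left, (pos_rot _).2, Real.cos_neg, Real.sin_neg, Real.cos_pi_div_three,
      Real.sin_pi_div_three]

/-- The secant between two times. -/
def sec (P : ℕ → ℤ × ℤ) (i j : ℕ) : ℂ := pos (P j - P i)

/-- A square of secants closes when the two edges are disjoint. -/
theorem square_closes {a b c d : ℤ × ℤ} (hab : Nbr a b) (hcd : Nbr c d) (h1 : a ≠ c) (h2 : a ≠ d)
    (h3 : b ≠ c) (h4 : b ≠ d) :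
    ang (pos (c - a)) (pos (d - a)) + ang (pos (d - a)) (pos (d - b)) =
      ang (pos (c - a)) (pos (c - b)) + ang (pos (c - b)) (pos (d - b)) := by
  obtain ⟨k1, k2, k3, k4⟩ := ip_pos_of_disjoint hab hcd h1 h2 h3 h4
  exact ang_add_eq (c := conj (pos (c + d - a - b))) (re_conj_pos_mul_pos_iff.2 k1)
    (re_conj_pos_mul_pos_iff.2 k2) (re_conj_pos_mul_pos_iff.2 k3) (re_conj_pos_mul_pos_iff.2 k4)

/-- A triangle of secants closes at a turn. -/
theorem triangle_closes {u v w : ℤ × ℤ} (h : Nbr u v) (h' : Nbr v w) (hne : w ≠ u) :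
    tau u v w = ang (pos (v - u)) (pos (w - u)) + ang (pos (w - u)) (pos (w - v)) := by
  obtain ⟨-, -, -, -, -, hw⟩ := nbr_turns h
  have hn : nrm (v - u) = 1 := h.2.2
  have hip : 0 < ip (w - u) (v - u) ∧ 0 < ip (w - u) (w - u) ∧ 0 < ip (w - u) (w - v) := by
    simp only [nrm] at hn
    rcases hw w h' hne with rfl | rfl <;>
      simp only [ip, rot, rotInv, Prod.fst_sub, Prod.snd_sub, Prod.fst_add, Prod.snd_add] at * <;>
      refine ⟨?_, ?_, ?_⟩ <;> linarith
  set c := conj (pos (w - u))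
  have k1 := re_conj_pos_mul_pos_iff.2 hip.1
  have k2 := re_conj_pos_mul_pos_iff.2 hip.2.1
  have k3 := re_conj_pos_mul_pos_iff.2 hip.2.2
  have hz : ∀ z : ℂ, 0 < (c * z).re → c * z ≠ 0 := fun z hz h => by simp [h] at hz
  rw [tau, ang_eq_sub k1.le k3.le (Or.inl k1) (hz _ k1) (hz _ k3),
    ang_eq_sub k1.le k2.le (Or.inl k1) (hz _ k1) (hz _ k2),
    ang_eq_sub k2.le k3.le (Or.inl k2) (hz _ k2) (hz _ k3)]
  ring

/-- A self-avoiding path of length `N`. -/
structure IsPathUpTo (P : ℕ → ℤ × ℤ) (N : ℕ) : Prop where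
  nbr : ∀ i < N, Nbr (P i) (P (i + 1))
  inj : ∀ i j, i < j → j ≤ N → P i ≠ P j

/-- **The turning of a path is the sweep of its secants.** -/
theorem sum_tau_eq {P : ℕ → ℤ × ℤ} {N : ℕ} (h : IsPathUpTo P N) : ∀ j, 1 ≤ j → j ≤ N →
    ∑ i ∈ Ico 0 (j - 1), tau (P i) (P (i + 1)) (P (i + 2)) =
      ∑ l ∈ Ico 1 j, ang (sec P 0 l) (sec P 0 (l + 1)) +
        ∑ i ∈ Ico 0 (j - 1), ang (sec P i j) (sec P (i + 1) j)
  | 0, hj, _ => absurd hj (by omega)
  | 1, _, _ => by simp
  | j + 2, _, hj => by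
    have ih := sum_tau_eq h (j + 1) (by omega) (by omega)
    rw [Nat.add_sub_cancel] at ih
    have key : ∀ m ≤ j, ∑ i ∈ Ico 0 m, ang (sec P i (j + 2)) (sec P (i + 1) (j + 2)) +
        ang (sec P 0 (j + 1)) (sec P 0 (j + 2)) =
        ∑ i ∈ Ico 0 m, ang (sec P i (j + 1)) (sec P (i + 1) (j + 1)) +
          ang (sec P m (j + 1)) (sec P m (j + 2)) := by
      intro m hm
      induction m with
      | zero => simp
      | succ m ihm =>
        have hsq := square_closes (h.nbr m (by omega)) (h.nbr (j + 1) (by omega))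
          (h.inj m (j + 1) (by omega) (by omega)) (h.inj m (j + 2) (by omega) (by omega))
          (h.inj (m + 1) (j + 1) (by omega) (by omega))
          (h.inj (m + 1) (j + 2) (by omega) (by omega))
        simp only [Finset.sum_Ico_succ_top (Nat.zero_le m), sec] at ihm hsq ⊢
        linarith [ihm (by omega)]
    have ht := triangle_closes (h.nbr j (by omega)) (h.nbr (j + 1) (by omega))
      (h.inj j (j + 2) (by omega) (by omega)).symm
    have := key j le_rfl
    simp only [show j + 2 - 1 = j + 1 from rfl,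
      Finset.sum_Ico_succ_top (show 1 ≤ j + 1 by omega), Finset.sum_Ico_succ_top (Nat.zero_le j),
      sec] at ht this ih ⊢
    linarith

/-- **The turning of a crossing path** leaving along `d` across a half plane. -/
theorem sum_tau_crossing {P : ℕ → ℤ × ℤ} {N : ℕ} (h : IsPathUpTo P N) (hN : 2 ≤ N)
    (h01 : P 1 - P 0 = (1, 0)) (hre : ∀ l, 1 ≤ l → l < N → 0 < (pos (P l - P 0)).re)
    (hreN : 0 ≤ (pos (P N - P 0)).re)
    (hd : ∀ i < N, 0 < ip (P N - P (N - 1)) (P N - P i)) :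
    ∑ i ∈ Ico 0 (N - 1), tau (P i) (P (i + 1)) (P (i + 2)) = arg (pos (P N - P (N - 1))) := by
  rw [sum_tau_eq h N (by omega) le_rfl]
  set d := pos (P N - P (N - 1))
  have hne : ∀ i j, i < j → j ≤ N → pos (P j - P i) ≠ 0 := fun i j hij hj h0 =>
    h.inj i j hij hj (sub_eq_zero.1 (pos_eq_zero.1 h0)).symm
  have hp1 : pos (P 1 - P 0) = 1 := by rw [h01]; apply Complex.ext <;> simp [pos]
  have hd0 : 0 < (conj d * pos (P N - P (N - 1))).re :=
    re_conj_pos_mul_pos_iff.2 (hd (N - 1) (by omega))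
  have hdc : conj d * d = ((normSq d : ℝ) : ℂ) := by rw [mul_comm, mul_conj]
  rw [sum_ang_eq (c := 1) (fun l => sec P 0 l) (by omega)
      (fun l h1 h2 => by rw [one_mul]; exact hne 0 l h1 h2)
      (fun l h1 h2 => by
        rw [one_mul]
        rcases h2.lt_or_eq with h3 | rfl
        · exact (hre l h1 h3).le
        · exact hreN)
      (fun l h1 h2 => Or.inl (by rw [one_mul]; exact hre l h1 h2)),
    sum_ang_eq (c := conj d) (fun i => sec P i N) (Nat.zero_le _)
      (fun i _ h2 h0 => by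
        have h3 := re_conj_pos_mul_pos_iff.2 (hd i (by omega))
        rw [show pos (P N - P i) = sec P i N from rfl, h0] at h3
        exact lt_irrefl _ h3)
      (fun i _ h2 => (re_conj_pos_mul_pos_iff.2 (hd i (by omega))).le)
      (fun i _ h2 => Or.inl (re_conj_pos_mul_pos_iff.2 (hd i (by omega))))]
  simp only [sec, one_mul, hp1, arg_one, sub_zero]
  rw [show pos (P N - P (N - 1)) = d from rfl, hdc, arg_ofReal_of_nonneg (normSq_nonneg _),
    arg_mul_of_re_pos hreN (hne 0 N (by omega) le_rfl)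
      (re_conj_pos_mul_pos_iff.2 (hd 0 (by omega))),
    arg_conj, if_neg]
  · ring
  · intro hpi
    have h1 : conj d * pos (P N - P 0) = ((d.re : ℝ) : ℂ) * pos (P N - P 0) := by
      congr 1
      apply Complex.ext
      · simp
      · simpa using (arg_eq_pi_iff.1 hpi).2
    have h2 := re_conj_pos_mul_pos_iff.2 (hd 0 (by omega))
    rw [h1, re_ofReal_mul] at h2
    nlinarith [(arg_eq_pi_iff.1 hpi).1]

/-- **The turning of a path returning to the boundary line.** -/
theorem sum_tau_returning {P : ℕ → ℤ × ℤ} {N : ℕ} (h : IsPathUpTo P N) (hN : 2 ≤ N)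
    (h01 : P 1 - P 0 = (1, 0)) (hre : ∀ l, 1 ≤ l → l < N → 0 < (pos (P l - P 0)).re)
    (hreN : (pos (P N - P 0)).re = 0) (hd : P N - P (N - 1) = (-1, 0)) :
    ∑ i ∈ Ico 0 (N - 1), tau (P i) (P (i + 1)) (P (i + 2)) = Real.pi ∨
      ∑ i ∈ Ico 0 (N - 1), tau (P i) (P (i + 1)) (P (i + 2)) = -Real.pi := by
  have hne : ∀ i j, i < j → j ≤ N → pos (P j - P i) ≠ 0 := fun i j hij hj h0 =>
    h.inj i j hij hj (sub_eq_zero.1 (pos_eq_zero.1 h0)).symm
  have hp1 : pos (P 1 - P 0) = 1 := by rw [h01]; apply Complex.ext <;> simp [pos]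
  have hlast : pos (P N - P (N - 1)) = -1 := by rw [hd]; apply Complex.ext <;> simp [pos]
  have hlt : ∀ i, 1 ≤ i → i < N → 0 < ((-1 : ℂ) * pos (P N - P i)).re := fun i h1 h2 => by
    have e : P N - P i = (P N - P 0) - (P i - P 0) := by abel
    rw [neg_one_mul, neg_re, e, pos_sub, sub_re, hreN]
    linarith [hre i h1 h2]
  rw [sum_tau_eq h N (by omega) le_rfl,
    sum_ang_eq (c := 1) (fun l => sec P 0 l) (by omega)
      (fun l h1 h2 => by rw [one_mul]; exact hne 0 l h1 h2)
      (fun l h1 h2 => by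
        rw [one_mul]
        rcases h2.lt_or_eq with h3 | rfl
        · exact (hre l h1 h3).le
        · exact hreN.ge)
      (fun l h1 h2 => Or.inl (by rw [one_mul]; exact hre l h1 h2)),
    sum_ang_eq (c := -1) (fun i => sec P i N) (Nat.zero_le _)
      (fun i _ h2 => by rw [neg_one_mul, neg_ne_zero]; exact hne i N (by omega) le_rfl)
      (fun i _ h2 => by
        rcases Nat.eq_zero_or_pos i with rfl | hi
        · simp [sec, hreN]
        · exact (hlt i hi (by omega)).le)
      (fun i _ h2 => Or.inr (hlt (i + 1) (by omega) (by omega)))]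
  simp only [sec, one_mul, hp1, arg_one, sub_zero, hlast, neg_one_mul, neg_neg, zero_sub]
  have him : (pos (P N - P 0)).im ≠ 0 := fun h0 =>
    hne 0 N (by omega) le_rfl (Complex.ext hreN h0)
  rcases him.lt_or_gt with h0 | h0
  · rw [arg_neg_eq_arg_add_pi_of_im_neg h0]
    right; ring
  · rw [arg_neg_eq_arg_sub_pi_of_im_pos h0]
    left; ring

theorem ang_eq_of_mul {z z' : ℂ} (hz : z ≠ 0) {r : ℝ} (hr : 0 < r) {s : ℤ}
    (hs : s = 1 ∨ s = -1) (h : z' = (r : ℂ) * ⟨Real.sqrt 3 / 2, (s : ℝ) / 2⟩ * z) :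
    ang z z' = s * (Real.pi / 6) := by
  have hθ : (s : ℝ) * (Real.pi / 6) ∈ Set.Ioc (-Real.pi) Real.pi := by
    rcases hs with rfl | rfl <;> constructor <;> push_cast <;> linarith [Real.pi_pos]
  have e : (⟨Real.sqrt 3 / 2, (s : ℝ) / 2⟩ : ℂ) = Complex.cos ((s * (Real.pi / 6) : ℝ) : ℂ) +
      Complex.sin ((s * (Real.pi / 6) : ℝ) : ℂ) * I := by
    rw [← Complex.ofReal_cos, ← Complex.ofReal_sin]
    rcases hs with rfl | rfl <;> apply Complex.ext <;>
      simp [Real.cos_pi_div_six, Real.sin_pi_div_six] <;> ring1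
  rw [ang, h, mul_div_assoc, div_self hz, mul_one, e, arg_mul_cos_add_sin_mul_I hr hθ]

end FA.Honeycomb

end
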